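import Fermat.Agent.MR.Lift.SkelInterface
import Fermat.Agent.BR.Inst.Res
import Fermat.Agent.BR.Inst.BasicS
import Fermat.Agent.BR.Inst.AL
import Fermat.Agent.BR.Inst.ALProps
import Fermat.Agent.BR.Inst.Red1
import Fermat.Agent.BR.Inst.LKf
import Fermat.Agent.BR.Inst.FrobKf
import Fermat.Agent.BR.Inst.DegS
import Fermat.Agent.BR.Inst.DegProd
import Fermat.Agent.BR.Inst.Ortho2
import Fermat.Agent.BR.Inst.Approx
import Fermat.Agent.INJ.Inst.AllInst
import Fermat.Agent.INJ.Inst.ArchD36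
import Fermat.Agent.ORD.Dep.GOApi

/-!
# MR / Lift : LIFT-S1.  The residue field of `v_∞` at level `N' p` is `Kf k N'`, for every `N'` prime
to `p` (`Stmt_ResP`).

Copy of `BR/Inst/BasicS.lean` + `BR/Inst/Res.lean` (helper81, task 825) without the auxiliary level: the
coordinate is `s = j(q^M)` (`c = 0`), the chart at level `M` is `INJ.Inst.all_ChartS`.
-/

set_option autoImplicit false
set_option synthInstance.maxHeartbeats 400000

noncomputable section

namespace Fermat.Agent.MR.Lift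

open Polynomial IntermediateField AlgebraicCurve ModularCurve
open Fermat.Agent Fermat.Agent.INJ Fermat.Agent.INJ.Inst Fermat.Agent.BR.Inst
open Fermat.Agent.S24 (Qbar FF)
open Fermat.Agent.S28 (Kf)

set_option maxHeartbeats 1000000 in
/-- the basic facts on `s = j(q^M) - c`, `sr = j(q^(M r)) - c` (no auxiliary level). -/
theorem ResP_basic (M r c : ℕ) [NeZero (M * r)] (hr : r.Prime) (A : ValuationSubring Qb)
    (hA : A.LiesOverPrime r) (L : IntermediateField (kA A) (LaurentSeries (kA A)))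
    (D : RedData Qb (FL (M * r)) (kA A) L) (W : FL (M * r) ≃ₐ[Qb] FL (M * r))
    (s sr : FL (M * r)) (hgauss : IsGaussS (M * r) A L D) (hal : IsAL M r W)
    (hs : (s : LaurentSeries Qb) = sS M c Qb) (hsr : (sr : LaurentSeries Qb) = sS (M * r) c Qb) :
    W s = sr ∧ W sr = s ∧ s ∈ D.O ∧ sr ∈ D.O ∧ D.rd sr = D.rd s ^ r ∧
    Transcendental (kA A) (D.rd s) ∧ (∃ ε : FL (M * r), InO2 D W ε ∧ rd2 D W ε = (1, 0)) := by
  have : Fact r.Prime := ⟨hr⟩
  have hN : M * r ≠ 0 := NeZero.ne _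
  have hM : M ≠ 0 := fun h => hN (by rw [h, zero_mul])
  have hr0 : r ≠ 0 := hr.ne_zero
  have : IsAlgClosed (kA A) := S18G.isAlgClosed_kA A
  have : CharP (kA A) r := ES.Mid.HF3.charP_residue A r hA
  -- the elements `j(q^M)`, `j(q^(M r))`
  let jM : FL (M * r) := ⟨S28.jd Qb M, jd_mem_bar hN (Dvd.intro r rfl)⟩
  let jMr : FL (M * r) := ⟨S28.jd Qb (M * r), jd_mem_bar hN dvd_rfl⟩
  have hsj : s = jM - (c : FL (M * r)) := by
    apply Subtype.ext
    rw [hs, sS]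
    push_cast
    rfl
  have hsrj : sr = jMr - (c : FL (M * r)) := by
    apply Subtype.ext
    rw [hsr, sS]
    push_cast
    rfl
  have hW1 : W jM = jMr := by
    refine hal M 1 dvd_rfl (one_dvd r) jM jMr ?_ ?_
    · rw [mul_one]
    · rw [Nat.div_one]
  have hW2 : W jMr = jM := by
    refine hal M r dvd_rfl dvd_rfl jMr jM rfl ?_
    rw [Nat.div_self hr.pos, mul_one]
  have hWs : W s = sr := by rw [hsj, hsrj, map_sub, map_natCast, hW1]
  have hWsr : W sr = s := by rw [hsj, hsrj, map_sub, map_natCast, hW2]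
  -- reductions
  obtain ⟨hsO, hsb⟩ := hgauss.gauss.mem_rd (sS M c A) s (by rw [hs, BS_coeffMap_sS])
  rw [BS_coeffMap_sS] at hsb
  obtain ⟨hsrO, hsrb⟩ := hgauss.gauss.mem_rd (sS (M * r) c A) sr (by rw [hsr, BS_coeffMap_sS])
  rw [BS_coeffMap_sS] at hsrb
  have hpow : D.rd sr = D.rd s ^ r := by
    apply Subtype.ext
    rw [hsrb]
    push_cast
    rw [hsb, (stmt_FrobKf (kA A) r M).2.2 (frobenius (kA A) r) (fun x => rfl) (sS M c (kA A)),
      BS_Vq_sS _ hr0 hM, BS_coeffMap_sS, mul_comm]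
  have htr : Transcendental (kA A) (D.rd s) :=
    transcendental_of_coe (by rw [hsb]; exact BS_transcendental_sS _ hM c)
  refine ⟨hWs, hWsr, hsO, hsrO, hpow, htr, ?_⟩
  -- the separating element
  set a1 : FL (M * r) := sr - s ^ r with ha1
  set b1 : FL (M * r) := s - sr ^ r with hb1
  have ha1O : a1 ∈ D.O := sub_mem hsrO (pow_mem hsO r)
  have hb1O : b1 ∈ D.O := sub_mem hsO (pow_mem hsrO r)
  have hra1 : D.rd a1 = 0 := by
    rw [ha1, RedData.rd_sub hsrO (pow_mem hsO r), RedData.rd_pow hsO, hpow, sub_self]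
  have hrb1 : D.rd b1 ≠ 0 := by
    rw [hb1, RedData.rd_sub hsO (pow_mem hsrO r), RedData.rd_pow hsrO, hpow, ← pow_mul]
    intro h0
    have h1 : aeval (D.rd s) (X - X ^ (r * r) : (kA A)[X]) = 0 := by
      rw [map_sub, map_pow, aeval_X]; exact h0
    have h2 := (transcendental_iff.mp htr) _ h1
    have h3 := congrArg (fun p : (kA A)[X] => p.coeff 1) h2
    have hrr : r * r ≠ 1 := by
      have := hr.two_le
      nlinarith
    simp only [coeff_sub, coeff_X_one, coeff_X_pow, coeff_zero] at h3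
    rw [if_neg (fun h => hrr h.symm), sub_zero] at h3
    exact one_ne_zero h3
  have hWa : W a1 = b1 := by rw [ha1, hb1, map_sub, map_pow, hWs, hWsr]
  have hWb : W b1 = a1 := by rw [ha1, hb1, map_sub, map_pow, hWs, hWsr]
  have hsum : D.rd (a1 + b1) = D.rd b1 := by rw [RedData.rd_add ha1O hb1O, hra1, zero_add]
  have hsum0 : D.rd (a1 + b1) ≠ 0 := by rw [hsum]; exact hrb1
  have hWε : W (b1 / (a1 + b1)) = a1 / (a1 + b1) := by
    rw [map_div₀, map_add, hWa, hWb, add_comm]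
  refine ⟨b1 / (a1 + b1), ⟨RedData.div_mem hb1O hsum0, ?_⟩, ?_⟩
  · rw [hWε]; exact RedData.div_mem ha1O hsum0
  · unfold rd2
    rw [hWε, RedData.rd_div hb1O hsum0, RedData.rd_div ha1O hsum0, hsum, hra1, div_self hrb1,
      zero_div]

theorem ResP_sS_zero (d : ℕ) (R : Type) [CommRing R] : sS d 0 R = S28.jd R d := by
  rw [sS, Nat.cast_zero, sub_zero]

set_option maxHeartbeats 2000000 in
/-- the residue field of `v_∞` at level `M r` is `Kf k M`, for every `M` prime to `r`. -/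
theorem ResP_core (M r : ℕ) [NeZero M] [NeZero (M * r)] (hr : r.Prime) (hrM : ¬ r ∣ M)
    (A : ValuationSubring Qb) (hA : A.LiesOverPrime r)
    (L : IntermediateField (kA A) (LaurentSeries (kA A)))
    (D : RedData Qb (FL (M * r)) (kA A) L) (hG : IsGaussS (M * r) A L D) :
    L = S28.Kf (kA A) M := by
  have hN : M * r ≠ 0 := NeZero.ne _
  have hM0 : M ≠ 0 := NeZero.ne M
  have : Fact r.Prime := ⟨hr⟩
  obtain ⟨W, hal⟩ := stmt_AL M r ((Nat.Prime.coprime_iff_not_dvd hr).2 hrM).symm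
  obtain ⟨s, hs⟩ : ∃ s : FL (M * r), (s : LaurentSeries Qb) = sS M 0 Qb :=
    ⟨⟨sS M 0 Qb, by rw [ResP_sS_zero]; exact jd_mem_bar hN (Dvd.intro r rfl)⟩, rfl⟩
  obtain ⟨sr, hsr⟩ : ∃ sr : FL (M * r), (sr : LaurentSeries Qb) = sS (M * r) 0 Qb :=
    ⟨⟨sS (M * r) 0 Qb, by rw [ResP_sS_zero]; exact jd_mem_bar hN dvd_rfl⟩, rfl⟩
  obtain ⟨hWs, hWsr, hsO, hsrO, hrdsr, htr, hε⟩ := ResP_basic M r 0 hr A hA L D W s sr hG hal hs hsr
  obtain ⟨L', D', hG'⟩ := exists_gaussS M A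
  -- the coordinate at level `M`
  obtain ⟨s0, hs0⟩ : ∃ s0 : FL M, (s0 : LaurentSeries Qb) = sS M 0 Qb :=
    ⟨⟨sS M 0 Qb, by rw [ResP_sS_zero]; exact jd_mem_bar hM0 dvd_rfl⟩, rfl⟩
  have hChart : Chart D' s0 :=
    all_ChartS M r hrM A hA L' D' hG'.gauss s0 (by rw [hs0, ResP_sS_zero])
  have hdeg' := (all_Trace Qb (FL M) (kA A) L' D' s0 hChart).1
  have hfin' : FiniteDimensional (kA A)⟮D'.rd s0⟯ L' :=
    stmt_ResFinite Qb (FL M) (kA A) L' D' s0 hChart.t_mem hChart.trans hChart.fin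
  have hL' : L' = S28.Kf (kA A) M := stmt_LKf M r hrM A hA L' D' hG'.gauss
  -- lifting from level `M` to level `M r`
  have hlift : ∀ x' : FL M, ∃ x : FL (M * r), (x : LaurentSeries Qb) = (x' : LaurentSeries Qb) :=
    fun x' => ⟨⟨_, (stmt_Levels M r _ x'.2).1⟩, rfl⟩
  have hkey : ∀ y' : L', ∃ x : FL (M * r), (x : LaurentSeries Qb) ∈ modularFunctionFieldBar M ∧
      x ∈ D.O ∧ ((D.rd x : L) : LaurentSeries (kA A)) = (y' : LaurentSeries (kA A)) := by
    intro y'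
    obtain ⟨x', hx', hxy⟩ := RedData.exists_rd_eq (D := D') y'
    obtain ⟨x, hx⟩ := hlift x'
    obtain ⟨h1, h2⟩ := stmt_RedLevel (M * r) M A L L' D D' hG hG' x x' hx
    exact ⟨x, hx ▸ x'.2, h1.2 hx', by rw [h2, hxy]⟩
  have hle : L' ≤ L := by
    intro y hy
    obtain ⟨x, -, -, hx⟩ := hkey ⟨y, hy⟩
    have : ((D.rd x : L) : LaurentSeries (kA A)) = y := hx
    rw [← this]
    exact (D.rd x).2
  -- degrees
  obtain ⟨hf1, hd1⟩ := stmt_DegS M r 0 hr hrM s0 sr hs0 hsr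
  obtain ⟨hf2, hd2⟩ := stmt_DegW Qb (FL (M * r)) W sr hf1
  rw [hWsr] at hf2 hd2
  have hArch : Arch D := AR36_stmt_ArchD (M * r) r A hA L D hG.gauss
  obtain ⟨hf3, hd3⟩ := RS_core stmt_Ortho2 stmt_Approx D W s sr r hr.pos hWs hsO hsrO hrdsr htr hε
    hArch hf2
  have hn : Module.finrank (kA A)⟮D.rd s⟯ L ≤ Module.finrank (kA A)⟮D'.rd s0⟯ L' := by
    rw [hdeg']
    refine Nat.le_of_mul_le_mul_left ?_ (Nat.succ_pos r)
    calc (r + 1) * Module.finrank (kA A)⟮D.rd s⟯ L ≤ Module.finrank Qb⟮s⟯ (FL (M * r)) := hd3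
      _ = Module.finrank Qb⟮sr⟯ (FL (M * r)) := hd2
      _ ≤ _ := hd1
  have hι : IntermediateField.inclusion hle (D'.rd s0) = D.rd s := by
    apply Subtype.ext
    have := (stmt_RedLevel (M * r) M A L L' D D' hG hG' s s0 (by rw [hs, hs0])).2
    rw [this]
    rfl
  have hsurj := RS_surj (IntermediateField.inclusion hle) (D'.rd s0) (D.rd s) hι hfin' hf3 hn
  have hLL' : L = L' := by
    refine le_antisymm ?_ hle
    intro y hy
    obtain ⟨y', hy'⟩ := hsurj ⟨y, hy⟩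
    have : (y' : LaurentSeries (kA A)) = y := congrArg Subtype.val hy'
    rw [← this]
    exact y'.2
  exact hLL'.trans hL'

theorem stmt_ResP : Stmt_ResP := by
  intro p hp A hA N' _ hpN x hx hGO
  have : NeZero (N' * p) := ⟨Nat.mul_ne_zero (NeZero.ne N') hp.ne_zero⟩
  obtain ⟨L, D, hG⟩ := exists_gaussS (N' * p) A
  have hL : L = S28.Kf (kA A) N' := ResP_core N' p hp hpN A hA L D hG
  obtain ⟨f, g, hfg⟩ := hGO
  obtain ⟨-, h2⟩ := hG.ratio ⟨x, hx⟩ f g hfg.1 hfg.2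
  rw [ORD.Dep.rd_eq hfg, ← hL]
  have h3 : ((D.rd ⟨x, hx⟩ : L) : LaurentSeries (kA A)) ∈ L := (D.rd ⟨x, hx⟩).2
  rw [h2] at h3
  exact h3

end Fermat.Agent.MR.Lift

end
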