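import Fermat.Agent.MR.Lift.ANInterface

/-!
# MR / Lift / AN : (C3a2) basic properties and order of `Dj` (`Stmt_DjBasic`, `Stmt_OrdDj`)
-/

set_option autoImplicit false
set_option synthInstance.maxHeartbeats 400000

noncomputable section

namespace Fermat.Agent.MR.Lift

open UpperHalfPlane CongruenceSubgroup ModularForm Filter Topology
open Fermat.Agent.S24 (Qbar FF funAlg iota jF jFun MerGerm)
open Fermat.Agent.S24.QX (qExpHom)
open Fermat.Agent.S24.B7a (locFun locFun_analyticAt epsHom)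
open Fermat.Agent.ES.Mid.A (embFin)
open scoped MatrixGroups Manifold ModularForm

theorem ANDj_slash_zero (g : SL(2, ℤ)) : jFun ∣[(0 : ℤ)] g = jFun := by
  ext τ
  rw [ModularForm.SL_slash_apply, Fermat.Agent.S24.jFun_smul]
  simp

/-- (C3a2) -/
theorem stmt_DjBasic : Stmt_DjBasic := by
  refine ⟨Derivative.normalizedDerivOfComplex_mdifferentiable Fermat.Agent.S24.jFun_mdiff, ?_, ?_⟩
  · intro g
    have h := Derivative.normalizedDerivOfComplex_SL_slash (k := 0)
      Fermat.Agent.S24.jFun_mdiff (γ := g)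
    rw [ANDj_slash_zero] at h
    ext τ
    have h1 := congrFun h τ
    simp only [Pi.sub_apply, Int.cast_zero, zero_mul, sub_zero, zero_add] at h1
    exact h1.symm
  · obtain ⟨c, hc, h⟩ := Fermat.Agent.S24.exists_D_jFun
    refine ⟨c, hc, fun τ => ?_⟩
    have hΔ := discriminant_ne_zero τ
    rw [Dj, h τ, jFun]
    field_simp

/-- the germ of `j` at `z`. -/
theorem ANDj_embFin (N : ℕ) [NeZero N] (z : ℍ) :
    embFin N z (jF N) = MerGerm.mk (locFun z jFun)
      (locFun_analyticAt Fermat.Agent.S24.jFun_mdiff z).meromorphicAt := by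
  have h1 : jF N = qExpHom N (Fermat.Agent.S24.jAlg N 1 (one_dvd N)) :=
    (Fermat.Agent.S24.QX.qExpHom_jAlg N 1 (one_dvd N)).symm
  rw [h1, Fermat.Agent.ES.Mid.A.embFin_qExpHom]
  unfold Fermat.Agent.S24.jAlg
  rw [Fermat.Agent.S24.B7a.epsHom_mk]
  refine Fermat.Agent.S24.B7a.merGerm_mk_congr _ _ ?_
  congr 1
  ext τ
  rw [Fermat.Agent.S24.B7a.jFunD_one, Fermat.Agent.S24.jFun_smul]

theorem ANDj_deriv_locFun (z : ℍ) :
    deriv (locFun z jFun) = (deriv (jFun ∘ ofComplex)) ∘ (· + (z : ℂ)) := by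
  ext u
  exact deriv_comp_add_const (jFun ∘ ofComplex) (z : ℂ) u

/-- the germ of `j` at `z` is not constant. -/
theorem ANDj_deriv_ne_zero (z : ℍ) :
    MerGerm.deriv (MerGerm.mk (locFun z jFun)
      (locFun_analyticAt Fermat.Agent.S24.jFun_mdiff z).meromorphicAt) ≠ 0 := by
  have hG : MDiff (fun τ : ℍ => jFun τ + -jFun z) :=
    Fermat.Agent.S24.jFun_mdiff.add mdifferentiable_const
  have han := locFun_analyticAt hG z
  have e : MerGerm.mk (locFun z jFun)
      (locFun_analyticAt Fermat.Agent.S24.jFun_mdiff z).meromorphicAt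
        + algebraMap ℂ MerGerm (-jFun z)
      = MerGerm.mk (locFun z (fun τ : ℍ => jFun τ + -jFun z)) han.meromorphicAt := by
    rw [← MerGerm.mk_const, ← MerGerm.mk_add]
    rfl
  have hne : MerGerm.mk (locFun z (fun τ : ℍ => jFun τ + -jFun z)) han.meromorphicAt ≠ 0 := by
    intro h0
    rw [← MerGerm.mk_zero, MerGerm.mk_eq_mk_iff] at h0
    have h1 : (fun τ : ℍ => jFun τ + -jFun z) = fun _ => 0 :=
      Fermat.Agent.S24.B7a.eq_of_locFun_eventuallyEq hG mdifferentiable_const z h0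
    have h2 := congrFun h1 UpperHalfPlane.I
    have h3 := congrFun h1 Fermat.Agent.S24.rho
    simp only [Fermat.Agent.S24.jFun_I, Fermat.Agent.S24.jFun_rho] at h2 h3
    have : (1728 : ℂ) = 0 := by linear_combination h2 - h3
    norm_num at this
  have hpos : 0 < (MerGerm.mk (locFun z (fun τ : ℍ => jFun τ + -jFun z)) han.meromorphicAt).ord := by
    have h0 : locFun z (fun τ : ℍ => jFun τ + -jFun z) 0 = 0 := by
      simp [locFun]
    have h1 : Tendsto (locFun z (fun τ : ℍ => jFun τ + -jFun z)) (𝓝[≠] 0) (𝓝 0) := by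
      have := han.continuousAt.tendsto
      rw [h0] at this
      exact this.mono_left nhdsWithin_le_nhds
    have h2 := (tendsto_zero_iff_meromorphicOrderAt_pos han.meromorphicAt).1 h1
    rw [← MerGerm.coe_ord_mk han.meromorphicAt hne] at h2
    exact_mod_cast h2
  have h1 := MerGerm.isDiffVal.deriv_ne_zero _ hne hpos.ne'
  rw [← e] at h1
  have h2 : MerGerm.deriv (MerGerm.mk (locFun z jFun)
      (locFun_analyticAt Fermat.Agent.S24.jFun_mdiff z).meromorphicAt
        + algebraMap ℂ MerGerm (-jFun z)) = MerGerm.deriv (MerGerm.mk (locFun z jFun)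
      (locFun_analyticAt Fermat.Agent.S24.jFun_mdiff z).meromorphicAt) := by
    rw [map_add]
    have : MerGerm.deriv (algebraMap ℂ MerGerm (-jFun z)) = 0 :=
      MerGerm.derivFun_algebraMap _
    rw [this, add_zero]
  rwa [h2] at h1

/-- (C3a2) -/
theorem stmt_OrdDj : Stmt_OrdDj := by
  intro N _ z
  have hne := ANDj_deriv_ne_zero z
  rw [ANDj_embFin]
  rw [MerGerm.deriv_mk] at hne ⊢
  rw [MerGerm.coe_ord_mk _ hne, ANDj_deriv_locFun,
    meromorphicOrderAt_comp_add_const_eq_meromorphicOrderAt, zero_add, ordH]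
  have hc : ((2 * Real.pi * Complex.I)⁻¹ : ℂ) ≠ 0 := by
    simp [Real.pi_ne_zero]
  have hmer : MeromorphicAt (deriv (jFun ∘ ofComplex)) (z : ℂ) :=
    (Fermat.Agent.S24.B7a.analyticAt_comp_ofComplex Fermat.Agent.S24.jFun_mdiff z).deriv.meromorphicAt
  have h1 : (fun w : ℂ => Dj (ofComplex w)) =ᶠ[𝓝[≠] (z : ℂ)]
      ((fun _ : ℂ => ((2 * Real.pi * Complex.I)⁻¹ : ℂ)) * deriv (jFun ∘ ofComplex)) := by
    have : ∀ᶠ w in 𝓝 (z : ℂ), w ∈ upperHalfPlaneSet :=
      isOpen_upperHalfPlaneSet.mem_nhds z.im_pos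
    filter_upwards [this.filter_mono nhdsWithin_le_nhds] with w hw
    simp only [Dj, Derivative.normalizedDerivOfComplex, Pi.mul_apply,
      ofComplex_apply_of_im_pos hw]
  classical
  rw [meromorphicOrderAt_congr h1, meromorphicOrderAt_mul (MeromorphicAt.const _ _) hmer,
    meromorphicOrderAt_const, if_neg hc, zero_add]

end Fermat.Agent.MR.Lift

end
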