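import Fermat.Agent.MR.Lift.InstInterface
import Fermat.Agent.INJ.Inst.BranchT
import Fermat.Agent.INJ.Inst.BranchClause
import Fermat.Agent.INJ.Inst.RamJ

/-!
# MR / Lift / C1, C2 : orders of `h` at the points of `ℍ` and at the cusps
(`Stmt_ANfin`, `Stmt_ANcusp`)     helper19
-/

set_option autoImplicit false
set_option synthInstance.maxHeartbeats 400000

noncomputable section

namespace Fermat.Agent.MR.Lift

open Polynomial IntermediateField AlgebraicCurve ModularCurve UpperHalfPlane CongruenceSubgroup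
open Fermat.Agent.INJ Fermat.Agent.INJ.Inst
open Fermat.Agent.S24 (Qbar FF funAlg iota jF MerGerm IsVal)
open Fermat.Agent.ES.Mid.A (Vfin Vcusp embFin embCusp isVal_Vfin isVal_Vcusp)
open scoped MatrixGroups
open Filter Topology

/-! ### abstract valuation lemmas -/

section Abs

variable {K L : Type*} [Field K] [Field L] [Algebra K L] {V : L → ℤ}

/-- valuation rings are integrally closed. -/
theorem ANOrd_int (hV : IsVal K V) {t x : L} (ht : t ∈ hV.subring) (hx : IsInt K t x) :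
    x ∈ hV.subring := by
  obtain ⟨p, hp, hpx⟩ := hx
  refine hV.mem_subring_of_monic x (p.map (algebraMap (Algebra.adjoin K {t}) L)) (hp.map _) ?_ ?_
  · intro k
    rw [Polynomial.coeff_map]
    obtain ⟨P, hP⟩ : ∃ P : K[X], aeval t P = ((p.coeff k : Algebra.adjoin K {t}) : L) := by
      have h0 : ∀ y ∈ Algebra.adjoin K {t}, ∃ P : K[X], aeval t P = y := by
        intro y hy
        rw [Algebra.adjoin_singleton_eq_range_aeval] at hy
        exact hy
      exact h0 _ (p.coeff k).2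
    show ((p.coeff k : Algebra.adjoin K {t}) : L) ∈ _
    rw [← hP]
    exact hV.aeval_mem_subring ht P
  · rw [Polynomial.eval_map]
    exact hpx

/-- the core inequality. -/
theorem ANOrd_core (hV : IsVal K V) {t h β : L} (ht : t ∈ hV.subring) (hh : h ≠ 0) (hβ : β ≠ 0)
    {m : ℕ} (hm : 0 < m) (hint : IsInt K t ((h * β) ^ m / β)) :
    (V β = 0 → 0 ≤ V h) ∧ (0 < V β → 1 ≤ V h + V β) := by
  have h1 := ANOrd_int hV ht hint
  have hne : (h * β) ^ m / β ≠ 0 := div_ne_zero (pow_ne_zero _ (mul_ne_zero hh hβ)) hβ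
  have h2 : 0 ≤ V ((h * β) ^ m / β) := h1.resolve_left hne
  rw [hV.map_div (pow_ne_zero _ (mul_ne_zero hh hβ)) hβ, hV.map_pow (mul_ne_zero hh hβ),
    hV.map_mul _ _ hh hβ] at h2
  have hm' : (0 : ℤ) < (m : ℤ) := by exact_mod_cast hm
  constructor
  · intro h0
    rw [h0, add_zero, sub_zero] at h2
    exact nonneg_of_mul_nonneg_right h2 hm'
  · intro h0
    have h3 : 0 < (m : ℤ) * (V h + V β) := by linarith
    have h4 : 0 < V h + V β := (mul_pos_iff_of_pos_left hm').1 h3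
    linarith

/-- `V (t - c) = 0` if `V t > 0` and `c ≠ 0`. -/
theorem ANOrd_sub_const (hV : IsVal K V) {t : L} (ht0 : t ≠ 0) (ht : 0 < V t) {c : K}
    (hc : c ≠ 0) : t - algebraMap K L c ≠ 0 ∧ V (t - algebraMap K L c) = 0 := by
  have hc' : algebraMap K L (-c) ≠ 0 := by
    rw [Ne, map_eq_zero_iff _ (algebraMap K L).injective]
    exact neg_ne_zero.mpr hc
  have h0 : V (algebraMap K L (-c)) = 0 := hV.map_const _ (neg_ne_zero.mpr hc)
  have h1 := hV.map_add_of_lt hc' ht0 (by rw [h0]; exact ht)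
  have e : t - algebraMap K L c = algebraMap K L (-c) + t := by
    rw [map_neg]; ring
  rw [e]
  exact ⟨h1.1, h1.2.trans h0⟩

end Abs

/-! ### germs -/

/-- a germ without pole has a value. -/
theorem ANOrd_value (x : MerGerm) (hx : 0 ≤ x.ord) :
    ∃ c : ℂ, x = algebraMap ℂ MerGerm c ∨ 0 < (x - algebraMap ℂ MerGerm c).ord := by
  by_cases hx0 : x = 0
  · exact ⟨0, Or.inl (by rw [hx0, map_zero])⟩
  obtain ⟨f, hf, rfl⟩ := MerGerm.exists_rep x
  have h1 : (0 : WithTop ℤ) ≤ meromorphicOrderAt f 0 := by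
    rw [← MerGerm.coe_ord_mk hf hx0]
    exact_mod_cast hx
  obtain ⟨c, hc⟩ := tendsto_nhds_of_meromorphicOrderAt_nonneg hf h1
  refine ⟨c, ?_⟩
  by_cases hxc : MerGerm.mk f hf = algebraMap ℂ MerGerm c
  · exact Or.inl hxc
  right
  have hg : MeromorphicAt (f + fun _ => -c) 0 := hf.add (MeromorphicAt.const (-c) 0)
  have e : MerGerm.mk f hf - algebraMap ℂ MerGerm c = MerGerm.mk (f + fun _ => -c) hg := by
    rw [MerGerm.mk_add hf (MeromorphicAt.const (-c) 0), MerGerm.mk_const, map_neg, sub_eq_add_neg]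
  have hne : MerGerm.mk (f + fun _ => -c) hg ≠ 0 := by
    rw [← e]
    exact sub_ne_zero.mpr hxc
  have h2 : Tendsto (f + fun _ => -c) (𝓝[≠] 0) (𝓝 0) := by
    have := hc.add (tendsto_const_nhds (x := -c))
    rwa [add_neg_cancel] at this
  have h3 := (tendsto_zero_iff_meromorphicOrderAt_pos hg).1 h2
  rw [e]
  rw [← MerGerm.coe_ord_mk hg hne] at h3
  exact_mod_cast h3

theorem ANOrd_isVal : IsVal Qbar MerGerm.ord := MerGerm.isDiffVal.isVal

/-- the order of `x - c'` when `x` has the value `c`. -/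
theorem ANOrd_ord_sub {x : MerGerm} {c : ℂ} (he : 0 < (x - algebraMap ℂ MerGerm c).ord) {c' : ℂ}
    (hc : c' ≠ c) : (x - algebraMap ℂ MerGerm c').ord = 0 := by
  have hb : x - algebraMap ℂ MerGerm c ≠ 0 := by
    intro h0
    rw [h0, MerGerm.ord_zero] at he
    exact lt_irrefl _ he
  have hcc : c - c' ≠ 0 := sub_ne_zero.mpr (Ne.symm hc)
  have ha : algebraMap ℂ MerGerm (c - c') ≠ 0 := by
    rw [Ne, map_eq_zero_iff _ (algebraMap ℂ MerGerm).injective]
    exact hcc
  have h0 : (algebraMap ℂ MerGerm (c - c')).ord = 0 := MerGerm.ord_algebraMap hcc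
  have h1 := ANOrd_isVal.map_add_of_lt ha hb (by rw [h0]; exact he)
  have e : x - algebraMap ℂ MerGerm c' = algebraMap ℂ MerGerm (c - c') +
      (x - algebraMap ℂ MerGerm c) := by
    rw [map_sub]; ring
  rw [e, h1.2, h0]

/-- the order of the derivative. -/
theorem ANOrd_ord_deriv {x : MerGerm} {c : ℂ} (he : 0 < (x - algebraMap ℂ MerGerm c).ord) :
    (MerGerm.deriv x).ord = (x - algebraMap ℂ MerGerm c).ord - 1 := by
  have hb : x - algebraMap ℂ MerGerm c ≠ 0 := by
    intro h0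
    rw [h0, MerGerm.ord_zero] at he
    exact lt_irrefl _ he
  have e : MerGerm.deriv x = MerGerm.deriv (x - algebraMap ℂ MerGerm c) := by
    show MerGerm.derivC x = MerGerm.derivC (x - algebraMap ℂ MerGerm c)
    rw [map_sub, Derivation.map_algebraMap, sub_zero]
  rw [e, MerGerm.isDiffVal.map_deriv _ hb he.ne']

theorem ANOrd_deriv_const (c : ℂ) : MerGerm.deriv (algebraMap ℂ MerGerm c) = 0 :=
  MerGerm.derivFun_algebraMap c

/-! ### the branch clauses -/

theorem ANOrd_unram (N : ℕ) [NeZero N] (v : Place Qbar (FF N)) (c : Qbar) (hc0 : c ≠ 0)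
    (hc1 : c ≠ 1728) (hv : 0 < v.ord (jF N - algebraMap Qbar (FF N) c)) :
    v.ord (jF N - algebraMap Qbar (FF N) c) = 1 :=
  ((stmt_RamJ stmt_RamUnif N) c v hv).2.2 hc0 hc1

theorem ANOrd_branch (N : ℕ) [NeZero N] (h : FF N) (hd : InDual Qbar (jF N) h) :
    ∃ m : ℕ, 0 < m ∧ IsInt Qbar (jF N)
      ((h * (jF N * (jF N - algebraMap Qbar (FF N) 1728))) ^ m /
        (jF N * (jF N - algebraMap Qbar (FF N) 1728))) := by
  classical
  have hfin := (S24.finrank_FF_le N).1
  obtain ⟨m, hm, hint⟩ := stmt_BranchClause Qbar (FF N) (jF N) (S24.DegBd.transcendental_jF N) hfin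
    {0, 1728} (by
      intro v c hc
      simp only [Finset.mem_insert, Finset.mem_singleton, not_or] at hc
      exact ANOrd_unram N v c hc.1 hc.2) h hd
  have e : beta (jF N) ({0, 1728} : Finset Qbar) =
      jF N * (jF N - algebraMap Qbar (FF N) 1728) := by
    unfold beta
    rw [Finset.prod_pair (by norm_num), map_zero, sub_zero]
  rw [e] at hint
  exact ⟨m, hm, hint⟩

theorem ANOrd_branch_inv (N : ℕ) [NeZero N] (z : FF N) (hd : InDual Qbar (jF N)⁻¹ z) :
    ∃ m : ℕ, 0 < m ∧ IsInt Qbar (jF N)⁻¹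
      ((z * ((jF N)⁻¹ * ((jF N)⁻¹ - algebraMap Qbar (FF N) (1728)⁻¹))) ^ m /
        ((jF N)⁻¹ * ((jF N)⁻¹ - algebraMap Qbar (FF N) (1728)⁻¹))) := by
  classical
  have hfin := (S24.finrank_FF_le N).1
  have htr := S24.DegBd.transcendental_jF N
  have hfin' : FiniteDimensional Qbar⟮(jF N)⁻¹⟯ (FF N) :=
    S24.placeCases_finiteDimensional_adjoin_inv (jF N)
  obtain ⟨m, hm, hint⟩ := stmt_BranchClause Qbar (FF N) (jF N)⁻¹
    (S24.placeCases_transcendental_inv htr) hfin' {0, (1728)⁻¹} (by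
      intro v c hc
      simp only [Finset.mem_insert, Finset.mem_singleton, not_or] at hc
      exact BR_inv htr 1728 (fun v c h0 h1 hv => ANOrd_unram N v c h0 h1 hv) v c hc.1 hc.2) z hd
  have e : beta (jF N)⁻¹ ({0, (1728)⁻¹} : Finset Qbar) =
      (jF N)⁻¹ * ((jF N)⁻¹ - algebraMap Qbar (FF N) (1728)⁻¹) := by
    unfold beta
    rw [Finset.prod_pair (by norm_num), map_zero, sub_zero]
  rw [e] at hint
  exact ⟨m, hm, hint⟩

/-! ### the germ of `j` -/

theorem ANOrd_jF_eq (N : ℕ) [NeZero N] :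
    jF N = S24.QX.qExpHom N (S24.jAlg N 1 (one_dvd N)) :=
  (S24.QX.qExpHom_jAlg N 1 (one_dvd N)).symm

theorem ANOrd_jF_ne (N : ℕ) (c : Qbar) : jF N - algebraMap Qbar (FF N) c ≠ 0 := by
  intro h0
  apply S24.DegBd.transcendental_jF N
  rw [sub_eq_zero.1 h0]
  exact isAlgebraic_algebraMap c

theorem ANOrd_untop_nonneg {o : WithTop ℤ} (h : 0 ≤ o) : 0 ≤ o.untop₀ := by
  induction o using WithTop.recTopCoe with
  | top => simp
  | coe a => simpa using h

theorem ANOrd_fin_nonneg (N : ℕ) [NeZero N] (z : ℍ) : 0 ≤ (embFin N z (jF N)).ord := by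
  rw [ANOrd_jF_eq, ES.Mid.A.embFin_qExpHom, S24.B7a.epsHom_apply, MerGerm.ord_mk]
  have h := (S24.B7a.locFun_analyticAt (S24.B7a.mdiff_comp_smul
    (S24.funAlg_mdiff (S24.jAlg N 1 (one_dvd N)).2) (1 : SL(2, ℤ))⁻¹) z).meromorphicOrderAt_nonneg
  exact ANOrd_untop_nonneg h

theorem ANOrd_emb_sub (N : ℕ) [NeZero N] (φ : FF N →ₐ[Qbar] MerGerm) (c : Qbar) :
    φ (jF N - algebraMap Qbar (FF N) c) = φ (jF N) - algebraMap ℂ MerGerm (iota c) := by
  rw [map_sub, AlgHom.commutes, MerGerm.algebraMap_Qbar]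

/-- **(C1)** -/
theorem stmt_ANfin : Stmt_ANfin := by
  intro N _ h hh hd z
  obtain ⟨m, hm, hint⟩ := ANOrd_branch N h hd
  have hV := isVal_Vfin N z
  have hj0 : jF N ≠ 0 := by
    have := ANOrd_jF_ne N 0
    rwa [map_zero, sub_zero] at this
  have hj1 := ANOrd_jF_ne N 1728
  have hjV : jF N ∈ hV.subring := Or.inr (ANOrd_fin_nonneg N z)
  obtain ⟨k1, k2⟩ := ANOrd_core hV hjV hh (mul_ne_zero hj0 hj1) hm hint
  rw [hV.map_mul _ _ hj0 hj1] at k1 k2
  have e0 : Vfin N z (jF N) = (embFin N z (jF N) - algebraMap ℂ MerGerm (iota 0)).ord := by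
    rw [map_zero, map_zero, sub_zero]
    rfl
  have e1 : Vfin N z (jF N - algebraMap Qbar (FF N) 1728) =
      (embFin N z (jF N) - algebraMap ℂ MerGerm (iota 1728)).ord := by
    rw [← ANOrd_emb_sub]
    rfl
  have hi : iota (0 : Qbar) ≠ iota 1728 := by
    intro h0
    have := iota.toRingHom.injective h0
    norm_num at this
  obtain ⟨c, hc | hc⟩ := ANOrd_value _ (ANOrd_fin_nonneg N z)
  · -- the germ is constant (does not happen, but costs nothing)
    have hcc : ∀ c' : Qbar, (embFin N z (jF N) - algebraMap ℂ MerGerm (iota c')).ord = 0 := by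
      intro c'
      have hne : embFin N z (jF N - algebraMap Qbar (FF N) c') ≠ 0 :=
        (map_ne_zero_iff _ (embFin N z).toRingHom.injective).mpr (ANOrd_jF_ne N c')
      rw [ANOrd_emb_sub, hc, ← map_sub] at hne
      rw [hc, ← map_sub]
      exact MerGerm.ord_algebraMap (fun h0 => hne (by rw [h0, map_zero]))
    rw [hc, ANOrd_deriv_const, MerGerm.ord_zero, add_zero]
    exact k1 (by rw [e0, e1, hcc, hcc, add_zero])
  · rw [ANOrd_ord_deriv hc]
    by_cases h0 : iota (0 : Qbar) = c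
    · have h1 : iota (1728 : Qbar) ≠ c := fun h1 => hi (h0.trans h1.symm)
      rw [e0, e1, ANOrd_ord_sub hc h1, h0, add_zero] at k2
      have := k2 hc
      linarith
    · by_cases h1 : iota (1728 : Qbar) = c
      · rw [e0, e1, ANOrd_ord_sub hc h0, h1, zero_add] at k2
        have := k2 hc
        linarith
      · rw [e0, e1, ANOrd_ord_sub hc h0, ANOrd_ord_sub hc h1, add_zero] at k1
        have := k1 rfl
        linarith

theorem ANOrd_cusp_neg (N : ℕ) [NeZero N] (g : SL(2, ℤ)) : Vcusp N g (jF N) < 0 := by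
  rw [ANOrd_jF_eq, ES.Mid.A.Vcusp_qExpHom]
  have h3 : S24.UnifInfty.cuspFn N ((S24.jAlg N 1 (one_dvd N) : funAlg N) : ℍ → ℂ) g =
      fun u : ℂ => S24.jFun (ofComplex (Function.Periodic.invQParam N u)) :=
    S24.UnifInfty.cuspFn_jFunD_one _
  rw [h3, S24.meromorphicOrderAt_jFun_cusp]
  have h6 : (-((N : ℤ) : WithTop ℤ)) = ((-(N : ℤ) : ℤ) : WithTop ℤ) := rfl
  rw [h6, WithTop.untop₀_coe]
  have : 0 < N := Nat.pos_of_ne_zero (NeZero.ne N)
  omega

/-- **(C2)** -/
theorem stmt_ANcusp : Stmt_ANcusp := by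
  intro N _ h hh hd g
  obtain ⟨m, hm, hint⟩ := ANOrd_branch_inv N _ hd
  have hV := isVal_Vcusp N g
  have hj0 : jF N ≠ 0 := by
    have := ANOrd_jF_ne N 0
    rwa [map_zero, sub_zero] at this
  have hs0 : (jF N)⁻¹ ≠ 0 := inv_ne_zero hj0
  have hneg := ANOrd_cusp_neg N g
  have hs : 0 < Vcusp N g (jF N)⁻¹ := by
    rw [hV.map_inv hj0]
    linarith
  obtain ⟨hs1, hs2⟩ := ANOrd_sub_const hV hs0 hs (c := (1728 : Qbar)⁻¹) (by norm_num)
  have hz : h * jF N ^ 2 ≠ 0 := mul_ne_zero hh (pow_ne_zero 2 hj0)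
  obtain ⟨-, k2⟩ := ANOrd_core hV (Or.inr hs.le) hz (mul_ne_zero hs0 hs1) hm hint
  rw [hV.map_mul _ _ hs0 hs1, hs2, add_zero, hV.map_mul _ _ hh (pow_ne_zero 2 hj0),
    hV.map_pow hj0, hV.map_inv hj0] at k2
  rw [hV.map_mul _ _ hh hj0]
  have := k2 (by linarith)
  push_cast at this
  linarith

end Fermat.Agent.MR.Lift

end
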