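import Fermat.Agent.MR.Lift.ANInterface
import Fermat.Agent.S16.QE2
import Fermat.Agent.S20.Serre

/-!
# MR / Lift / AN, (C3e0) : the `q`-expansion of a derivative and of `Dj`
-/

set_option autoImplicit false
set_option synthInstance.maxHeartbeats 400000

noncomputable section

namespace Fermat.Agent.MR.Lift

open UpperHalfPlane CongruenceSubgroup ModularForm
open Fermat.Agent.S24 (Qbar FF funAlg iota jF jFun MerGerm)
open Fermat.Agent.S24.QX (qExpHom Nice qL Rep cmI)
open scoped MatrixGroups Manifold ModularForm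

local notation "DD" => Derivative.normalizedDerivOfComplex

/-- the derivative of a periodic function is periodic. -/
theorem ANRepDj_per {g : ℍ → ℂ} (hg : Function.Periodic (g ∘ ofComplex) 1) :
    Function.Periodic ((DD g) ∘ ofComplex) 1 := by
  intro z
  by_cases hz : 0 < z.im
  · have hz' : 0 < (z + 1).im := by simpa using hz
    simp only [Function.comp_apply, Derivative.normalizedDerivOfComplex]
    rw [ofComplex_apply_of_im_pos hz, ofComplex_apply_of_im_pos hz']
    congr 1
    show deriv (g ∘ ofComplex) (z + 1) = deriv (g ∘ ofComplex) z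
    rw [← deriv_comp_add_const]
    congr 1
    funext w
    exact hg w
  · have hz0 : z.im ≤ 0 := not_lt.mp hz
    have hz' : (z + 1).im ≤ 0 := by simpa using hz0
    simp only [Function.comp_apply]
    rw [ofComplex_apply_of_im_nonpos hz0, ofComplex_apply_of_im_nonpos hz']

theorem ANRepDj_nice {g : ℍ → ℂ} (hg : Nice g) : Nice (DD g) where
  mdiff := Derivative.normalizedDerivOfComplex_mdifferentiable hg.mdiff
  per := ANRepDj_per hg.per
  bdd := S20.isBoundedAtImInfty_normalizedDeriv hg.mdiff hg.bdd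

theorem ANRepDj_coeff {g : ℍ → ℂ} (hg : Nice g) (m : ℕ) :
    (qExpansion 1 (DD g)).coeff m = (m : ℂ) * (qExpansion 1 g).coeff m := by
  have h1 : S16.HasQE 1 g (qExpansion 1 g) := fun τ =>
    hasSum_qExpansion one_pos hg.per hg.mdiff hg.bdd τ
  have h2 := S16.hasQE_deriv 1 g _ one_pos h1
  have h3 := S24.QX.qExpansion_coeff_unique' (f := DD g)
    (c := fun m => PowerSeries.coeff m ((((1 : ℝ) : ℂ))⁻¹ • S16.theta (qExpansion 1 g)))
    (ANRepDj_nice hg).analyticAt h2 m
  rw [← h3]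
  simp [S16.theta]

theorem stmt_qLD : Stmt_qLD := by
  intro g hg
  refine ⟨ANRepDj_nice hg, ?_⟩
  ext n
  rw [th, INJ.P16_thetaFun_coeff]
  rcases lt_or_ge n 0 with hn | hn
  · rw [qL, qL, ModularCurve.ofPowerSeries_coeff_of_neg _ hn,
      ModularCurve.ofPowerSeries_coeff_of_neg _ hn, mul_zero]
  · obtain ⟨m, rfl⟩ := Int.eq_ofNat_of_zero_le hn
    rw [qL, qL, HahnSeries.ofPowerSeries_apply_coeff, HahnSeries.ofPowerSeries_apply_coeff,
      ANRepDj_coeff hg]
    simp

/-- `θ` commutes with the base change of coefficients. -/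
theorem ANRepDj_cmI_th (x : LaurentSeries Qbar) : cmI (th x) = th (cmI x) := by
  ext n
  rw [ModularCurve.coeffMap_coeff, th, th, INJ.P16_thetaFun_coeff, INJ.P16_thetaFun_coeff,
    ModularCurve.coeffMap_coeff, map_mul, map_intCast]

theorem ANRepDj_jFunD_one : S24.jFunD 1 = jFun := by
  funext τ
  rw [S24.jFunD, Nat.cast_one, one_mul, ofComplex_apply]

/-- the `q`-expansion of `j`. -/
theorem ANRepDj_rep_j (N : ℕ) : Rep (cmI (jF N : LaurentSeries Qbar)) jFun := by
  have := S24.QX.rep_jFunD 1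
  rwa [ANRepDj_jFunD_one] at this

theorem stmt_RepDj : Stmt_RepDj := by
  intro N _
  have hΔ : Nice ModularForm.discriminant := Nice.discriminant
  have hE : Nice ((E₄ : ℍ → ℂ) ^ 3) := (Nice.of_modularForm E₄).pow 3
  obtain ⟨hDΔ, eΔ⟩ := stmt_qLD _ hΔ
  obtain ⟨hDE, eE⟩ := stmt_qLD _ hE
  have h1 : jFun * ModularForm.discriminant = (E₄ : ℍ → ℂ) ^ 3 := by
    ext z
    simp only [Pi.mul_apply, Pi.pow_apply, jFun]
    exact div_mul_cancel₀ _ (discriminant_ne_zero z)
  -- the series identity `x * Δ = E₄ ^ 3`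
  have hx : cmI (jF N : LaurentSeries Qbar) * qL ModularForm.discriminant
      = qL ((E₄ : ℍ → ℂ) ^ 3) := by
    have h2 := (ANRepDj_rep_j N).mul (Rep.of_nice hΔ)
    rw [h1] at h2
    exact h2.unique (Rep.of_nice hE)
  -- the function identity
  have h2 := congrArg Derivative.normalizedDerivOfComplex h1
  rw [Derivative.normalizedDerivOfComplex_mul _ _ S24.jFun_mdiff hΔ.mdiff] at h2
  have hF : Nice (DD ((E₄ : ℍ → ℂ) ^ 3) * ModularForm.discriminant
      + (fun _ => (-1 : ℂ)) * ((E₄ : ℍ → ℂ) ^ 3 * DD ModularForm.discriminant)) :=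
    (hDE.mul hΔ).add ((Nice.const (-1)).mul (hE.mul hDΔ))
  refine Rep.of_mul_eq (g := ModularForm.discriminant ^ 2) (hΔ.pow 2)
    (fun τ => pow_ne_zero _ (discriminant_ne_zero τ)) hF ?_ ?_
  · rw [← h2, ← h1]
    funext τ
    simp only [Pi.mul_apply, Pi.add_apply, Pi.pow_apply, Dj]
    ring
  · rw [S24.QX.qL_add (hDE.mul hΔ) ((Nice.const (-1)).mul (hE.mul hDΔ)), S24.QX.qL_mul hDE hΔ,
      S24.QX.qL_mul (Nice.const (-1)) (hE.mul hDΔ), S24.QX.qL_mul hE hDΔ, S24.QX.qL_const,
      S24.QX.qL_pow hΔ, eΔ, eE, ← hx, ANRepDj_cmI_th, th, th, th, INJ.P16_thetaFun_mul, map_neg,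
      map_one]
    ring

end Fermat.Agent.MR.Lift

end
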