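import Fermat.Agent.MR.Lift.ANInterface

/-!
# MR / Lift / AN : (C3a3) existence of the holomorphic `f` with `f * b = a * Dj` (helper59)
-/

set_option autoImplicit false
set_option synthInstance.maxHeartbeats 400000

noncomputable section

namespace Fermat.Agent.MR.Lift

open UpperHalfPlane CongruenceSubgroup ModularForm
open Fermat.Agent.S24 (Qbar FF funAlg iota jF jFun MerGerm)
open Fermat.Agent.S24.QX (qExpHom Nice qL Rep cmI)
open Fermat.Agent.ES.Mid.A (Vfin Vcusp embFin embCusp)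
open scoped MatrixGroups Manifold ModularForm

theorem ANa_ordH_ne_top (N : ℕ) [NeZero N] (θ : funAlg N) (hθ : θ ≠ 0) (z : ℍ) :
    ordH (θ : ℍ → ℂ) z ≠ ⊤ := by
  have := S24.B7a.order_ne_top_of_ne_zero N z 1 θ hθ
  simpa [ordH] using this

theorem ANa_ordH_mul {A B : ℍ → ℂ} (hA : MDiff A) (hB : MDiff B) (z : ℍ) :
    ordH (fun w => A w * B w) z = ordH A z + ordH B z :=
  meromorphicOrderAt_mul (S24.B7a.analyticAt_comp_ofComplex hA z).meromorphicAt
    (S24.B7a.analyticAt_comp_ofComplex hB z).meromorphicAt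

theorem stmt_ANa (h1 : Stmt_HolDiv) (h2 : Stmt_DjBasic) (h3 : Stmt_OrdDj) : Stmt_ANa := by
  intro N _ h a b hh hb hab hord
  have hqb : qExpHom N b ≠ 0 := (map_ne_zero_iff _ (S24.QX.qExpHom_injective N)).2 hb
  have hqa : qExpHom N a ≠ 0 := hab ▸ mul_ne_zero hh hqb
  have ha : a ≠ 0 := by
    rintro rfl
    exact hqa (map_zero _)
  have hma : MDiff (a : ℍ → ℂ) := S24.funAlg_mdiff a.2
  have hmb : MDiff (b : ℍ → ℂ) := S24.funAlg_mdiff b.2
  have hmD : MDiff Dj := h2.1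
  refine h1 (fun z => (a : ℍ → ℂ) z * Dj z) b (hma.mul hmD) hmb (ANa_ordH_ne_top N b hb) ?_
  intro z
  rw [ANa_ordH_mul hma hmD z, h3 N z]
  have hv := (ES.Mid.A.isVal_Vfin N z).map_mul h (qExpHom N b) hh hqb
  rw [hab, ES.Mid.A.Vfin_qExpHom, ES.Mid.A.Vfin_qExpHom] at hv
  obtain ⟨α, hα⟩ := WithTop.ne_top_iff_exists.1 (ANa_ordH_ne_top N a ha z)
  obtain ⟨β, hβ⟩ := WithTop.ne_top_iff_exists.1 (ANa_ordH_ne_top N b hb z)
  have hα' : meromorphicOrderAt (fun w : ℂ => (a : ℍ → ℂ) (ofComplex w)) (z : ℂ) = (α : WithTop ℤ) :=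
    hα.symm
  have hβ' : meromorphicOrderAt (fun w : ℂ => (b : ℍ → ℂ) (ofComplex w)) (z : ℂ) = (β : WithTop ℤ) :=
    hβ.symm
  rw [hα', hβ', WithTop.untop₀_coe, WithTop.untop₀_coe] at hv
  rw [← hα, ← hβ]
  have := hord z
  have h5 : β ≤ α + (MerGerm.deriv (embFin N z (jF N))).ord := by omega
  exact_mod_cast h5

end Fermat.Agent.MR.Lift

end
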