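import Fermat.Agent.MR.Lift.ANInterface
import Fermat.Agent.S24.FunAlgInv
import Fermat.Agent.S24.FunAlgProps

/-!
# MR / Lift / AN : LIFT-C3b.  `f` is invariant of weight `2` under `Γ₀(N)`
-/

set_option autoImplicit false
set_option synthInstance.maxHeartbeats 400000

noncomputable section

namespace Fermat.Agent.MR.Lift

open UpperHalfPlane CongruenceSubgroup ModularForm
open Fermat.Agent.S24 (Qbar FF funAlg iota jF jFun MerGerm)
open scoped MatrixGroups Manifold ModularForm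

theorem stmt_ANb (h1 : Stmt_HolDomain) (h2 : Stmt_DjBasic) : Stmt_ANb := by
  intro N _ a b f hb hf hfb γ hγ
  obtain ⟨-, hDj, -⟩ := h2
  have hb' : (b : ℍ → ℂ) ≠ 0 := fun h => hb (Subtype.ext h)
  have hF : MDiff (f ∣[(2 : ℤ)] γ - f) := (hf.slash 2 _).sub hf
  have key : f ∣[(2 : ℤ)] γ - f = 0 := by
    refine h1 _ (b : ℍ → ℂ) hF (Fermat.Agent.S24.funAlg_mdiff b.2) (fun z => ?_) hb'
    have e1 : (f ∣[(2 : ℤ)] γ) z = f (γ • z) * denom γ z ^ (-(2 : ℤ)) :=
      ModularForm.SL_slash_apply (f := f) (k := 2) γ z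
    have e2 : Dj (γ • z) * denom γ z ^ (-(2 : ℤ)) = Dj z := by
      rw [← ModularForm.SL_slash_apply (f := Dj) (k := 2) γ z, hDj γ]
    have e3 : (b : ℍ → ℂ) (γ • z) = (b : ℍ → ℂ) z := Fermat.Agent.S24.funAlg_invariant b.2 γ hγ z
    have e4 : (a : ℍ → ℂ) (γ • z) = (a : ℍ → ℂ) z := Fermat.Agent.S24.funAlg_invariant a.2 γ hγ z
    have e5 := hfb (γ • z)
    rw [e3, e4] at e5
    rw [Pi.sub_apply, e1, sub_mul, hfb z, ← e2]
    linear_combination (denom γ z ^ (-(2 : ℤ))) * e5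
  exact sub_eq_zero.1 key

end Fermat.Agent.MR.Lift

end
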