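import Fermat.Agent.MR.Lift.ANInterface

/-!
# MR / Lift / ANe : the `q`-expansion of `f` is `h * θ j` (LIFT-C3e)

`f * b = a * Dj`, `h * b̂ = â`, `Rep (θ ĵ) Dj`, so `qL f * b̂ = â * θ ĵ = (h * θ ĵ) * b̂` by
uniqueness of `Rep`, and `b̂ ≠ 0`.
-/

set_option autoImplicit false
set_option synthInstance.maxHeartbeats 400000

noncomputable section

namespace Fermat.Agent.MR.Lift

open UpperHalfPlane CongruenceSubgroup ModularForm
open Fermat.Agent.S24 (Qbar FF funAlg iota jF jFun MerGerm)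
open Fermat.Agent.S24.QX (qExpHom Nice qL Rep cmI)
open Fermat.Agent.ES.Mid.A (Vfin Vcusp embFin embCusp)
open scoped MatrixGroups Manifold ModularForm

/-- (C3e) the `q`-expansion of `f`. -/
theorem stmt_ANe (hD : Stmt_RepDj) : Stmt_ANe := by
  intro N _ h a b f hb hab hf hfb
  have hfun : f * (b : ℍ → ℂ) = (a : ℍ → ℂ) * Dj := funext hfb
  have r1 : Rep (qL f * cmI (Fermat.Agent.S24.QX.qExpFun N b)) (f * (b : ℍ → ℂ)) :=
    (Rep.of_nice hf).mul (Fermat.Agent.S24.QX.qExpFun_rep N b)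
  have r2 : Rep (cmI (Fermat.Agent.S24.QX.qExpFun N a) * cmI (th (jF N : LaurentSeries Qbar)))
      ((a : ℍ → ℂ) * Dj) :=
    (Fermat.Agent.S24.QX.qExpFun_rep N a).mul (hD N)
  rw [hfun] at r1
  have e1 := r1.unique r2
  have e2 : (h : LaurentSeries Qbar) * Fermat.Agent.S24.QX.qExpFun N b =
      Fermat.Agent.S24.QX.qExpFun N a := congrArg Subtype.val hab
  have hb0 : cmI (Fermat.Agent.S24.QX.qExpFun N b) ≠ 0 := by
    intro h0
    have h1 : Fermat.Agent.S24.QX.qExpFun N b = 0 :=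
      Fermat.Agent.S24.QX.cmI_injective (by rw [h0, map_zero])
    have h2 : qExpHom N b = 0 := Subtype.ext h1
    exact hb (Fermat.Agent.S24.QX.qExpHom_injective N (by rw [h2, map_zero]))
  refine mul_right_cancel₀ hb0 ?_
  rw [e1, ← e2, map_mul, map_mul]
  ring

end Fermat.Agent.MR.Lift

end
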