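import Fermat.Agent.MR.Lift.ANHolDiv
import Fermat.Agent.MR.Lift.ANDj
import Fermat.Agent.MR.Lift.ANa
import Fermat.Agent.MR.Lift.ANb
import Fermat.Agent.MR.Lift.ANe
import Fermat.Agent.MR.Lift.ANRepDj
import Fermat.Agent.MR.Lift.ANOrd
import Fermat.Prelude.Thm_CongruenceSubgroup_one_mem_strictPeriods_Gamma0

/-!
# MR / Lift / ANAll : assembly of LIFT-C3 (`Stmt_ANform`) and of block C (`Stmt_AN`)
-/

set_option autoImplicit false
set_option synthInstance.maxHeartbeats 400000

noncomputable section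

namespace Fermat.Agent.MR.Lift

open UpperHalfPlane CongruenceSubgroup ModularForm
open Fermat.Agent.S24 (Qbar FF funAlg iota jF jFun MerGerm)
open Fermat.Agent.S24.QX (qExpHom Nice qL Rep cmI)
open Fermat.Agent.ES.Mid.A (Vfin Vcusp embFin embCusp)
open scoped MatrixGroups Manifold ModularForm

/-- a cusp form on `Γ₀(N)` is `Nice`. -/
theorem ANAll_nice (N : ℕ) [NeZero N] (F : CuspForm (Gamma0 N) 2) : Nice (F : ℍ → ℂ) where
  mdiff := CuspFormClass.holo F
  per := SlashInvariantFormClass.periodic_comp_ofComplex F (one_mem_strictPeriods_Gamma0 N)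
  bdd := (CuspFormClass.zero_at_infty F).boundedAtFilter

/-- (C3) from the pieces. -/
theorem ANAll_form (hC : Stmt_ANc) : Stmt_ANform := by
  intro N _ h hh hfin hcusp
  obtain ⟨a, b, hb, hab⟩ := ES.Mid.A.qExpHom_frac N h
  obtain ⟨f, hf, hfb⟩ := stmt_ANa stmt_HolDiv stmt_DjBasic stmt_OrdDj N h a b hh hb hab hfin
  have hcf : S20.IsCF (Gamma0 N) 2 f :=
    ⟨hf, stmt_ANb stmt_HolDomain stmt_DjBasic N a b f hb hf hfb,
      fun g => hC N h a b f hh hb hab hfb g (hcusp g)⟩
  have hnice : Nice f := ANAll_nice N hcf.toCuspForm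
  have hq := stmt_ANe stmt_RepDj N h a b f hb hab hnice hfb
  refine ⟨hcf.toCuspForm, fun n => ?_, fun n hn => ?_⟩
  · have h1 := congrArg (fun x : LaurentSeries ℂ => x.coeff (n : ℤ)) hq
    simp only [qL] at h1
    rw [show (HahnSeries.ofPowerSeries ℤ ℂ (qExpansion 1 f)).coeff (n : ℤ)
      = (qExpansion 1 f).coeff n from by
        simpa using HahnSeries.ofPowerSeries_apply_coeff (Γ := ℤ) (qExpansion 1 f) n] at h1
    exact h1
  · have h1 := congrArg (fun x : LaurentSeries ℂ => x.coeff n) hq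
    simp only [qL] at h1
    have h2 : (HahnSeries.ofPowerSeries ℤ ℂ (qExpansion 1 f)).coeff n = 0 := by
      rw [HahnSeries.ofPowerSeries_apply]
      apply HahnSeries.embDomain_notin_range
      rintro ⟨m, hm⟩
      simp at hm
      omega
    rw [h2] at h1
    have h3 : iota (((h : LaurentSeries Qbar) * th (jF N : LaurentSeries Qbar)).coeff n) = 0 :=
      h1.symm
    exact (map_eq_zero (iota : Qbar →+* ℂ)).1 h3

/-- (C) from (C1), (C2), (C3). -/
theorem ANAll_AN (hC : Stmt_ANc) : Stmt_AN := by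
  intro N _ h hh
  by_cases h0 : h = 0
  · subst h0
    refine ⟨0, fun n => ?_, fun n _ => by simp⟩
    have : ModularFormClass.qCoeff ((0 : CuspForm (Gamma0 N) 2) : ℍ → ℂ) n = 0 := by
      have hcoe : ((0 : CuspForm (Gamma0 N) 2) : ℍ → ℂ) = 0 := rfl
      rw [ModularFormClass.qCoeff, hcoe, qExpansion_zero]
      simp
    rw [this]
    simp
  · exact ANAll_form hC N h h0 (stmt_ANfin N h h0 hh.1) (stmt_ANcusp N h h0 hh.2)

end Fermat.Agent.MR.Lift

end
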