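import Fermat.Agent.MR.Lift.InstInterface
import Fermat.Agent.S24.JDeriv
import Fermat.Agent.S24.JOrder
import Fermat.Agent.S20.Basic
import Fermat.Agent.S16.QE2

/-!
# MR / Lift / C3 : sub-interface for `Stmt_ANform` (sub-lead: helper75)

`h = a / b`, `a b ∈ funAlg N`;  `Dj = (2πi)⁻¹ dj/dτ`;  `f := (a / b) · Dj`, extended holomorphically
to `ℍ`.  Every package proves `theorem stmt_AF_xxx : Stmt_AF_xxx` in its own NEW file
`Fermat/Agent/MR/Lift/AF<Name>.lean` importing this one.  The assembly is `ANForm.lean`.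
-/

set_option autoImplicit false
set_option synthInstance.maxHeartbeats 400000

noncomputable section

namespace Fermat.Agent.MR.Lift

open UpperHalfPlane CongruenceSubgroup Filter Topology ModularForm
open Fermat.Agent.S24 (Qbar FF funAlg iota jF MerGerm)
open Fermat.Agent.S24.QX (qExpHom cmI Rep)
open Fermat.Agent.ES.Mid.A (Vfin Vcusp embFin embCusp)
open scoped MatrixGroups Manifold ModularForm

/-- `D j = (2πi)⁻¹ dj/dτ`. -/
def Dj : ℍ → ℂ := Derivative.normalizedDerivOfComplex S24.jFun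

/-- (AF-DIV) division of holomorphic functions on `ℍ` (pure complex analysis). -/
def Stmt_AF_Div : Prop :=
  ∀ A B : ℍ → ℂ, MDiff A → MDiff B → B ≠ 0 →
    (∀ z : ℍ, meromorphicOrderAt (fun w : ℂ => B (ofComplex w)) (z : ℂ)
      ≤ meromorphicOrderAt (fun w : ℂ => A (ofComplex w)) (z : ℂ)) →
    ∃ f : ℍ → ℂ, MDiff f ∧ ∀ z, f z * B z = A z

/-- (AF-ORD) translation of the hypothesis on `Vfin` into orders of functions. -/
def Stmt_AF_Ord : Prop :=
  ∀ (N : ℕ) [NeZero N] (h : FF N) (a b : funAlg N), h ≠ 0 → b ≠ 0 →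
    h * qExpHom N b = qExpHom N a → ∀ z : ℍ,
    0 ≤ Vfin N z h + (MerGerm.deriv (embFin N z (jF N))).ord →
    meromorphicOrderAt (fun w : ℂ => (b : ℍ → ℂ) (ofComplex w)) (z : ℂ) ≤
      meromorphicOrderAt (fun w : ℂ => (a : ℍ → ℂ) (ofComplex w) * Dj (ofComplex w)) (z : ℂ)

/-- (AF-SLASH) `D j` is holomorphic of weight `2` for `SL₂(ℤ)`. -/
def Stmt_AF_DjSlash : Prop := MDiff Dj ∧ ∀ γ : SL(2, ℤ), Dj ∣[(2 : ℤ)] γ = Dj

/-- (AF-INV) a quotient of an invariant function of weight `k` by one of weight `0`. -/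
def Stmt_AF_Inv : Prop :=
  ∀ (f A B : ℍ → ℂ) (γ : SL(2, ℤ)) (k : ℤ), MDiff f → MDiff B → B ≠ 0 →
    (∀ z, f z * B z = A z) → (∀ z : ℍ, B (γ • z) = B z) → A ∣[k] γ = A → f ∣[k] γ = f

/-- (AF-CUSP) an element of `F_N` of positive order at the cusp `g ∞` tends to `0` there. -/
def Stmt_AF_Cusp : Prop :=
  ∀ (N : ℕ) [NeZero N] (x : FF N) (a b : funAlg N) (g : SL(2, ℤ)), x ≠ 0 → b ≠ 0 →
    x * qExpHom N b = qExpHom N a → 0 < Vcusp N g x →
    (∀ᶠ τ in atImInfty, (b : ℍ → ℂ) (g • τ) ≠ 0) ∧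
    Tendsto (fun τ : ℍ => (a : ℍ → ℂ) (g • τ) / (b : ℍ → ℂ) (g • τ)) atImInfty (𝓝 0)

/-- (AF-KAPPA) `D j / j` is bounded at `i∞`. -/
def Stmt_AF_Kappa : Prop :=
  ∃ κ : ℍ → ℂ, IsBoundedAtImInfty κ ∧ ∀ᶠ τ in atImInfty, Dj τ = S24.jFun τ * κ τ

/-- (AF-REP) the `q`-expansion of `D j` is `θ` of the `q`-expansion of `j`. -/
def Stmt_AF_RepDj : Prop := Rep (cmI (th (S24.jBarSeries 1))) Dj

end Fermat.Agent.MR.Lift

end
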