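import Fermat.Agent.MR.Lift.ANInterface

/-!
# MR / Lift / AN : LIFT-C3a1 : division of holomorphic functions on `ℍ`, identity theorem

`stmt_HolDiv : Stmt_HolDiv`, `stmt_HolDomain : Stmt_HolDomain`.
-/

set_option autoImplicit false
set_option synthInstance.maxHeartbeats 400000

noncomputable section

namespace Fermat.Agent.MR.Lift

open UpperHalfPlane Filter
open scoped Manifold Topology

theorem ANHolDiv_analyticAt {F : ℍ → ℂ} (hF : MDiff F) {z : ℂ} (hz : z ∈ upperHalfPlaneSet) :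
    AnalyticAt ℂ (fun w => F (ofComplex w)) z :=
  (UpperHalfPlane.mdifferentiable_iff.mp hF).analyticAt (isOpen_upperHalfPlaneSet.mem_nhds hz)

/-- division of analytic functions on an open set (abstract version). -/
theorem ANHolDiv_abstract {U : Set ℂ} (A B : ℂ → ℂ)
    (hA : ∀ z ∈ U, AnalyticAt ℂ A z) (hB : ∀ z ∈ U, AnalyticAt ℂ B z)
    (hBt : ∀ z ∈ U, meromorphicOrderAt B z ≠ ⊤)
    (hle : ∀ z ∈ U, meromorphicOrderAt B z ≤ meromorphicOrderAt A z) :
    ∃ F : ℂ → ℂ, (∀ z ∈ U, AnalyticAt ℂ F z) ∧ ∀ z ∈ U, F z * B z = A z := by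
  have hG : MeromorphicOn (A * B⁻¹) U := fun z hz =>
    (hA z hz).meromorphicAt.mul (hB z hz).meromorphicAt.inv
  have hFan : ∀ z ∈ U, AnalyticAt ℂ (toMeromorphicNFOn (A * B⁻¹) U) z := by
    intro z hz
    rw [← (meromorphicNFOn_toMeromorphicNFOn (A * B⁻¹) U hz).meromorphicOrderAt_nonneg_iff_analyticAt,
      meromorphicOrderAt_toMeromorphicNFOn hG hz,
      meromorphicOrderAt_mul (hA z hz).meromorphicAt (hB z hz).meromorphicAt.inv,
      meromorphicOrderAt_inv]
    have h1 := hBt z hz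
    have h2 := hle z hz
    generalize meromorphicOrderAt B z = b at h1 h2
    generalize meromorphicOrderAt A z = a at h2
    induction b with
    | top => exact absurd rfl h1
    | coe b =>
      induction a with
      | top => simp
      | coe a =>
        have h3 : b ≤ a := by exact_mod_cast h2
        have : (0 : WithTop ℤ) ≤ ((a + -b : ℤ) : WithTop ℤ) := by
          exact_mod_cast (by omega : (0 : ℤ) ≤ a + -b)
        simpa using this
  refine ⟨toMeromorphicNFOn (A * B⁻¹) U, hFan, ?_⟩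
  intro z hz
  have h1 : toMeromorphicNFOn (A * B⁻¹) U =ᶠ[𝓝[≠] z] A * B⁻¹ :=
    hG.toMeromorphicNFOn_eq_self_on_nhdsNE hz
  have h2 : ∀ᶠ w in 𝓝[≠] z, B w ≠ 0 :=
    (meromorphicOrderAt_ne_top_iff_eventually_ne_zero (hB z hz).meromorphicAt).mp (hBt z hz)
  have h3 : (fun w => toMeromorphicNFOn (A * B⁻¹) U w * B w) =ᶠ[𝓝[≠] z] A := by
    filter_upwards [h1, h2] with w hw1 hw2
    rw [hw1]
    simp [mul_assoc, inv_mul_cancel₀ hw2]
  have h4 : Tendsto (fun w => toMeromorphicNFOn (A * B⁻¹) U w * B w) (𝓝[≠] z)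
      (𝓝 (toMeromorphicNFOn (A * B⁻¹) U z * B z)) :=
    (((hFan z hz).continuousAt.mul (hB z hz).continuousAt).tendsto).mono_left nhdsWithin_le_nhds
  have h5 : Tendsto A (𝓝[≠] z) (𝓝 (A z)) :=
    ((hA z hz).continuousAt.tendsto).mono_left nhdsWithin_le_nhds
  exact tendsto_nhds_unique (h4.congr' h3) h5

theorem ANHolDiv_main (A B : ℍ → ℂ) (hA : MDiff A) (hB : MDiff B)
    (hBt : ∀ z : ℍ, ordH B z ≠ ⊤) (hle : ∀ z : ℍ, ordH B z ≤ ordH A z) :
    ∃ f : ℍ → ℂ, MDiff f ∧ ∀ z : ℍ, f z * B z = A z := by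
  obtain ⟨F, hF, hFB⟩ := ANHolDiv_abstract (U := upperHalfPlaneSet)
    (fun w => A (ofComplex w)) (fun w => B (ofComplex w))
    (fun z hz => ANHolDiv_analyticAt hA hz) (fun z hz => ANHolDiv_analyticAt hB hz)
    (fun z hz => hBt ⟨z, hz⟩) (fun z hz => hle ⟨z, hz⟩)
  refine ⟨fun z : ℍ => F z, ?_, ?_⟩
  · rw [UpperHalfPlane.mdifferentiable_iff]
    have h1 : DifferentiableOn ℂ F upperHalfPlaneSet := fun z hz =>
      (hF z hz).differentiableAt.differentiableWithinAt
    refine h1.congr ?_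
    intro z hz
    simp [Function.comp, ofComplex_apply_of_im_pos hz]
  · intro z
    have := hFB z z.2
    simpa using this

theorem ANHolDiv_domain (F B : ℍ → ℂ) (hF : MDiff F) (hB : MDiff B)
    (h : ∀ z : ℍ, F z * B z = 0) (hB0 : B ≠ 0) : F = 0 := by
  obtain ⟨z0, hz0⟩ : ∃ z0, B z0 ≠ 0 := by
    by_contra hcon
    push Not at hcon
    exact hB0 (funext hcon)
  have hBc : ContinuousAt B z0 := hB.continuous.continuousAt
  have h1 : ∀ᶠ z in 𝓝 z0, B z ≠ 0 := hBc.eventually_ne hz0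
  refine UpperHalfPlane.eq_zero_of_frequently hF (τ := z0) (Eventually.frequently ?_)
  filter_upwards [h1.filter_mono nhdsWithin_le_nhds] with z hz
  exact (mul_eq_zero.mp (h z)).resolve_right hz

theorem stmt_HolDiv : Stmt_HolDiv := ANHolDiv_main

theorem stmt_HolDomain : Stmt_HolDomain := ANHolDiv_domain

end Fermat.Agent.MR.Lift

end
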