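import Fermat.Agent.MR.Lift.InstInterface
import Fermat.Agent.S20.Basic
import Fermat.Agent.S24.JDeriv

/-!
# MR / Lift / AN : split of LIFT-C3 (`Stmt_ANform`), sub-lead helper98

`h ∈ FF N`, `h = a / b` with `a, b ∈ funAlg N` (`ES.Mid.A.qExpHom_frac`), `Dj = (2πi)⁻¹ j'`.
The cusp form is the holomorphic function `f` on `ℍ` with `f * b = a * Dj`.

* `Stmt_HolDiv`  (C3a1) division of holomorphic functions on `ℍ` (pure complex analysis).
* `Stmt_DjBasic` (C3a2) `Dj` is holomorphic, of weight `2` for `SL(2,ℤ)`, `Dj * E₄ = c * E₆ * j`.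
* `Stmt_OrdDj`   (C3a2) the order of `Dj` at `z` is the order of the derivative of the germ of `j`.
* `Stmt_ANa`     (C3a3) existence of `f`.
* `Stmt_ANb`     (C3b)  `f` is invariant of weight `2` under `Γ₀(N)`.
* `Stmt_ANc`     (C3c)  `f ∣[2] g` vanishes at `i∞` for all `g ∈ SL(2,ℤ)`.
* `Stmt_RepDj`   (C3e0) the `q`-expansion of `Dj` is `θ` of the `q`-expansion of `j`.
* `Stmt_ANe`     (C3e)  the `q`-expansion of `f` is `h * θ j`.
* assembly (C3d): `Stmt_ANform`, `Stmt_AN` of `InstInterface.lean`.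
Every statement is proved in its own file `Fermat/Agent/MR/Lift/AN<Name>.lean`.
-/

set_option autoImplicit false
set_option synthInstance.maxHeartbeats 400000

noncomputable section

namespace Fermat.Agent.MR.Lift

open UpperHalfPlane CongruenceSubgroup ModularForm
open Fermat.Agent.S24 (Qbar FF funAlg iota jF jFun MerGerm)
open Fermat.Agent.S24.QX (qExpHom Nice qL Rep cmI)
open Fermat.Agent.ES.Mid.A (Vfin Vcusp embFin embCusp)
open scoped MatrixGroups Manifold ModularForm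

/-- `D j = (2πi)⁻¹ dj/dτ`. -/
def Dj : ℍ → ℂ := Derivative.normalizedDerivOfComplex jFun

/-- the order at `z ∈ ℍ` of a function on `ℍ`. -/
def ordH (A : ℍ → ℂ) (z : ℍ) : WithTop ℤ :=
  meromorphicOrderAt (fun w : ℂ => A (ofComplex w)) (z : ℂ)

/-- (C3a1) division of holomorphic functions on `ℍ`. -/
def Stmt_HolDiv : Prop :=
  ∀ A B : ℍ → ℂ, MDiff A → MDiff B → (∀ z : ℍ, ordH B z ≠ ⊤) → (∀ z : ℍ, ordH B z ≤ ordH A z) →
    ∃ f : ℍ → ℂ, MDiff f ∧ ∀ z : ℍ, f z * B z = A z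

/-- (C3a1') holomorphic functions on `ℍ` form a domain (identity theorem). -/
def Stmt_HolDomain : Prop :=
  ∀ F B : ℍ → ℂ, MDiff F → MDiff B → (∀ z : ℍ, F z * B z = 0) → B ≠ 0 → F = 0

/-- (C3a2) basic properties of `Dj`. -/
def Stmt_DjBasic : Prop :=
  MDiff Dj ∧ (∀ g : SL(2, ℤ), Dj ∣[(2 : ℤ)] g = Dj) ∧
    ∃ c : ℂ, c ≠ 0 ∧ ∀ τ : ℍ, Dj τ * E₄ τ = c * E₆ τ * jFun τ

/-- (C3a2) the order of `Dj` at `z`. -/
def Stmt_OrdDj : Prop :=
  ∀ (N : ℕ) [NeZero N] (z : ℍ),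
    ordH Dj z = (((MerGerm.deriv (embFin N z (jF N))).ord : ℤ) : WithTop ℤ)

/-- (C3a3) the holomorphic function `f = (a / b) * Dj`. -/
def Stmt_ANa : Prop :=
  ∀ (N : ℕ) [NeZero N] (h : FF N) (a b : funAlg N), h ≠ 0 → b ≠ 0 →
    h * qExpHom N b = qExpHom N a →
    (∀ z : ℍ, 0 ≤ Vfin N z h + (MerGerm.deriv (embFin N z (jF N))).ord) →
    ∃ f : ℍ → ℂ, MDiff f ∧ ∀ z : ℍ, f z * (b : ℍ → ℂ) z = (a : ℍ → ℂ) z * Dj z

/-- (C3b) invariance. -/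
def Stmt_ANb : Prop :=
  ∀ (N : ℕ) [NeZero N] (a b : funAlg N) (f : ℍ → ℂ), b ≠ 0 → MDiff f →
    (∀ z : ℍ, f z * (b : ℍ → ℂ) z = (a : ℍ → ℂ) z * Dj z) →
    ∀ γ ∈ Gamma0 N, f ∣[(2 : ℤ)] γ = f

/-- (C3c) vanishing at the cusps. -/
def Stmt_ANc : Prop :=
  ∀ (N : ℕ) [NeZero N] (h : FF N) (a b : funAlg N) (f : ℍ → ℂ), h ≠ 0 → b ≠ 0 →
    h * qExpHom N b = qExpHom N a →
    (∀ z : ℍ, f z * (b : ℍ → ℂ) z = (a : ℍ → ℂ) z * Dj z) →
    ∀ g : SL(2, ℤ), 0 < Vcusp N g (h * jF N) → IsZeroAtImInfty (f ∣[(2 : ℤ)] g)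

/-- (C3e00) `q`-expansion of the derivative of a `Nice` function. -/
def Stmt_qLD : Prop :=
  ∀ g : ℍ → ℂ, Nice g → Nice (Derivative.normalizedDerivOfComplex g) ∧
    qL (Derivative.normalizedDerivOfComplex g) = th (qL g)

/-- (C3e0) the `q`-expansion of `Dj`. -/
def Stmt_RepDj : Prop :=
  ∀ (N : ℕ) [NeZero N], Rep (cmI (th (jF N : LaurentSeries Qbar))) Dj

/-- (C3e) the `q`-expansion of `f`. -/
def Stmt_ANe : Prop :=
  ∀ (N : ℕ) [NeZero N] (h : FF N) (a b : funAlg N) (f : ℍ → ℂ), b ≠ 0 →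
    h * qExpHom N b = qExpHom N a → Nice f →
    (∀ z : ℍ, f z * (b : ℍ → ℂ) z = (a : ℍ → ℂ) z * Dj z) →
    qL f = cmI ((h : LaurentSeries Qbar) * th (jF N : LaurentSeries Qbar))

end Fermat.Agent.MR.Lift

end
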