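import Fermat.Agent.MR.Lift.ANInterface

/-!
# MR / Lift / AN : (C3c) `f ∣[2] g` vanishes at `i∞` for every `g ∈ SL(2,ℤ)` (`Stmt_ANc`)
-/

set_option autoImplicit false
set_option synthInstance.maxHeartbeats 400000

noncomputable section

namespace Fermat.Agent.MR.Lift

open UpperHalfPlane CongruenceSubgroup ModularForm Filter Topology Function
open Fermat.Agent.S24 (Qbar FF funAlg iota jF jFun MerGerm)
open Fermat.Agent.S24.QX (qExpHom Nice qL Rep cmI)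
open Fermat.Agent.ES.Mid.A (Vfin Vcusp embFin embCusp)
open Fermat.Agent.S24.UnifInfty (cuspFn cuspFn_qParam cuspFn_meromorphicAt order_ne_top)
open scoped MatrixGroups Manifold ModularForm

local notation "𝕢" => Periodic.qParam

/-- the key identity. -/
theorem ANc_key (N : ℕ) [NeZero N] (a b : funAlg N) (f : ℍ → ℂ)
    (hf : ∀ z : ℍ, f z * (b : ℍ → ℂ) z = (a : ℍ → ℂ) z * Dj z)
    (hinv : ∀ g : SL(2, ℤ), Dj ∣[(2 : ℤ)] g = Dj) (c : ℂ)
    (hE : ∀ τ : ℍ, Dj τ * E₄ τ = c * E₆ τ * jFun τ) (g : SL(2, ℤ)) (τ : ℍ) :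
    (f ∣[(2 : ℤ)] g) τ * E₄ τ * (b : ℍ → ℂ) (g • τ) =
      c * E₆ τ * ((a * S24.jAlg N 1 (one_dvd N) : funAlg N) : ℍ → ℂ) (g • τ) := by
  have h1 : Dj (g • τ) * denom g τ ^ (-(2 : ℤ)) = Dj τ := by
    rw [← SL_slash_apply, hinv g]
  have h2 : ((a * S24.jAlg N 1 (one_dvd N) : funAlg N) : ℍ → ℂ) (g • τ) =
      (a : ℍ → ℂ) (g • τ) * jFun τ := by
    show (a : ℍ → ℂ) (g • τ) * S24.jFunD 1 (g • τ) = _
    rw [S24.UnifInfty.jFunD_one, S24.jFun_smul]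
  rw [SL_slash_apply, h2]
  calc f (g • τ) * denom g τ ^ (-(2 : ℤ)) * E₄ τ * (b : ℍ → ℂ) (g • τ)
      = (f (g • τ) * (b : ℍ → ℂ) (g • τ)) * denom g τ ^ (-(2 : ℤ)) * E₄ τ := by ring
    _ = (a : ℍ → ℂ) (g • τ) * (Dj (g • τ) * denom g τ ^ (-(2 : ℤ))) * E₄ τ := by
        rw [hf]; ring
    _ = (a : ℍ → ℂ) (g • τ) * (Dj τ * E₄ τ) := by rw [h1]; ring
    _ = c * E₆ τ * ((a : ℍ → ℂ) (g • τ) * jFun τ) := by rw [hE]; ring

theorem stmt_ANc (h2 : Stmt_DjBasic) : Stmt_ANc := by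
  intro N _ h a b f hh hb hab hf g hV
  obtain ⟨-, hinv, c, -, hE⟩ := h2
  set a' : funAlg N := a * S24.jAlg N 1 (one_dvd N) with ha'
  have hab' : (h * jF N) * qExpHom N b = qExpHom N a' := by
    rw [ha', map_mul, S24.QX.qExpHom_jAlg, ← hab]
    show h * jF N * qExpHom N b = h * qExpHom N b * jF N
    ring
  have hρb : qExpHom N b ≠ 0 := fun h0 =>
    hb (S24.QX.qExpHom_injective N (by rw [h0, map_zero]))
  have hhj : h * jF N ≠ 0 := by
    intro h0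
    rw [h0, Vcusp, map_zero, MerGerm.ord_zero] at hV
    exact lt_irrefl _ hV
  have ha'0 : a' ≠ 0 := by
    intro h0
    rw [h0, map_zero] at hab'
    exact mul_ne_zero hhj hρb hab'
  have hVal := (ES.Mid.A.isVal_Vcusp N g).map_mul (h * jF N) (qExpHom N b) hhj hρb
  rw [hab', ES.Mid.A.Vcusp_qExpHom, ES.Mid.A.Vcusp_qExpHom] at hVal
  set A : ℂ → ℂ := cuspFn N a' g with hA
  set B : ℂ → ℂ := cuspFn N b g with hB
  have hAm : MeromorphicAt A 0 := cuspFn_meromorphicAt a'.2 g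
  have hBm : MeromorphicAt B 0 := cuspFn_meromorphicAt b.2 g
  have hAo : meromorphicOrderAt A 0 = ((meromorphicOrderAt A 0).untop₀ : ℤ) :=
    (WithTop.coe_untop₀_of_ne_top (order_ne_top ha'0 g)).symm
  have hBo : meromorphicOrderAt B 0 = ((meromorphicOrderAt B 0).untop₀ : ℤ) :=
    (WithTop.coe_untop₀_of_ne_top (order_ne_top hb g)).symm
  have hord : meromorphicOrderAt (A / B) 0 = ((Vcusp N g (h * jF N) : ℤ) : WithTop ℤ) := by
    rw [meromorphicOrderAt_div hAm hBm, hAo, hBo, hVal, ← WithTop.LinearOrderedAddCommGroup.coe_sub]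
    congr 1
    ring
  have htend : Tendsto (A / B) (𝓝[≠] 0) (𝓝 0) :=
    tendsto_zero_of_meromorphicOrderAt_pos (by rw [hord]; exact_mod_cast hV)
  have hBne : ∀ᶠ u in 𝓝[≠] (0 : ℂ), B u ≠ 0 :=
    (meromorphicOrderAt_ne_top_iff_eventually_ne_zero hBm).1 (order_ne_top hb g)
  have hN : (0 : ℝ) < N := by exact_mod_cast Nat.pos_of_ne_zero (NeZero.ne N)
  have hq : Tendsto (fun τ : ℍ => 𝕢 N (τ : ℂ)) atImInfty (𝓝[≠] 0) :=
    (Periodic.qParam_tendsto hN).comp tendsto_coe_atImInfty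
  have hE4 : ∀ᶠ τ : ℍ in atImInfty, E₄ τ ≠ 0 :=
    S24.tendsto_E4.eventually_ne one_ne_zero
  have hlim : Tendsto (fun τ : ℍ => c * E₆ τ / E₄ τ * (A / B) (𝕢 N (τ : ℂ))) atImInfty (𝓝 0) := by
    have h1 : Tendsto (fun τ : ℍ => c * E₆ τ / E₄ τ) atImInfty (𝓝 (c * 1 / 1)) :=
      (S24.tendsto_E6.const_mul c).div S24.tendsto_E4 one_ne_zero
    have h3 := h1.mul (htend.comp hq)
    rw [mul_zero] at h3
    exact h3
  show Tendsto (f ∣[(2 : ℤ)] g) atImInfty (𝓝 0)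
  refine hlim.congr' ?_
  filter_upwards [hE4, hq.eventually hBne] with τ h4 hBτ
  have hk := ANc_key N a b f hf hinv c hE g τ
  have hAτ : A (𝕢 N (τ : ℂ)) = (a' : ℍ → ℂ) (g • τ) := cuspFn_qParam a'.2 g τ
  have hBτ' : B (𝕢 N (τ : ℂ)) = (b : ℍ → ℂ) (g • τ) := cuspFn_qParam b.2 g τ
  rw [← hAτ, ← hBτ'] at hk
  rw [Pi.div_apply]
  field_simp
  linear_combination -hk

end Fermat.Agent.MR.Lift

end
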