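import Fermat.Agent.MR.Lift.AllAbs
import Fermat.Agent.MR.Lift.ANAll
import Fermat.Agent.MR.Lift.ANc

/-!
# MR / Lift / All : `Stmt_AN`, `Stmt_LIFT`, `Stmt_LIFTCong` without hypotheses
-/

set_option autoImplicit false

namespace Fermat.Agent.MR.Lift

theorem all_ANc : Stmt_ANc := stmt_ANc stmt_DjBasic

theorem all_ANform : Stmt_ANform := ANAll_form all_ANc

theorem all_AN : Stmt_AN := ANAll_AN all_ANc

theorem all_LIFT : Stmt_LIFT := all_LIFT_of_AN all_AN

theorem all_LIFTCong : Stmt_LIFTCong := all_LIFTCong_of_AN all_AN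

end Fermat.Agent.MR.Lift
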