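import Fermat.Agent.MR.Lift.InstInterface
import Fermat.Agent.INJ.Inst.Sat

/-!
# MR / Lift / I6 : a bounded ratio of integral series with primitive denominator is integral
-/

set_option autoImplicit false
set_option synthInstance.maxHeartbeats 400000

noncomputable section

namespace Fermat.Agent.MR.Lift

open ModularCurve
open Fermat.Agent.INJ Fermat.Agent.INJ.Inst Fermat.Agent.BR.Inst

/-- one step: the bound `c π` improves to the bound `c`. -/
theorem BddInt_step {K : Type*} [Field K] (A : Subring K) (x G : LaurentSeries K) (n0 : ℤ)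
    (u c π : K) (hu : u ∈ A) (hu1 : u * G.coeff n0 = 1)
    (h1 : ∀ n, c * π * x.coeff n ∈ A) (h2 : ∀ j, G.coeff j ∈ A)
    (h3 : ∀ j < n0, ∃ b ∈ A, G.coeff j = π * b)
    (h4 : ∀ n, c * (x * G).coeff n ∈ A) : ∀ n, c * x.coeff n ∈ A := by
  have hG0 : G.coeff n0 ≠ 0 := fun h => by rw [h, mul_zero] at hu1; exact zero_ne_one hu1
  have claim : ∀ m : ℕ, ∀ n : ℤ, n < x.order + m → c * x.coeff n ∈ A := by
    intro m
    induction m with
    | zero =>
      intro n hn
      rw [Nat.cast_zero, add_zero] at hn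
      rw [HahnSeries.coeff_eq_zero_of_lt_order hn, mul_zero]
      exact A.zero_mem
    | succ m ih =>
      intro n1 hn1
      by_cases hlt : n1 < x.order + m
      · exact ih n1 hlt
      have hlow : ∀ i < n1, c * x.coeff i ∈ A := fun i hi => ih i (by push_cast at hn1; omega)
      by_cases hx : x.coeff n1 = 0
      · rw [hx, mul_zero]; exact A.zero_mem
      have key : (x * G).coeff (n1 + n0) = _ := HahnSeries.coeff_mul
      have hmem : (n1, n0) ∈ Finset.antidiagonal x.isPWO_support G.isPWO_support (n1 + n0) := by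
        rw [Finset.mem_antidiagonal]
        exact ⟨hx, hG0, rfl⟩
      rw [← Finset.add_sum_erase _ _ hmem] at key
      have hrest : c * ∑ ij ∈ (Finset.antidiagonal x.isPWO_support G.isPWO_support
          (n1 + n0)).erase (n1, n0), x.coeff ij.1 * G.coeff ij.2 ∈ A := by
        rw [Finset.mul_sum]
        refine A.sum_mem fun ij hij => ?_
        obtain ⟨hne, hij'⟩ := Finset.mem_erase.1 hij
        obtain ⟨-, -, hsum⟩ := Finset.mem_antidiagonal.1 hij'
        rcases lt_trichotomy ij.1 n1 with h | h | h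
        · rw [← mul_assoc]
          exact A.mul_mem (hlow _ h) (h2 _)
        · exfalso
          apply hne
          ext
          · exact h
          · show ij.2 = n0
            omega
        · obtain ⟨b, hb, hb'⟩ := h3 ij.2 (by omega)
          rw [hb']
          have : c * (x.coeff ij.1 * (π * b)) = c * π * x.coeff ij.1 * b := by ring
          rw [this]
          exact A.mul_mem (h1 _) hb
      have e : c * x.coeff n1 = u * (c * (x * G).coeff (n1 + n0) -
          c * ∑ ij ∈ (Finset.antidiagonal x.isPWO_support G.isPWO_support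
          (n1 + n0)).erase (n1, n0), x.coeff ij.1 * G.coeff ij.2) := by
        rw [key]
        linear_combination (-(c * x.coeff n1)) * hu1
      rw [e]
      exact A.mul_mem hu (A.sub_mem (h4 _) hrest)
  intro n
  refine claim (n - x.order + 1).toNat n ?_
  have := Int.self_le_toNat (n - x.order + 1)
  omega

/-- the iteration. -/
theorem BddInt_iter {K : Type*} [Field K] (A : ValuationSubring K) (x G : LaurentSeries K)
    (n0 : ℤ) (u π0 : K) (hu : u ∈ A) (hu1 : u * G.coeff n0 = 1) (hπ0 : π0 ≠ 0)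
    (h2 : ∀ j, G.coeff j ∈ A) (h3 : ∀ j < n0, G.coeff j * π0⁻¹ ∈ A)
    (h4 : ∀ n, (x * G).coeff n ∈ A) (k : ℕ) :
    ∀ c : K, c ≠ 0 → c ∈ A → (∀ n, c * x.coeff n ∈ A) → π0 ^ k * c⁻¹ ∈ A →
      ∀ n, x.coeff n ∈ A := by
  induction k with
  | zero =>
    intro c hc0 _ hb hk n
    rw [pow_zero, one_mul] at hk
    have : x.coeff n = c⁻¹ * (c * x.coeff n) := by field_simp
    rw [this]
    exact A.mul_mem _ _ hk (hb n)
  | succ k ih =>
    intro c hc0 hcA hb hk
    by_cases h : c * π0⁻¹ ∈ A
    · refine ih (c * π0⁻¹) (mul_ne_zero hc0 (inv_ne_zero hπ0)) h ?_ ?_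
      · refine BddInt_step A.toSubring x G n0 u (c * π0⁻¹) π0 hu hu1 (fun n => ?_) h2
          (fun j hj => ⟨_, h3 j hj, by field_simp⟩) (fun n => A.mul_mem _ _ h (h4 n))
        have : c * π0⁻¹ * π0 * x.coeff n = c * x.coeff n := by field_simp
        rw [this]
        exact hb n
      · have : π0 ^ k * (c * π0⁻¹)⁻¹ = π0 ^ (k + 1) * c⁻¹ := by
          rw [pow_succ]; field_simp
        rw [this]
        exact hk
    · have h' : π0 * c⁻¹ ∈ A := by
        rcases A.mem_or_inv_mem (c * π0⁻¹) with h1 | h1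
        · exact absurd h1 h
        · have : (c * π0⁻¹)⁻¹ = π0 * c⁻¹ := by field_simp
          rwa [this] at h1
      have := BddInt_step A.toSubring x G n0 u 1 c hu hu1 (fun n => by rw [one_mul]; exact hb n) h2
        (fun j hj => ⟨G.coeff j * π0⁻¹ * (π0 * c⁻¹), A.mul_mem _ _ (h3 j hj) h', by field_simp⟩)
        (fun n => by rw [one_mul]; exact h4 n)
      intro n
      have h5 := this n
      rwa [one_mul] at h5

/-- (I6) -/
theorem stmt_BddInt : Stmt_BddInt := by
  intro p hp A hA x f g a ha hbd hg hxg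
  classical
  have halg : Algebra.IsAlgebraic ℚ Qb := AlgebraicClosure.isAlgebraic ℚ
  suffices hall : ∀ n, x.coeff n ∈ A by
    refine ⟨⟨fun n => ⟨x.coeff n, hall n⟩, ?_⟩, ?_⟩
    · refine x.isPWO_support.mono fun n hn => ?_
      intro h0
      apply hn
      exact Subtype.ext h0
    · ext n
      rfl
  by_cases haA : a ∈ A
  swap
  · intro n
    have h1 : a⁻¹ ∈ A := (A.mem_or_inv_mem a).resolve_left haA
    have : x.coeff n = a⁻¹ * (a * x.coeff n) := by field_simp
    rw [this]
    exact A.mul_mem _ _ h1 (hbd n)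
  set n0 : ℤ := (coeffMap (IsLocalRing.residue A) g).order with hn0
  have hunit : IsUnit (g.coeff n0) := by
    have h1 : (coeffMap (IsLocalRing.residue A) g).coeff n0 ≠ 0 := fun h => hg (HahnSeries.coeff_order_eq_zero.1 h)
    rw [coeffMap_coeff] at h1
    by_contra h2
    exact h1 ((IsLocalRing.residue_eq_zero_iff _).2 ((IsLocalRing.mem_maximalIdeal _).2 h2))
  have hsmall : ∀ j < n0, (g.coeff j : Qb) ∈ A.nonunits := by
    intro j hj
    have h1 : (coeffMap (IsLocalRing.residue A) g).coeff j = 0 :=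
      HahnSeries.coeff_eq_zero_of_lt_order hj
    rw [coeffMap_coeff, IsLocalRing.residue_eq_zero_iff] at h1
    rw [ValuationSubring.mem_nonunits_iff_exists_mem_maximalIdeal]
    exact ⟨(g.coeff j).2, h1⟩
  obtain ⟨w, hw⟩ := hunit.exists_left_inv
  -- the bound `π0`
  let s : Finset Qb := insert (p : Qb) ((Finset.Ico g.order n0).image fun j => (g.coeff j : Qb))
  obtain ⟨π0, hπ0s, hmax⟩ := Finset.exists_max_image s A.valuation ⟨_, Finset.mem_insert_self _ _⟩
  have hp0 : (p : Qb) ≠ 0 := Nat.cast_ne_zero.2 hp.out.ne_zero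
  have hπ0 : π0 ≠ 0 := by
    intro h0
    have h1 := hmax (p : Qb) (Finset.mem_insert_self _ _)
    rw [h0, map_zero] at h1
    exact hp0 ((map_eq_zero A.valuation).1 (le_antisymm h1 zero_le))
  have hπ0nu : π0 ∈ A.nonunits := by
    rcases Finset.mem_insert.1 hπ0s with h | h
    · rw [h]; exact hA
    · obtain ⟨j, hj, rfl⟩ := Finset.mem_image.1 h
      exact hsmall j (Finset.mem_Ico.1 hj).2
  obtain ⟨k, hk⟩ := Fermat.Agent.INJ.Inst.Sat.arch hp.out hA π0 hπ0nu a ha
  refine BddInt_iter A x (coeffMap A.subtype g) n0 (w : Qb) π0 w.2 ?_ hπ0 (fun j => (g.coeff j).2)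
    ?_ ?_ k a ha haA hbd hk
  · rw [coeffMap_coeff]
    exact congrArg Subtype.val hw
  · intro j hj
    rw [coeffMap_coeff]
    by_cases hjo : j < g.order
    · rw [HahnSeries.coeff_eq_zero_of_lt_order hjo, map_zero, zero_mul]
      exact A.zero_mem
    · have h1 : (g.coeff j : Qb) ∈ s :=
        Finset.mem_insert_of_mem (Finset.mem_image.2 ⟨j, Finset.mem_Ico.2 ⟨not_lt.1 hjo, hj⟩, rfl⟩)
      rw [← A.valuation_le_one_iff, map_mul, map_inv₀]
      have hv : 0 < A.valuation π0 := zero_lt_iff.2 ((map_ne_zero A.valuation).2 hπ0)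
      rw [mul_inv_le_iff₀ hv, one_mul]
      exact hmax _ h1
  · intro n
    rw [hxg, coeffMap_coeff]
    exact (f.coeff n).2

end Fermat.Agent.MR.Lift

end
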