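import Fermat.Agent.MR.Lift.InstInterface

/-!
# MR / Lift : (I8) the bridge `MR.congIdeal_ne_top_of_form` in the language `(ℚ̄, A, iota)`

A cusp form of level `N` whose `q`-expansion is `iota (c n)` with `c n ∈ A`, not all in `𝔪_A`,
which is an eigenvector mod `𝔪_A` of the `T_ℓ` (`Good ℓ`) with eigenvalues `a ℓ`, makes the
congruence ideal proper.  (Copy of helper24's proof in `MR/Top.lean`.)
-/

set_option autoImplicit false
set_option synthInstance.maxHeartbeats 400000

noncomputable section

namespace Fermat.Agent.MR.Lift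

open CuspForm ModularFormClass CongruenceSubgroup Fermat.Agent.S49
open Fermat.Agent.INJ.Inst
open Fermat.Agent.S24 (iota)

/-- `z` is the image under `iota` of an element of the maximal ideal of `A`. -/
def BridgeA_LPos (A : ValuationSubring Qb) (z : ℂ) : Prop :=
  ∃ y : A, IsLocalRing.residue A y = 0 ∧ z = iota (y : Qb)

section Loc

variable {A : ValuationSubring Qb}

theorem BridgeA_lPos_zero : BridgeA_LPos A 0 :=
  ⟨0, map_zero _, by simp⟩

theorem BridgeA_LPos.add {z z' : ℂ} (h : BridgeA_LPos A z) (h' : BridgeA_LPos A z') :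
    BridgeA_LPos A (z + z') := by
  obtain ⟨y, hy, rfl⟩ := h
  obtain ⟨y', hy', rfl⟩ := h'
  exact ⟨y + y', by rw [map_add, hy, hy', add_zero], by push_cast; rw [map_add]⟩

theorem BridgeA_LPos.intCast_mul {z : ℂ} (h : BridgeA_LPos A z) (m : ℤ) :
    BridgeA_LPos A ((m : ℂ) * z) := by
  obtain ⟨y, hy, rfl⟩ := h
  exact ⟨(m : A) * y, by rw [map_mul, hy, mul_zero], by push_cast; rw [map_mul, map_intCast]⟩

end Loc

/-- all `q`-coefficients are in the maximal ideal. -/
def BridgeA_FPos {N : ℕ} (A : ValuationSubring Qb) (F : CuspForm (Gamma0 N) 2) : Prop :=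
  ∀ n, BridgeA_LPos A (qCoeff F n)

theorem BridgeA_FPos.hecke {N : ℕ} [NeZero N] {A : ValuationSubring Qb}
    {t : Module.End ℂ (CuspForm (Gamma0 N) 2)} (ht : t ∈ CuspForm.heckeAlgebra N 2 ∅) :
    ∀ F : CuspForm (Gamma0 N) 2, BridgeA_FPos A F → BridgeA_FPos A (t F) := by
  unfold CuspForm.heckeAlgebra at ht
  induction ht using Algebra.adjoin_induction with
  | mem x hx =>
    intro F hF n
    rcases hx with ⟨ℓ, hℓ, hℓN, -, rfl⟩ | ⟨q, hqN, hq, -, rfl⟩
    · rw [qCoeff_heckeTLin]
      refine (hF _).add ?_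
      split_ifs
      · exact_mod_cast (hF (n / ℓ)).intCast_mul (ℓ : ℤ)
      · rw [mul_zero]; exact BridgeA_lPos_zero
    · rw [qCoeff_heckeULin hq]
      exact hF _
  | algebraMap r =>
    intro F hF n
    have : (algebraMap ℤ (Module.End ℂ (CuspForm (Gamma0 N) 2)) r) F = (r : ℂ) • F := by
      rw [Algebra.algebraMap_eq_smul_one, LinearMap.smul_apply, Module.End.one_apply,
        Int.cast_smul_eq_zsmul]
    rw [this, ← qCoeffLin_apply, map_smul, qCoeffLin_apply, smul_eq_mul]
    exact (hF n).intCast_mul r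
  | add x y _ _ hx hy =>
    intro F hF n
    rw [LinearMap.add_apply, ← qCoeffLin_apply, map_add, qCoeffLin_apply, qCoeffLin_apply]
    exact (hx F hF n).add (hy F hF n)
  | mul x y _ _ hx hy =>
    intro F hF
    rw [Module.End.mul_apply]
    exact hx _ (hy F hF)

/-- `p` lies in the maximal ideal of `A`. -/
theorem BridgeA_residue_natCast {A : ValuationSubring Qb} {p : ℕ} (hA : A.LiesOverPrime p) :
    IsLocalRing.residue A (p : A) = 0 := by
  rw [IsLocalRing.residue_eq_zero_iff, IsLocalRing.mem_maximalIdeal, mem_nonunits_iff]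
  intro hu
  have h1 : (p : Qb) ∈ A.nonunits := hA
  rw [ValuationSubring.mem_nonunits_iff_exists_mem_maximalIdeal] at h1
  obtain ⟨ha, h2⟩ := h1
  rw [IsLocalRing.mem_maximalIdeal, mem_nonunits_iff] at h2
  apply h2
  have : (⟨(p : Qb), ha⟩ : A) = (p : A) := Subtype.ext (by push_cast; rfl)
  rw [this]
  exact hu

/-- **(I8)** -/
theorem stmt_BridgeA : Stmt_BridgeA := by
  intro N _ p _ a Good A hA G c hc hG0 hT htop
  have key : ∀ r ∈ MR.congIdeal N p a Good,
      BridgeA_FPos A ((r : Module.End ℂ (CuspForm (Gamma0 N) 2)) G) := by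
    intro r hr
    unfold MR.congIdeal at hr
    induction hr using Submodule.span_induction with
    | mem x hx =>
      rcases hx with hx | ⟨ℓ, hℓ, hℓN, hg, rfl⟩
      · rw [Set.mem_singleton_iff] at hx
        subst hx
        intro n
        have : (((p : CuspForm.heckeAlgebra N 2 ∅) :
            Module.End ℂ (CuspForm (Gamma0 N) 2))) G = (p : ℂ) • G := by
          have e : (((p : CuspForm.heckeAlgebra N 2 ∅) :
              Module.End ℂ (CuspForm (Gamma0 N) 2))) = (p : Module.End ℂ (CuspForm (Gamma0 N) 2)) :=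
            map_natCast (CuspForm.heckeAlgebra N 2 ∅).val p
          rw [e, ← nsmul_one, LinearMap.smul_apply, Module.End.one_apply,
            Nat.cast_smul_eq_nsmul]
        rw [this, ← qCoeffLin_apply, map_smul, qCoeffLin_apply, smul_eq_mul, hc n]
        refine ⟨(p : A) * c n, by rw [map_mul, BridgeA_residue_natCast hA, zero_mul], ?_⟩
        push_cast
        rw [map_mul, map_natCast]
      · intro n
        have : (((heckeAlgebra.T hℓ hℓN (Set.notMem_empty ℓ) -
            ((a ℓ : ℤ) : CuspForm.heckeAlgebra N 2 ∅) : CuspForm.heckeAlgebra N 2 ∅)) :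
            Module.End ℂ (CuspForm (Gamma0 N) 2)) G = heckeTLin 2 hℓ hℓN G - (a ℓ : ℂ) • G := by
          have e : ((((a ℓ : ℤ) : CuspForm.heckeAlgebra N 2 ∅) :
              Module.End ℂ (CuspForm (Gamma0 N) 2))) =
              ((a ℓ : ℤ) : Module.End ℂ (CuspForm (Gamma0 N) 2)) :=
            map_intCast (CuspForm.heckeAlgebra N 2 ∅).val (a ℓ)
          rw [Subalgebra.coe_sub, heckeAlgebra.coe_T, e, LinearMap.sub_apply,
            ← zsmul_one, LinearMap.smul_apply, Module.End.one_apply, Int.cast_smul_eq_zsmul]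
        rw [this, ← qCoeffLin_apply, map_sub, map_smul, qCoeffLin_apply, qCoeffLin_apply,
          smul_eq_mul, qCoeff_heckeTLin]
        refine ⟨_, hT ℓ hℓ hℓN hg n, ?_⟩
        simp only [hc]
        split_ifs
        · push_cast
          simp only [map_sub, map_add, map_mul, map_natCast, map_intCast]
        · push_cast
          simp only [map_sub, map_add, map_mul, map_zero, map_intCast, mul_zero]
    | zero =>
      intro n
      rw [Subalgebra.coe_zero, LinearMap.zero_apply, ← qCoeffLin_apply, map_zero]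
      exact BridgeA_lPos_zero
    | add x y _ _ hx hy =>
      intro n
      rw [Subalgebra.coe_add, LinearMap.add_apply, ← qCoeffLin_apply, map_add, qCoeffLin_apply,
        qCoeffLin_apply]
      exact (hx n).add (hy n)
    | smul r x _ hx =>
      rw [smul_eq_mul, Subalgebra.coe_mul, Module.End.mul_apply]
      exact BridgeA_FPos.hecke r.2 _ hx
  obtain ⟨n, hn⟩ := hG0
  obtain ⟨y, hy, h1⟩ := key 1 (htop ▸ Submodule.mem_top) n
  rw [Subalgebra.coe_one, Module.End.one_apply, hc n] at h1
  apply hn
  have h2 : (c n : Qb) = (y : Qb) := iota.toRingHom.injective h1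
  rw [Subtype.ext h2]
  exact hy

end Fermat.Agent.MR.Lift
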