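import Fermat.Agent.MR.Lift.InstInterface
import Fermat.Agent.S36.HM.All
import Fermat.Agent.INJ.P13
import Fermat.Agent.INJ.Inst.BranchT
import Fermat.Agent.INJ.Inst.RamJ

/-!
# MR / Lift : (I1) `Stmt_ChartJ` and (I2) `Stmt_BranchJ`

Both are assembled from landed results:
* `S36.HM.all_ChartJ` (chart at `j(q)`), `INJ.stmt_ChartInv`, `IsGauss.s_mem_rd`;
* `INJ.Inst.stmt_RamJ`, `INJ.Inst.BR_aux` with `a = 1728`.
-/

set_option autoImplicit false
set_option synthInstance.maxHeartbeats 400000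

noncomputable section

namespace Fermat.Agent.MR.Lift

open Polynomial IntermediateField AlgebraicCurve
open Fermat.Agent.INJ Fermat.Agent.INJ.Inst Fermat.Agent.BR.Inst
open Fermat.Agent.S24 (Qbar FF funAlg iota jF MerGerm)

theorem stmt_ChartJ : Stmt_ChartJ := by
  intro N _ p _ hpN A hA L D hG
  have hC : Chart D (jF N) := S36.HM.all_ChartJ N p hpN A hA L D hG (jF N) (coe_jF N)
  exact ⟨hC, stmt_ChartInv _ _ _ _ D (jF N) hC, (hG.s_mem_rd 1 (jF N) (coe_jF N)).2⟩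

theorem ChartJ_not_dvd_1728 {p : ℕ} (hp : p.Prime) (h5 : 5 ≤ p) : ¬ p ∣ 1728 := by
  intro h
  have h' : p ∣ 2 ^ 6 * 3 ^ 3 := by norm_num; exact h
  rcases (Nat.Prime.dvd_mul hp).1 h' with h2 | h3
  · have := Nat.le_of_dvd (by norm_num) (hp.dvd_of_dvd_pow h2)
    omega
  · have := Nat.le_of_dvd (by norm_num) (hp.dvd_of_dvd_pow h3)
    omega

theorem stmt_BranchJ : Stmt_BranchJ := by
  intro N _ p hp h5 A hA L D hG
  haveI : FiniteDimensional Qb⟮jF N⟯ (FL N) := (S24.finrank_FF_le N).1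
  have htr : Transcendental Qb (jF N) := S24.DegBd.transcendental_jF N
  have hJ : JRam (K := Qb) (S24.jF N) := stmt_RamJ stmt_RamUnif N
  have hn : ¬ p ∣ 1728 := ChartJ_not_dvd_1728 hp.out h5
  refine BR_aux D htr 1728 (by norm_num) ?_ ?_ (fun v c hc0 hc hv => (hJ c v hv).2.2 hc0 hc)
  · rw [hG.hA]; exact_mod_cast natCast_mem A 1728
  · rw [hG.hA]; exact_mod_cast BR_inv_mem hp.out hA 1728 hn

end Fermat.Agent.MR.Lift

end
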