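import Fermat.Agent.MR.Lift.InstInterface
import Fermat.Agent.S49.QCoeff
import Fermat.Agent.QInt.Main

/-!
# MR / Lift / I7 : the `q`-expansion of a cusp form with coefficients in `ℚ̄` is bounded
-/

set_option autoImplicit false
set_option synthInstance.maxHeartbeats 400000

noncomputable section

namespace Fermat.Agent.MR.Lift

open ModularCurve CongruenceSubgroup
open Fermat.Agent.INJ Fermat.Agent.INJ.Inst Fermat.Agent.BR.Inst
open Fermat.Agent.S24 (Qbar iota)
attribute [local instance] Fermat.Agent.S24.algQbarComplex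

/-- a `ℚ̄`-linear retraction of `iota`. -/
theorem CuspBdd_retraction : ∃ ρ : ℂ →ₗ[Qbar] Qbar, ∀ y : Qbar, ρ (iota y) = y := by
  obtain ⟨g, hg⟩ := LinearMap.exists_leftInverse_of_injective (Algebra.linearMap Qbar ℂ)
    (LinearMap.ker_eq_bot.2 (algebraMap Qbar ℂ).injective)
  exact ⟨g, fun y => LinearMap.congr_fun hg y⟩

/-- elements of the integral lattice have integral coefficients. -/
theorem CuspBdd_int (N : ℕ) (f : CuspForm (Gamma0 N) 2) (hf : f ∈ CuspForm.intLattice N 2)
    (n : ℕ) : ∃ m : ℤ, ModularFormClass.qCoeff f n = (m : ℂ) := by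
  unfold CuspForm.intLattice at hf
  induction hf using Submodule.span_induction with
  | mem f hf => exact hf n
  | zero => exact ⟨0, by rw [← S49.qCoeffLin_apply, map_zero, Int.cast_zero]⟩
  | add f g _ _ hf hg =>
    obtain ⟨a, ha⟩ := hf
    obtain ⟨b, hb⟩ := hg
    exact ⟨a + b, by rw [← S49.qCoeffLin_apply, map_add, S49.qCoeffLin_apply, S49.qCoeffLin_apply,
      ha, hb, Int.cast_add]⟩
  | smul c f _ hf =>
    obtain ⟨a, ha⟩ := hf
    exact ⟨c * a, by rw [← S49.qCoeffLin_apply, map_zsmul, S49.qCoeffLin_apply, ha, zsmul_eq_mul,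
      Int.cast_mul]⟩

/-- (I7) -/
theorem stmt_CuspBdd : Stmt_CuspBdd := by
  intro N _ A f c hc
  obtain ⟨ρ, hρ⟩ := CuspBdd_retraction
  have key : ∀ g : CuspForm (Gamma0 N) 2, ∀ z : ℂ, ∃ a : Qbar, a ≠ 0 ∧ a ∈ A ∧
      ∀ n, a * ρ (z * ModularFormClass.qCoeff g n) ∈ A := by
    intro g
    have hg : g ∈ Submodule.span ℂ
        ((CuspForm.intLattice N 2 : Submodule ℤ _) : Set (CuspForm (Gamma0 N) 2)) := by
      rw [show Submodule.span ℂ
        ((CuspForm.intLattice N 2 : Submodule ℤ _) : Set (CuspForm (Gamma0 N) 2)) = ⊤ from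
        Fermat.Agent.QInt.hasIntegralStructure N 2]
      exact Submodule.mem_top
    induction hg using Submodule.span_induction with
    | mem g hg =>
      intro z
      have h1 : ∀ n, ∃ m : ℤ, ρ (z * ModularFormClass.qCoeff g n) = m * ρ z := by
        intro n
        obtain ⟨m, hm⟩ := CuspBdd_int N g hg n
        refine ⟨m, ?_⟩
        rw [hm, mul_comm, ← zsmul_eq_mul, map_zsmul, zsmul_eq_mul]
      rcases A.mem_or_inv_mem (ρ z) with h | h
      · refine ⟨1, one_ne_zero, A.one_mem, fun n => ?_⟩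
        obtain ⟨m, hm⟩ := h1 n
        rw [hm, one_mul]
        exact A.mul_mem _ _ (intCast_mem A m) h
      · by_cases h0 : ρ z = 0
        · refine ⟨1, one_ne_zero, A.one_mem, fun n => ?_⟩
          obtain ⟨m, hm⟩ := h1 n
          rw [hm, h0, mul_zero, mul_zero]
          exact A.zero_mem
        · refine ⟨(ρ z)⁻¹, inv_ne_zero h0, h, fun n => ?_⟩
          obtain ⟨m, hm⟩ := h1 n
          rw [hm]
          have : (ρ z)⁻¹ * ((m : Qbar) * ρ z) = m := by field_simp
          rw [this]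
          exact intCast_mem A m
    | zero =>
      intro z
      refine ⟨1, one_ne_zero, A.one_mem, fun n => ?_⟩
      rw [← S49.qCoeffLin_apply, map_zero, mul_zero, map_zero, mul_zero]
      exact A.zero_mem
    | add g₁ g₂ _ _ h₁ h₂ =>
      intro z
      obtain ⟨a₁, h10, h1A, h1⟩ := h₁ z
      obtain ⟨a₂, h20, h2A, h2⟩ := h₂ z
      refine ⟨a₁ * a₂, mul_ne_zero h10 h20, A.mul_mem _ _ h1A h2A, fun n => ?_⟩
      rw [← S49.qCoeffLin_apply, map_add, S49.qCoeffLin_apply, S49.qCoeffLin_apply, mul_add,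
        map_add]
      have : a₁ * a₂ * (ρ (z * ModularFormClass.qCoeff g₁ n) + ρ (z * ModularFormClass.qCoeff g₂ n))
          = a₂ * (a₁ * ρ (z * ModularFormClass.qCoeff g₁ n))
            + a₁ * (a₂ * ρ (z * ModularFormClass.qCoeff g₂ n)) := by ring
      rw [this]
      exact A.add_mem _ _ (A.mul_mem _ _ h2A (h1 n)) (A.mul_mem _ _ h1A (h2 n))
    | smul w g _ h =>
      intro z
      obtain ⟨a, h0, hA, h1⟩ := h (z * w)
      refine ⟨a, h0, hA, fun n => ?_⟩
      rw [← S49.qCoeffLin_apply, map_smul, S49.qCoeffLin_apply, smul_eq_mul, ← mul_assoc]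
      exact h1 n
  obtain ⟨a, h0, -, h1⟩ := key f 1
  refine ⟨a, h0, fun n => ?_⟩
  have := h1 n
  rwa [one_mul, hc n, hρ] at this

end Fermat.Agent.MR.Lift

end
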