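import Fermat.Agent.MR.Lift.Interface
import Fermat.Agent.INJ.P17

/-!
# MR / Lift (B5): `dlog g` lies in the trace dual / is holomorphic  (task 1192, helper53)
-/

set_option autoImplicit false

namespace Fermat.Agent.MR.Lift

open Polynomial IntermediateField Fermat.Agent.INJ

section API

variable {k Fb : Type*} [Field k] [Field Fb] [Algebra k Fb]

theorem DLog_isInt_aeval (tb : Fb) (Q : k[X]) : IsInt k tb (aeval tb Q) := by
  have hmem : aeval tb Q ∈ Algebra.adjoin k {tb} := by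
    rw [Algebra.adjoin_singleton_eq_range_aeval]
    exact ⟨Q, rfl⟩
  exact isIntegral_algebraMap (R := Algebra.adjoin k {tb}) (A := Fb) (x := ⟨_, hmem⟩)

theorem DLog_isInt_mul {tb x y : Fb} (hx : IsInt k tb x) (hy : IsInt k tb y) :
    IsInt k tb (x * y) := IsIntegral.mul hx hy

theorem DLog_inDual_zero (tb : Fb) : InDual k tb 0 := by
  intro y _
  exact ⟨0, by simp⟩

theorem DLog_inDual_add {tb z₁ z₂ : Fb} (h₁ : InDual k tb z₁) (h₂ : InDual k tb z₂) :
    InDual k tb (z₁ + z₂) := by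
  intro y hy
  obtain ⟨P₁, hP₁⟩ := h₁ y hy
  obtain ⟨P₂, hP₂⟩ := h₂ y hy
  exact ⟨P₁ + P₂, by rw [add_mul, map_add, map_add, map_add, hP₁, hP₂]⟩

theorem DLog_inDual_neg {tb z : Fb} (h : InDual k tb z) : InDual k tb (-z) := by
  intro y hy
  obtain ⟨P, hP⟩ := h y hy
  exact ⟨-P, by rw [neg_mul, map_neg, map_neg, map_neg, hP]⟩

theorem DLog_inDual_sub {tb z₁ z₂ : Fb} (h₁ : InDual k tb z₁) (h₂ : InDual k tb z₂) :
    InDual k tb (z₁ - z₂) := by
  rw [sub_eq_add_neg]
  exact DLog_inDual_add h₁ (DLog_inDual_neg h₂)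

theorem DLog_inDual_mul {tb b z : Fb} (hb : IsInt k tb b) (h : InDual k tb z) :
    InDual k tb (b * z) := by
  intro y hy
  obtain ⟨P, hP⟩ := h (b * y) (DLog_isInt_mul hb hy)
  exact ⟨P, by rw [← hP]; congr 2; ring⟩

/-- the ideal of all `Q` with `Q(t) z` in the trace dual. -/
def DLog_ideal (tb z : Fb) : Ideal k[X] where
  carrier := {Q | InDual k tb (aeval tb Q * z)}
  zero_mem' := by
    show InDual k tb (aeval tb (0 : k[X]) * z)
    rw [map_zero, zero_mul]
    exact DLog_inDual_zero tb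
  add_mem' := by
    intro Q₁ Q₂ h₁ h₂
    show InDual k tb (aeval tb (Q₁ + Q₂) * z)
    rw [map_add, add_mul]
    exact DLog_inDual_add h₁ h₂
  smul_mem' := by
    intro Q' Q h
    show InDual k tb (aeval tb (Q' • Q) * z)
    rw [smul_eq_mul, map_mul, mul_assoc]
    exact DLog_inDual_mul (DLog_isInt_aeval tb Q') h

theorem DLog_mem_ideal {tb z : Fb} {Q : k[X]} :
    Q ∈ DLog_ideal (k := k) tb z ↔ InDual k tb (aeval tb Q * z) := Iff.rfl

/-- an ideal of `k[X]`, `k` algebraically closed, without common zero is everything. -/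
theorem DLog_ideal_eq_top [IsAlgClosed k] (I : Ideal k[X])
    (h : ∀ c : k, ∃ R ∈ I, R.eval c ≠ 0) : I = ⊤ := by
  by_contra hI
  set P := Submodule.IsPrincipal.generator I with hP
  have hdeg : P.degree ≠ 0 := by
    intro hd
    have hu : IsUnit P := Polynomial.isUnit_iff_degree_eq_zero.2 hd
    exact hI (Ideal.eq_top_of_isUnit_mem I (Submodule.IsPrincipal.generator_mem I) hu)
  obtain ⟨c, hc⟩ := IsAlgClosed.exists_root P hdeg
  obtain ⟨R, hR, hRc⟩ := h c
  have hdvd : P ∣ R := (Submodule.IsPrincipal.mem_iff_generator_dvd I).1 hR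
  exact hRc (Polynomial.eval_eq_zero_of_dvd_of_eval_eq_zero hdvd hc)

end API

theorem stmt_DLog : Stmt_DLog := by
  intro k Fb _ _ _ _ p _ _ tb _ _ δb hδ g hg hloc
  have hchar : CharP Fb p := (Algebra.charP_iff k Fb p).1 inferInstance
  have key : DLog_ideal (k := k) tb (δb g / g) = ⊤ := by
    apply DLog_ideal_eq_top
    intro c
    obtain ⟨α, R, hα, hRc, h1, h2⟩ := hloc c
    refine ⟨R ^ 2, ?_, by rw [eval_pow]; exact pow_ne_zero 2 hRc⟩
    rw [DLog_mem_ideal]
    set r : Fb := aeval tb R with hr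
    set ε : Fb := α ^ p * g with hε
    have hε0 : ε ≠ 0 := mul_ne_zero (pow_ne_zero p hα) hg
    have hαp : δb (α ^ p) = 0 := by
      rw [Derivation.leibniz_pow, ← Nat.cast_smul_eq_nsmul Fb, CharP.cast_eq_zero, zero_smul]
    have hδε : δb ε = α ^ p * δb g := by
      rw [hε, Derivation.leibniz, hαp, smul_zero, add_zero, smul_eq_mul]
    have hquot : δb g / g = δb ε / ε := by
      rw [hδε, hε]
      field_simp
    have hrε : δb (r * ε) = r * δb ε + ε * δb r := by
      rw [Derivation.leibniz, smul_eq_mul, smul_eq_mul]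
    have hid : aeval tb (R ^ 2) * (δb g / g) = (r * ε⁻¹) * δb (r * ε) - r * δb r := by
      rw [map_pow, ← hr, hquot, hrε]
      field_simp
      ring
    rw [hid]
    exact DLog_inDual_sub (DLog_inDual_mul h2 (hδ _ h1))
      (DLog_inDual_mul (DLog_isInt_aeval tb R) (hδ _ (DLog_isInt_aeval tb R)))
  have h1 : (1 : k[X]) ∈ DLog_ideal (k := k) tb (δb g / g) := by rw [key]; trivial
  rw [DLog_mem_ideal, map_one, one_mul] at h1
  exact h1

theorem stmt_DLogHol (hDD : Stmt_DerDual) : Stmt_DLogHol := by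
  intro K F k Fb _ _ _ _ _ _ _ _ _ p _ _ D t hC hC' hB hB' δ δb hδ hδb hT hT' g hg hL hL'
  have htb0 : D.rd t ≠ 0 := by
    intro h0
    exact hC.trans (by rw [h0]; exact isAlgebraic_zero)
  have hinv : D.rd t⁻¹ = (D.rd t)⁻¹ := RedData.rd_inv htb0
  have ht0 : t ≠ 0 := by
    rintro rfl
    exact htb0 RedData.rd_zero
  have hfin : FiniteDimensional k⟮D.rd t⟯ Fb :=
    stmt_ResFinite K F k Fb D t hC.t_mem hC.trans hC.fin
  have hfin' : FiniteDimensional k⟮(D.rd t)⁻¹⟯ Fb := by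
    rw [← hinv]
    exact stmt_ResFinite K F k Fb D t⁻¹ hC'.t_mem hC'.trans hC'.fin
  have htr' : Transcendental k (D.rd t)⁻¹ := by
    rw [← hinv]; exact hC'.trans
  refine ⟨?_, ?_⟩
  · exact stmt_DLog k Fb p (D.rd t) hC.trans hfin δb
      (hDD K F k Fb D t hC hB δ δb hδ hδb hT) g hg hL
  · have e1 : ((-t ^ 2) • δ) t⁻¹ = 1 := by
      rw [Derivation.smul_apply, Derivation.leibniz_inv, hδ, smul_eq_mul, smul_eq_mul]
      field_simp
    have e2 : ((-(D.rd t) ^ 2) • δb) (D.rd t⁻¹) = 1 := by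
      rw [hinv, Derivation.smul_apply, Derivation.leibniz_inv, hδb, smul_eq_mul, smul_eq_mul]
      field_simp
    have h1 := hDD K F k Fb D t⁻¹ hC' hB' ((-t ^ 2) • δ) ((-(D.rd t) ^ 2) • δb) e1 e2 hT'
    rw [hinv] at h1
    have h2 := stmt_DLog k Fb p (D.rd t)⁻¹ htr' hfin' ((-(D.rd t) ^ 2) • δb) h1 g hg hL'
    have h3 := DLog_inDual_neg h2
    have e3 : -(((-(D.rd t) ^ 2) • δb) g / g) = δb g / g * D.rd t ^ 2 := by
      rw [Derivation.smul_apply, smul_eq_mul]
      ring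
    rw [e3] at h3
    exact h3

end Fermat.Agent.MR.Lift
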