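import Fermat.Agent.MR.Lift.Interface
import Fermat.Agent.INJ.All
import Fermat.Agent.INJ.P17

/-!
# MR / Lift, B4 : the derivation of the special fibre maps `Bbar` into its trace dual
-/

set_option autoImplicit false

namespace Fermat.Agent.MR.Lift

open Polynomial IntermediateField AlgebraicCurve Fermat.Agent.INJ

section

variable {K F k Fb : Type} [Field K] [Field F] [Algebra K F] [Field k] [Field Fb] [Algebra k Fb]
  (D : RedData K F k Fb)

theorem DerDual_ra_ne {c c' : K} (hc : c ∈ D.A) (hc' : c' ∈ D.A) (hne : c ≠ c')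
    (hinv : (c - c')⁻¹ ∈ D.A) : D.ra c ≠ D.ra c' := by
  intro h
  have h0 : algebraMap K F (c - c') ≠ 0 := by
    rw [Ne, map_eq_zero]
    exact sub_ne_zero.2 hne
  have h1 : D.rd (algebraMap K F (c - c')) ≠ 0 := by
    apply RedData.rd_ne_zero_of_inv_mem h0 (RedData.algebraMap_mem (sub_mem hc hc'))
    rw [← map_inv₀]
    exact RedData.algebraMap_mem hinv
  apply h1
  rw [map_sub, RedData.rd_sub (RedData.algebraMap_mem hc) (RedData.algebraMap_mem hc'),
    RedData.rd_algebraMap hc, RedData.rd_algebraMap hc', h, sub_self]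

theorem DerDual_beta_mem {t : F} (ht : t ∈ D.O) {S : Finset K} (hS : ∀ c ∈ S, c ∈ D.A) :
    beta t S ∈ D.O :=
  RedData.prod_mem S _ fun c hc => sub_mem ht (RedData.algebraMap_mem (hS c hc))

open Classical in
theorem DerDual_rd_beta {t : F} (ht : t ∈ D.O) {S : Finset K} (hS : ∀ c ∈ S, c ∈ D.A)
    (hd : ∀ c ∈ S, ∀ c' ∈ S, c ≠ c' → (c - c')⁻¹ ∈ D.A) :
    D.rd (beta t S) = beta (D.rd t) (S.image D.ra) := by
  rw [beta, beta, RedData.rd_prod S _ fun c hc => sub_mem ht (RedData.algebraMap_mem (hS c hc)),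
    Finset.prod_image]
  · refine Finset.prod_congr rfl fun c hc => ?_
    rw [RedData.rd_sub ht (RedData.algebraMap_mem (hS c hc)), RedData.rd_algebraMap (hS c hc)]
  · intro c hc c' hc' h
    by_contra hne
    exact DerDual_ra_ne D (hS c hc) (hS c' hc') hne (hd c hc c' hc' hne) h

omit [Field K] [Field F] [Algebra K F] in
theorem DerDual_beta_ne_zero {tb : Fb} (htb : Transcendental k tb) (S : Finset k) :
    beta tb S ≠ 0 := by
  rw [beta, Finset.prod_ne_zero_iff]
  intro c _ h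
  apply htb
  rw [sub_eq_zero] at h
  rw [h]
  exact isAlgebraic_algebraMap c

end

theorem stmt_DerDual (hRad : Stmt_RadDual) (hDer : Stmt_DerRed) : Stmt_DerDual := by
  classical
  intro K F k Fb _ _ _ _ _ _ _ _ D t hC hB δ δb hδ hδb hT xb hxb
  obtain ⟨x, hxO, hxI, rfl⟩ := all_Normal K F k Fb D t hC hB xb hxb
  obtain ⟨S, hSA, hSd, hS⟩ := hT
  obtain ⟨m, hm, hw⟩ := hS x hxI
  obtain ⟨hδO, hδrd⟩ := hDer K F k Fb D t hC δ δb hδ hδb x hxO
  have hβO : beta t S ∈ D.O := DerDual_beta_mem D hC.t_mem hSA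
  have hβrd : D.rd (beta t S) = beta (D.rd t) (S.image D.ra) :=
    DerDual_rd_beta D hC.t_mem hSA hSd
  have hβ0 : D.rd (beta t S) ≠ 0 := by
    rw [hβrd]
    exact DerDual_beta_ne_zero hC.trans _
  have hnum : (δ x * beta t S) ^ m ∈ D.O := pow_mem (mul_mem hδO hβO) m
  have hwO : (δ x * beta t S) ^ m / beta t S ∈ D.O := RedData.div_mem hnum hβ0
  have hwrd : D.rd ((δ x * beta t S) ^ m / beta t S)
      = (δb (D.rd x) * beta (D.rd t) (S.image D.ra)) ^ m / beta (D.rd t) (S.image D.ra) := by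
    rw [RedData.rd_div hnum hβ0, RedData.rd_pow (mul_mem hδO hβO), RedData.rd_mul hδO hβO, hδrd,
      hβrd]
  have hint := all_IntRed K F k Fb D t hC _ hwO hw
  rw [hwrd] at hint
  exact hRad k Fb (D.rd t) hC.trans (stmt_ResFinite K F k Fb D t hC.t_mem hC.trans hC.fin) hC.sep
    (S.image D.ra) (δb (D.rd x)) m hm hint

end Fermat.Agent.MR.Lift

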