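import Fermat.Agent.MR.Lift.Interface
import Fermat.Agent.INJ.All

/-!
# MR / Lift / B2 : `d/dt` preserves `O` and commutes with the reduction (`Stmt_DerRed`).  helper83
-/

set_option autoImplicit false

namespace Fermat.Agent.MR.Lift

open Polynomial IntermediateField Fermat.Agent.INJ

section

variable {K F k Fb : Type} [Field K] [Field F] [Algebra K F] [Field k] [Field Fb] [Algebra k Fb]

/-- the subring of "good" elements: `x ∈ O`, `δ x ∈ O`, `rd (δ x) = δb (rd x)`. -/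
def DerRed_G (D : RedData K F k Fb) (δ : Derivation K F F) (δb : Derivation k Fb Fb) :
    Subring F where
  carrier := {x | x ∈ D.O ∧ δ x ∈ D.O ∧ D.rd (δ x) = δb (D.rd x)}
  mul_mem' := by
    rintro x y ⟨hx, hx', hx''⟩ ⟨hy, hy', hy''⟩
    refine ⟨mul_mem hx hy, ?_, ?_⟩
    · rw [Derivation.leibniz]
      exact add_mem (mul_mem hx hy') (mul_mem hy hx')
    · rw [Derivation.leibniz, smul_eq_mul, smul_eq_mul,
        RedData.rd_add (mul_mem hx hy') (mul_mem hy hx'), RedData.rd_mul hx hy',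
        RedData.rd_mul hy hx', RedData.rd_mul hx hy, Derivation.leibniz, hx'', hy'', smul_eq_mul,
        smul_eq_mul]
  one_mem' := by
    refine ⟨D.O.one_mem, ?_, ?_⟩
    · rw [Derivation.map_one_eq_zero]; exact D.O.zero_mem
    · rw [Derivation.map_one_eq_zero, RedData.rd_zero, RedData.rd_one, Derivation.map_one_eq_zero]
  add_mem' := by
    rintro x y ⟨hx, hx', hx''⟩ ⟨hy, hy', hy''⟩
    refine ⟨add_mem hx hy, ?_, ?_⟩
    · rw [map_add]; exact add_mem hx' hy'
    · rw [map_add, RedData.rd_add hx' hy', RedData.rd_add hx hy, map_add, hx'', hy'']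
  zero_mem' := by
    refine ⟨D.O.zero_mem, ?_, ?_⟩
    · rw [map_zero]; exact D.O.zero_mem
    · rw [map_zero, RedData.rd_zero, map_zero]
  neg_mem' := by
    rintro x ⟨hx, hx', hx''⟩
    refine ⟨neg_mem hx, ?_, ?_⟩
    · rw [map_neg]; exact neg_mem hx'
    · rw [map_neg, RedData.rd_neg hx', RedData.rd_neg hx, map_neg, hx'']

variable {D : RedData K F k Fb} {δ : Derivation K F F} {δb : Derivation k Fb Fb}

theorem DerRed_mem_G {x : F} :
    x ∈ DerRed_G D δ δb ↔ x ∈ D.O ∧ δ x ∈ D.O ∧ D.rd (δ x) = δb (D.rd x) := Iff.rfl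

theorem DerRed_const_mem {a : K} (ha : a ∈ D.A) : algebraMap K F a ∈ DerRed_G D δ δb := by
  refine ⟨RedData.algebraMap_mem ha, ?_, ?_⟩
  · rw [Derivation.map_algebraMap]; exact D.O.zero_mem
  · rw [Derivation.map_algebraMap, RedData.rd_zero, RedData.rd_algebraMap ha,
      Derivation.map_algebraMap]

theorem DerRed_inv_mem {x : F} (hx : x ∈ DerRed_G D δ δb) (h0 : D.rd x ≠ 0) :
    x⁻¹ ∈ DerRed_G D δ δb := by
  obtain ⟨hx, hx', hx''⟩ := hx
  have hi := RedData.inv_mem_of_rd_ne_zero h0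
  have hm : -x⁻¹ ^ 2 ∈ D.O := neg_mem (pow_mem hi 2)
  refine ⟨hi, ?_, ?_⟩
  · rw [Derivation.leibniz_inv]
    exact mul_mem hm hx'
  · rw [Derivation.leibniz_inv, smul_eq_mul, RedData.rd_mul hm hx', RedData.rd_neg (pow_mem hi 2),
      RedData.rd_pow hi, RedData.rd_inv h0, Derivation.leibniz_inv, hx'', smul_eq_mul]

theorem DerRed_poly_mem {t : F} (ht : t ∈ DerRed_G D δ δb) (Q : (D.A)[X]) :
    aeval t (Q.map D.A.subtype) ∈ DerRed_G D δ δb := by
  induction Q using Polynomial.induction_on' with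
  | add p q hp hq => rw [Polynomial.map_add, map_add]; exact add_mem hp hq
  | monomial n a =>
    rw [Polynomial.map_monomial, aeval_monomial]
    exact mul_mem (DerRed_const_mem a.2) (pow_mem ht n)

/-- (i) `K(t) ∩ O` consists of good elements. -/
theorem DerRed_Kt_mem {t : F} (htO : t ∈ D.O) (htr : Transcendental k (D.rd t))
    (ht : t ∈ DerRed_G D δ δb) (c : K⟮t⟯) (hc : (c : F) ∈ D.O) : (c : F) ∈ DerRed_G D δ δb := by
  obtain ⟨h1, h2, h3, -, -⟩ := stmt_Gauss K F k Fb D t htO htr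
  obtain ⟨r, s, hrs⟩ := (mem_adjoin_simple_iff K (c : F)).1 c.2
  by_cases hs : s = 0
  · rw [hrs, hs, map_zero, div_zero]; exact zero_mem _
  obtain ⟨a, Q0, ha, hsQ, hQ0⟩ := h3 s hs
  obtain ⟨q0, hq0⟩ : ∃ q0 : F, q0 = aeval t (Q0.map D.A.subtype) := ⟨_, rfl⟩
  have hq0G : q0 ∈ DerRed_G D δ δb := hq0 ▸ DerRed_poly_mem ht Q0
  have hq0rd : D.rd q0 ≠ 0 := by
    rw [hq0, (h1 Q0).2]
    exact fun h => hQ0 (transcendental_iff.1 htr _ h)
  have hq00 : q0 ≠ 0 := by
    rintro rfl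
    exact hq0rd RedData.rd_zero
  have haF : algebraMap K F a ≠ 0 := (_root_.map_ne_zero _).2 ha
  have e1 : (c : F) * q0 = aeval t (C a⁻¹ * r) := by
    rw [hrs, hsQ, map_mul, map_mul, aeval_C, aeval_C, ← hq0, map_inv₀]
    field_simp
  obtain ⟨P0, hP0⟩ := h2 (C a⁻¹ * r) (e1 ▸ mul_mem hc hq0G.1)
  have e2 : (c : F) = aeval t (P0.map D.A.subtype) * q0⁻¹ := by
    rw [hP0, ← e1, mul_assoc, mul_inv_cancel₀ hq00, mul_one]
  rw [e2]
  exact mul_mem (DerRed_poly_mem ht P0) (DerRed_inv_mem hq0G hq0rd)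

end

/-! ### the relation obtained by differentiating `e ^ n = ∑ c i * e ^ i` -/

theorem DerRed_relation {R A : Type*} [CommRing R] [CommRing A] [Algebra R A]
    (δ : Derivation R A A) (n : ℕ) (c : Fin n → A) (e : A)
    (h : e ^ n = ∑ i, c i * e ^ (i : ℕ)) :
    ((n : A) * e ^ (n - 1) - ∑ i, c i * (((i : ℕ) : A) * e ^ ((i : ℕ) - 1))) * δ e =
      ∑ i : Fin n, e ^ (i : ℕ) * δ (c i) := by
  have h1 := congrArg δ h
  rw [Derivation.leibniz_pow, map_sum] at h1
  simp only [Derivation.leibniz, Derivation.leibniz_pow, smul_eq_mul, nsmul_eq_mul] at h1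
  rw [sub_mul, Finset.sum_mul, sub_eq_iff_eq_add, ← Finset.sum_add_distrib, mul_assoc, h1]
  exact Finset.sum_congr rfl fun i _ => by ring

/-- separability: the derivative of the minimal polynomial does not vanish. -/
theorem DerRed_sep {L E : Type*} [Field L] [Field E] [Algebra L E] (eb : E)
    (hsep : (minpoly L eb).Separable) (n : ℕ) (hdeg : (minpoly L eb).natDegree = n)
    (c : Fin n → L) (hrel : eb ^ n = ∑ i, algebraMap L E (c i) * eb ^ (i : ℕ)) :
    (n : E) * eb ^ (n - 1) - ∑ i, algebraMap L E (c i) * (((i : ℕ) : E) * eb ^ ((i : ℕ) - 1)) ≠ 0 := by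
  obtain ⟨f, hf⟩ : ∃ f : L[X], f = X ^ n - ∑ i, C (c i) * X ^ (i : ℕ) := ⟨_, rfl⟩
  have hlt : (∑ i, C (c i) * X ^ (i : ℕ) : L[X]).degree < n := degree_sum_fin_lt c
  have hmonic : f.Monic := hf ▸ monic_X_pow_sub hlt
  have hroot : aeval eb f = 0 := by
    rw [hf, map_sub, map_pow, aeval_X, map_sum, hrel, sub_eq_zero]
    exact Finset.sum_congr rfl fun i _ => by rw [map_mul, aeval_C, map_pow, aeval_X]
  have hnat : f.natDegree = n := by
    apply natDegree_eq_of_degree_eq_some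
    rw [hf, degree_sub_eq_left_of_degree_lt (by rwa [degree_X_pow]), degree_X_pow]
  have hint : IsIntegral L eb := ⟨f, hmonic, hroot⟩
  have hfm : f = minpoly L eb :=
    eq_of_monic_of_dvd_of_natDegree_le (minpoly.monic hint) hmonic (minpoly.dvd L eb hroot)
      (by rw [hnat, hdeg])
  have h1 := hsep.aeval_derivative_ne_zero (minpoly.aeval L eb)
  rw [← hfm, hf] at h1
  convert h1 using 1
  rw [derivative_sub, derivative_X_pow, derivative_sum, map_sub, map_sum, map_mul, map_pow,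
    aeval_X, aeval_C, map_natCast]
  congr 1
  refine Finset.sum_congr rfl fun i _ => ?_
  rw [derivative_C_mul, derivative_X_pow, map_mul, map_mul, map_pow, aeval_X, aeval_C, aeval_C,
    map_natCast]

section

variable {K F k Fb : Type} [Field K] [Field F] [Algebra K F] [Field k] [Field Fb] [Algebra k Fb]
  {D : RedData K F k Fb} {δ : Derivation K F F} {δb : Derivation k Fb Fb}

theorem DerRed_natCast (D : RedData K F k Fb) (m : ℕ) :
    (m : F) ∈ D.O ∧ D.rd (m : F) = (m : Fb) := by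
  induction m with
  | zero => exact ⟨by rw [Nat.cast_zero]; exact D.O.zero_mem, by simp⟩
  | succ m ih =>
    rw [Nat.cast_succ, Nat.cast_succ]
    exact ⟨add_mem ih.1 D.O.one_mem, by rw [RedData.rd_add ih.1 D.O.one_mem, ih.2, RedData.rd_one]⟩

/-- (ii) an element of `O` satisfying a "separable" equation with good coefficients is good. -/
theorem DerRed_e_mem {e : F} (n : ℕ) (c : Fin n → F) (hcG : ∀ i, c i ∈ DerRed_G D δ δb)
    (heO : e ∈ D.O) (hrel : e ^ n = ∑ i, c i * e ^ (i : ℕ))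
    (hu : (n : Fb) * D.rd e ^ (n - 1) -
      ∑ i, D.rd (c i) * (((i : ℕ) : Fb) * D.rd e ^ ((i : ℕ) - 1)) ≠ 0) :
    e ∈ DerRed_G D δ δb := by
  have hcO : ∀ i, c i ∈ D.O := fun i => (hcG i).1
  obtain ⟨u, hudef⟩ : ∃ u : F, u = (n : F) * e ^ (n - 1) -
      ∑ i, c i * (((i : ℕ) : F) * e ^ ((i : ℕ) - 1)) := ⟨_, rfl⟩
  obtain ⟨v, hvdef⟩ : ∃ v : F, v = ∑ i : Fin n, e ^ (i : ℕ) * δ (c i) := ⟨_, rfl⟩
  have h1 : u * δ e = v := by rw [hudef, hvdef]; exact DerRed_relation δ n c e hrel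
  have hterm : ∀ i : Fin n, c i * (((i : ℕ) : F) * e ^ ((i : ℕ) - 1)) ∈ D.O := fun i =>
    mul_mem (hcO i) (mul_mem (DerRed_natCast D _).1 (pow_mem heO _))
  have hn1 : (n : F) * e ^ (n - 1) ∈ D.O := mul_mem (DerRed_natCast D _).1 (pow_mem heO _)
  have huO : u ∈ D.O := by
    rw [hudef]
    exact sub_mem hn1 (RedData.sum_mem _ _ fun i _ => hterm i)
  have hurd : D.rd u = (n : Fb) * D.rd e ^ (n - 1) -
      ∑ i, D.rd (c i) * (((i : ℕ) : Fb) * D.rd e ^ ((i : ℕ) - 1)) := by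
    rw [hudef, RedData.rd_sub hn1 (RedData.sum_mem _ _ fun i _ => hterm i),
      RedData.rd_mul (DerRed_natCast D _).1 (pow_mem heO _), (DerRed_natCast D _).2,
      RedData.rd_pow heO, RedData.rd_sum _ _ fun i _ => hterm i]
    congr 1
    refine Finset.sum_congr rfl fun i _ => ?_
    rw [RedData.rd_mul (hcO i) (mul_mem (DerRed_natCast D _).1 (pow_mem heO _)),
      RedData.rd_mul (DerRed_natCast D _).1 (pow_mem heO _), (DerRed_natCast D _).2,
      RedData.rd_pow heO]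
  have hvterm : ∀ i : Fin n, e ^ (i : ℕ) * δ (c i) ∈ D.O := fun i =>
    mul_mem (pow_mem heO _) (hcG i).2.1
  have hvO : v ∈ D.O := by
    rw [hvdef]; exact RedData.sum_mem _ _ fun i _ => hvterm i
  have hvrd : D.rd v = ∑ i : Fin n, D.rd e ^ (i : ℕ) * δb (D.rd (c i)) := by
    rw [hvdef, RedData.rd_sum _ _ fun i _ => hvterm i]
    refine Finset.sum_congr rfl fun i _ => ?_
    rw [RedData.rd_mul (pow_mem heO _) (hcG i).2.1, RedData.rd_pow heO, (hcG i).2.2]
  have hrelb : D.rd e ^ n = ∑ i, D.rd (c i) * D.rd e ^ (i : ℕ) := by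
    rw [← RedData.rd_pow heO, hrel,
      RedData.rd_sum _ _ fun i _ => mul_mem (hcO i) (pow_mem heO _)]
    refine Finset.sum_congr rfl fun i _ => ?_
    rw [RedData.rd_mul (hcO i) (pow_mem heO _), RedData.rd_pow heO]
  have h2 := DerRed_relation δb n (fun i => D.rd (c i)) (D.rd e) hrelb
  rw [← hurd, ← hvrd] at h2
  rw [← hurd] at hu
  have hu0 : u ≠ 0 := by
    rintro rfl
    exact hu RedData.rd_zero
  have h3 : δ e = v / u := by rw [← h1, mul_div_cancel_left₀ _ hu0]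
  refine ⟨heO, ?_, ?_⟩
  · rw [h3]; exact RedData.div_mem hvO hu
  · rw [h3, RedData.rd_div hvO hu, ← h2, mul_div_cancel_left₀ _ hu]

end

theorem stmt_DerRed : Stmt_DerRed := by
  intro K F k Fb _ _ _ _ _ _ D t hC δ δb hδ hδb
  have htO := hC.t_mem
  have htr := hC.trans
  have := hC.fin
  have := hC.sep
  obtain ⟨n, hn⟩ : ∃ n : ℕ, n = Module.finrank K⟮t⟯ F := ⟨_, rfl⟩
  have hfin : Module.finrank k⟮D.rd t⟯ Fb = n := ((all_Trace K F k Fb D t hC).1).trans hn.symm
  have hnpos : 0 < n := hn ▸ Module.finrank_pos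
  have : FiniteDimensional k⟮D.rd t⟯ Fb := Module.finite_of_finrank_pos (hfin.symm ▸ hnpos)
  have htG : t ∈ DerRed_G D δ δb :=
    ⟨htO, by rw [hδ]; exact D.O.one_mem, by rw [hδ, RedData.rd_one, hδb]⟩
  obtain ⟨eb, heb⟩ := Field.exists_primitive_element k⟮D.rd t⟯ Fb
  have hdeg : (minpoly k⟮D.rd t⟯ eb).natDegree = n :=
    ((Field.primitive_element_iff_minpoly_natDegree_eq k⟮D.rd t⟯ eb).1 heb).trans hfin
  obtain ⟨e, heO, hed⟩ := RedData.exists_rd_eq (D := D) eb
  have hli : LinearIndependent k⟮D.rd t⟯ (fun i : Fin n => D.rd (e ^ (i : ℕ))) := by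
    have h := linearIndependent_pow (K := k⟮D.rd t⟯) eb
    rw [hdeg] at h
    simpa only [RedData.rd_pow heO, hed] using h
  obtain ⟨hliF, hcoef⟩ := all_Ortho K F k Fb D t htO htr (Fin n) (fun i => e ^ (i : ℕ))
    (fun i => pow_mem heO _) hli
  have hspan : Submodule.span K⟮t⟯ (Set.range fun i : Fin n => e ^ (i : ℕ)) = ⊤ :=
    hliF.span_eq_top_of_card_eq_finrank' (by rw [Fintype.card_fin, hn])
  have hrep : ∀ x : F, ∃ c : Fin n → K⟮t⟯, x = ∑ i, (c i : F) * e ^ (i : ℕ) := by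
    intro x
    have hx : x ∈ Submodule.span K⟮t⟯ (Set.range fun i : Fin n => e ^ (i : ℕ)) :=
      hspan ▸ Submodule.mem_top
    obtain ⟨c, hc⟩ := (Submodule.mem_span_range_iff_exists_fun _).1 hx
    exact ⟨c, hc.symm⟩
  -- (ii)
  have heG : e ∈ DerRed_G D δ δb := by
    obtain ⟨c, hc⟩ := hrep (e ^ n)
    have hcO := hcoef c (hc ▸ pow_mem heO n)
    have hcb : ∀ i, ∃ cb : k⟮D.rd t⟯, (cb : Fb) = D.rd (c i : F) := fun i =>
      ⟨⟨_, (stmt_Gauss K F k Fb D t htO htr).2.2.2.2 (c i) (hcO i)⟩, rfl⟩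
    choose cb hcb using hcb
    have hrelb : eb ^ n = ∑ i, algebraMap k⟮D.rd t⟯ Fb (cb i) * eb ^ (i : ℕ) := by
      rw [← hed, ← RedData.rd_pow heO, hc,
        RedData.rd_sum _ _ fun i _ => mul_mem (hcO i) (pow_mem heO _)]
      refine Finset.sum_congr rfl fun i _ => ?_
      rw [RedData.rd_mul (hcO i) (pow_mem heO _), RedData.rd_pow heO, ← hcb i]
      rfl
    have hne := DerRed_sep eb (Algebra.IsSeparable.isSeparable k⟮D.rd t⟯ eb) n hdeg cb hrelb
    refine DerRed_e_mem n (fun i => (c i : F)) (fun i => DerRed_Kt_mem htO htr htG (c i) (hcO i))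
      heO hc ?_
    rw [hed]
    simp only [← hcb]
    exact hne
  -- (iii)
  intro x hx
  obtain ⟨a, ha⟩ := hrep x
  have haO := hcoef a (ha ▸ hx)
  have hxG : x ∈ DerRed_G D δ δb := by
    rw [ha]
    exact Subring.sum_mem _ fun i _ =>
      mul_mem (DerRed_Kt_mem htO htr htG (a i) (haO i)) (pow_mem heG _)
  exact hxG.2

end Fermat.Agent.MR.Lift
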