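import Fermat.Agent.MR.Lift.Interface
import Fermat.Agent.INJ.All

/-!
# MR / Lift : (A1) the trace dual of an orthonormal basis is orthonormal (helper9)
-/

set_option autoImplicit false

namespace Fermat.Agent.MR.Lift

open Polynomial IntermediateField Fermat.Agent.INJ

/-- nondegeneracy of the trace form tested on a family of `finrank` independent vectors. -/
theorem DualOrtho_nondeg {E L : Type*} [Field E] [Field L] [Algebra E L] [FiniteDimensional E L]
    [Algebra.IsSeparable E L] {n : ℕ} (hn : Module.finrank E L = n) (c : Fin n → L)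
    (hc : LinearIndependent E c) (y : L) (hy : ∀ i, Algebra.trace E L (y * c i) = 0) : y = 0 := by
  have hcard : Fintype.card (Fin n) = Module.finrank E L := by rw [Fintype.card_fin, hn]
  have hne : Nonempty (Fin n) := ⟨⟨0, by rw [← hn]; exact Module.finrank_pos⟩⟩
  let B := basisOfLinearIndependentOfCardEqFinrank hc hcard
  have hB : ∀ i, B i = c i := fun i => by
    simp only [B, coe_basisOfLinearIndependentOfCardEqFinrank]
  have hnd := traceForm_nondegenerate E L
  refine hnd.1 y fun z => ?_
  rw [← B.sum_repr z, map_sum]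
  refine Finset.sum_eq_zero fun i _ => ?_
  rw [map_smul, Algebra.traceForm_apply, hB, hy i, smul_zero]

/-- existence of an element with prescribed traces against a basis. -/
theorem DualOrtho_exists {E L : Type*} [Field E] [Field L] [Algebra E L] [FiniteDimensional E L]
    [Algebra.IsSeparable E L] {n : ℕ} (hn : Module.finrank E L = n) (c : Fin n → L)
    (hc : LinearIndependent E c) (u : Fin n → E) :
    ∃ x : L, ∀ i, Algebra.trace E L (x * c i) = u i := by
  classical
  have hcard : Fintype.card (Fin n) = Module.finrank E L := by rw [Fintype.card_fin, hn]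
  have hne : Nonempty (Fin n) := ⟨⟨0, by rw [← hn]; exact Module.finrank_pos⟩⟩
  let B := basisOfLinearIndependentOfCardEqFinrank hc hcard
  have hB : ∀ i, B i = c i := fun i => by
    simp only [B, coe_basisOfLinearIndependentOfCardEqFinrank]
  have hnd := traceForm_nondegenerate E L
  let B' := (Algebra.traceForm E L).dualBasis hnd B
  refine ⟨∑ j, u j • B' j, fun i => ?_⟩
  rw [← Algebra.traceForm_apply, map_sum, LinearMap.sum_apply]
  rw [Finset.sum_eq_single i]
  · rw [map_smul, LinearMap.smul_apply, ← hB i, LinearMap.BilinForm.apply_dualBasis_left, if_pos rfl,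
      smul_eq_mul, mul_one]
  · intro j _ hj
    rw [map_smul, LinearMap.smul_apply, ← hB i, LinearMap.BilinForm.apply_dualBasis_left,
      if_neg (Ne.symm hj), smul_zero]
  · intro h
    exact absurd (Finset.mem_univ i) h

theorem stmt_DualOrtho : Stmt_DualOrtho := by
  intro K F k Fb _ _ _ _ _ _ _ D t hC b hb hli
  have hfin : FiniteDimensional K⟮t⟯ F := hC.fin
  have hsepb : Algebra.IsSeparable k⟮D.rd t⟯ Fb := hC.sep
  obtain ⟨hdeg, htr⟩ := all_Trace K F k Fb D t hC
  have hfinb : FiniteDimensional k⟮D.rd t⟯ Fb :=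
    Module.finite_of_finrank_pos (by rw [hdeg]; exact Module.finrank_pos)
  have hliK : LinearIndependent K⟮t⟯ b :=
    (all_Ortho K F k Fb D t hC.t_mem hC.trans (Fin (Module.finrank K⟮t⟯ F)) b hb hli).1
  have hchar : CharZero K⟮t⟯ := charZero_of_injective_algebraMap (algebraMap K K⟮t⟯).injective
  have h3 : ∀ y : Fb, (∀ i, Algebra.trace k⟮D.rd t⟯ Fb (y * D.rd (b i)) = 0) → y = 0 :=
    fun y hy => DualOrtho_nondeg hdeg _ hli y hy
  refine ⟨fun x hx => ?_, fun u => DualOrtho_exists rfl b hliK u, h3⟩
  by_contra hxO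
  have hx0 : x ≠ 0 := by
    rintro rfl
    exact hxO D.O.zero_mem
  obtain ⟨a, ha0, h1, h2⟩ := D.unram x hx0
  obtain ⟨hxi, hxi0⟩ := RedData.inv_mem_of_not_mem hxO
  have hae : algebraMap K F a = (x * algebraMap K F a) * x⁻¹ := by
    field_simp
  have haO : algebraMap K F a ∈ D.O := by
    rw [hae]; exact mul_mem h1 hxi
  have har : D.rd (algebraMap K F a) = 0 := by
    rw [hae, RedData.rd_mul h1 hxi, hxi0, mul_zero]
  have hne : D.rd (x * algebraMap K F a) ≠ 0 :=
    RedData.rd_ne_zero_of_inv_mem (mul_ne_zero hx0 (by simpa using ha0)) h1 h2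
  apply hne
  refine h3 _ fun i => ?_
  have hmem : x * algebraMap K F a * b i ∈ D.O := mul_mem h1 (hb i)
  have h4 := (htr _ hmem).2
  rw [RedData.rd_mul h1 (hb i)] at h4
  have h5 : algebraMap K⟮t⟯ F (Algebra.trace K⟮t⟯ F (x * algebraMap K F a * b i))
      = algebraMap K F a * trF K t (x * b i) := by
    have : x * algebraMap K F a * b i = algebraMap K K⟮t⟯ a • (x * b i) := by
      rw [Algebra.smul_def, ← IsScalarTower.algebraMap_apply K K⟮t⟯ F]
      ring
    rw [this, map_smul, smul_eq_mul, map_mul, ← IsScalarTower.algebraMap_apply K K⟮t⟯ F]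
    rfl
  rw [h5, RedData.rd_mul haO (hx i), har, zero_mul] at h4
  exact (map_eq_zero (algebraMap k⟮D.rd t⟯ Fb)).1 h4.symm

end Fermat.Agent.MR.Lift
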