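import Fermat.Agent.MR.Lift.Interface

/-!
# MR / Lift, task LIFT-A3 : functionals lift over a valuation ring (`Stmt_FunLift`)
-/

set_option autoImplicit false

namespace Fermat.Agent.MR.Lift

theorem stmt_FunLift : Stmt_FunLift := by
  intro A X k _ _ _ _ _ _ r hr S n g hg htf μ hμ hμS
  classical
  -- the quotient is finite
  have hfin : Module.Finite A (X ⧸ S) := by
    refine ⟨⟨Finset.univ.image (fun i => S.mkQ (g i)), ?_⟩⟩
    rw [eq_top_iff]
    rintro y -
    obtain ⟨x, rfl⟩ := S.mkQ_surjective y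
    have hx : x ∈ S ⊔ Submodule.span A (Set.range g) := by rw [hg]; trivial
    obtain ⟨s, hs, z, hz, rfl⟩ := Submodule.mem_sup.1 hx
    rw [map_add, (Submodule.Quotient.mk_eq_zero S).2 hs |> fun h => (show S.mkQ s = 0 from h),
      zero_add]
    have h1 : S.mkQ z ∈ (Submodule.span A (Set.range g)).map S.mkQ := ⟨z, hz, rfl⟩
    rw [Submodule.map_span, ← Set.range_comp] at h1
    simpa [Finset.coe_image, Function.comp_def] using h1
  -- the quotient is torsion free
  have htor : Submodule.torsion A (X ⧸ S) = ⊥ := by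
    rw [eq_bot_iff]
    rintro y ⟨⟨a, ha⟩, h⟩
    obtain ⟨x, rfl⟩ := S.mkQ_surjective y
    have ha0 : a ≠ 0 := nonZeroDivisors.ne_zero ha
    have h2 : a • x ∈ S := by
      have h3 : S.mkQ (a • x) = 0 := by rw [map_smul]; exact h
      exact (Submodule.Quotient.mk_eq_zero S).1 h3
    exact (Submodule.Quotient.mk_eq_zero S).2 (htf a x ha0 h2)
  have hflat : Module.Flat A (X ⧸ S) := Module.Flat.flat_iff_torsion_eq_bot_of_isBezout.2 htor
  have hfree : Module.Free A (X ⧸ S) := Module.free_of_flat_of_isLocalRing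
  let _ : Module A k := Module.compHom k r
  have hsm : ∀ (a : A) (c : k), a • c = r a * c := fun a c => rfl
  let μl : X →ₗ[A] k :=
    { toFun := μ
      map_add' := map_add μ
      map_smul' := fun a x => by rw [hμ, RingHom.id_apply, hsm] }
  let μq : (X ⧸ S) →ₗ[A] k := S.liftQ μl (fun x hx => hμS x hx)
  let rl : A →ₗ[A] k :=
    { toFun := r
      map_add' := map_add r
      map_smul' := fun a x => by rw [smul_eq_mul, map_mul, RingHom.id_apply, hsm] }
  obtain ⟨h, hh⟩ := Module.projective_lifting_property rl μq hr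
  refine ⟨h.comp S.mkQ, fun x hx => ?_, fun x => ?_⟩
  · rw [LinearMap.comp_apply, (show S.mkQ x = 0 from (Submodule.Quotient.mk_eq_zero S).2 hx),
      map_zero]
  · have := LinearMap.congr_fun hh (S.mkQ x)
    exact this

end Fermat.Agent.MR.Lift

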