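import Fermat.Agent.MR.Lift.Interface
import Fermat.Agent.INJ.All

/-!
# MR / Lift / HolLift : every holomorphic differential of the special fibre lifts (assembly)
-/

set_option autoImplicit false

namespace Fermat.Agent.MR.Lift

open Polynomial IntermediateField Fermat.Agent.INJ

section Generic

variable {K F : Type*} [Field K] [Field F] [Algebra K F]

/-- the trace `F → K(t) ⊆ F` as a `K`-linear map. -/
noncomputable def HolLift_trL (K : Type*) {F : Type*} [Field K] [Field F] [Algebra K F] (t : F) :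
    F →ₗ[K] F :=
  ((IsScalarTower.toAlgHom K K⟮t⟯ F).toLinearMap).comp
    ((Algebra.trace K⟮t⟯ F).restrictScalars K)

theorem HolLift_trL_apply (t x : F) : HolLift_trL K t x = trF K t x := rfl

theorem HolLift_trF_mul (t : F) (c : K⟮t⟯) (x : F) :
    trF K t ((c : F) * x) = (c : F) * trF K t x := by
  unfold trF
  have e : (c : F) * x = c • x := by rw [Algebra.smul_def]; rfl
  rw [e, map_smul, smul_eq_mul, map_mul]
  rfl

theorem HolLift_trF_inv_pow (t : F) (m : ℕ) (x : F) :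
    trF K t (t⁻¹ ^ m * x) = t⁻¹ ^ m * trF K t x := by
  have e : (((AdjoinSimple.gen K t)⁻¹ ^ m : K⟮t⟯) : F) = t⁻¹ ^ m := by
    push_cast
    rw [AdjoinSimple.coe_gen]
  rw [← e]
  exact HolLift_trF_mul t _ x

/-- `ρ (t^(-j-1) P(t))` is the coefficient of `t^j`. -/
theorem HolLift_res_coeff (t : F) (ht : t ≠ 0) (ρ : F →ₗ[K] K) (hρ : IsRes K t ρ) (P : K[X])
    (j : ℕ) : ρ (t⁻¹ ^ (j + 1) * aeval t P) = P.coeff j := by
  induction P using Polynomial.induction_on' with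
  | add p q hp hq => rw [map_add, mul_add, map_add, hp, hq, coeff_add]
  | monomial n a =>
    rw [aeval_monomial, coeff_monomial]
    have e : t⁻¹ ^ (j + 1) * (algebraMap K F a * t ^ n) = a • t ^ ((n : ℤ) - ((j + 1 : ℕ) : ℤ)) := by
      rw [zpow_sub₀ ht, zpow_natCast, zpow_natCast, Algebra.smul_def, inv_pow]
      field_simp
    rw [e, map_smul, hρ, smul_eq_mul]
    by_cases h : n = j
    · subst h
      rw [if_pos rfl, if_pos (by push_cast; ring), mul_one]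
    · rw [if_neg h, if_neg (by push_cast; omega), mul_zero]

end Generic

/-- polynomials with coefficients in `A`. -/
theorem HolLift_exists_lift {K F k Fb : Type*} [Field K] [Field F] [Algebra K F] [Field k]
    [Field Fb] [Algebra k Fb] (D : RedData K F k Fb) (P : K[X]) (hP : ∀ j, P.coeff j ∈ D.A) :
    ∃ Q : (D.A)[X], Q.map D.A.subtype = P ∧ ∀ j, (Q.map D.rA).coeff j = D.ra (P.coeff j) := by
  have h1 : P ∈ Polynomial.lifts D.A.subtype := by
    rw [Polynomial.lifts_iff_coeff_lifts]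
    intro n
    exact ⟨⟨P.coeff n, hP n⟩, rfl⟩
  obtain ⟨Q, hQ⟩ := (Polynomial.mem_lifts P).1 h1
  refine ⟨Q, hQ, fun j => ?_⟩
  rw [coeff_map, RedData.ra_of_mem (hP j)]
  congr 1
  apply Subtype.ext
  have := congrArg (fun p => p.coeff j) hQ
  simp only [coeff_map] at this
  exact this

/-- **(A)** -/
theorem stmt_HolLift (hRes : Stmt_Res) (hDO : Stmt_DualOrtho) (hLL : Stmt_LamLift)
    (hHL : Stmt_HolOfLam) (hLH : Stmt_LamOfHol) : Stmt_HolLift := by
  intro K F k Fb _ _ _ _ _ _ _ _ _ D t hC hC' hb hhol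
  obtain ⟨G1, -, -, G4, -⟩ := stmt_Gauss K F k Fb D t hC.t_mem hC.trans
  have hfin := hC.fin
  have htb0 : D.rd t ≠ 0 := by
    intro h0
    apply hC.trans
    rw [h0]
    exact isAlgebraic_zero
  have ht0 : t ≠ 0 := by
    rintro rfl
    exact htb0 RedData.rd_zero
  have hsO : t⁻¹ ∈ D.O := hC'.t_mem
  have hrds : D.rd t⁻¹ = (D.rd t)⁻¹ := RedData.rd_inv htb0
  -- residues
  obtain ⟨ρ, hρ⟩ := hRes K F t G4
  obtain ⟨ρb, hρb⟩ := hRes k Fb (D.rd t) hC.trans
  -- the functional on the special fibre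
  let μ : Fb →ₗ[k] k := ρb.comp ((HolLift_trL k (D.rd t)).comp (LinearMap.mulLeft k hb))
  have hμ : ∀ y, μ y = ρb (trF k (D.rd t) (hb * y)) := fun y => rfl
  obtain ⟨m1, m2⟩ := hLH k Fb (D.rd t) hC.trans ρb hρb hb hhol
  obtain ⟨Lam, L1, L2, L3⟩ := hLL K F k Fb D t hC hC' μ m1 m2
  -- the basis
  obtain ⟨b, hb1, hb2, hb3⟩ := all_BBasis K F k Fb D t hC
  have hbli : LinearIndependent K⟮t⟯ b :=
    (all_Ortho K F k Fb D t hC.t_mem hC.trans _ b (fun i => (hb1 i).1) hb3).1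
  obtain ⟨h, hh, hhLam⟩ := hHL K F t G4 hfin b (fun i => (hb1 i).2) hb2 hbli ρ hρ Lam L1 L2
  obtain ⟨DO1, -, DO3⟩ := hDO K F k Fb D t hC b (fun i => (hb1 i).1) hb3
  -- the traces `Tr (h b_i)`
  have hP : ∀ i, ∃ P : K[X], trF K t (h * b i) = aeval t P := fun i => hh.1 (b i) (hb1 i).2
  choose P hP using hP
  have hxO : ∀ i (j : ℕ), t⁻¹ ^ (j + 1) * b i ∈ D.O := fun i j =>
    mul_mem (pow_mem hsO _) (hb1 i).1
  have hx12 : ∀ i (j : ℕ), IsInt12 K t (t⁻¹ ^ (j + 1) * b i) := by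
    intro i j
    refine ⟨j + 1, ?_⟩
    rw [← mul_assoc, ← mul_pow, mul_inv_cancel₀ ht0, one_pow, one_mul]
    exact (hb1 i).2
  have hcoeff : ∀ i (j : ℕ), (P i).coeff j = Lam (t⁻¹ ^ (j + 1) * b i) := by
    intro i j
    rw [← HolLift_res_coeff t ht0 ρ hρ (P i) j, ← hP i, ← HolLift_trF_inv_pow, mul_left_comm,
      hhLam _ (hx12 i j)]
  have hcA : ∀ i (j : ℕ), (P i).coeff j ∈ D.A := by
    intro i j
    rw [hcoeff]
    exact (L3 _ (hxO i j) (hx12 i j)).1
  have hQ : ∀ i, ∃ Q : (D.A)[X], Q.map D.A.subtype = P i ∧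
      ∀ j, (Q.map D.rA).coeff j = D.ra ((P i).coeff j) := fun i =>
    HolLift_exists_lift D (P i) (hcA i)
  choose Q hQ1 hQ2 using hQ
  have htrO : ∀ i, trF K t (h * b i) ∈ D.O := by
    intro i
    rw [hP i, ← hQ1 i]
    exact (G1 (Q i)).1
  have hhO : h ∈ D.O := DO1 h htrO
  refine ⟨h, hhO, ?_, hh⟩
  -- the reduction
  rw [← sub_eq_zero]
  apply DO3
  intro i
  have hbbi : IsInt k (D.rd t) (D.rd (b i)) := all_IntRed K F k Fb D t hC _ (hb1 i).1 (hb1 i).2
  obtain ⟨R, hR⟩ := hhol.1 (D.rd (b i)) hbbi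
  have hR' : trF k (D.rd t) (hb * D.rd (b i)) = aeval (D.rd t) R := hR
  -- `Tr (rd h * bbar_i)`
  have e1 : algebraMap k⟮D.rd t⟯ Fb (Algebra.trace k⟮D.rd t⟯ Fb (D.rd h * D.rd (b i))) =
      aeval (D.rd t) ((Q i).map D.rA) := by
    have h3 := ((all_Trace K F k Fb D t hC).2 (h * b i) (mul_mem hhO (hb1 i).1)).2
    rw [RedData.rd_mul hhO (hb1 i).1] at h3
    rw [← h3, ← (G1 (Q i)).2, hQ1 i, ← hP i]
    rfl
  have e2 : (Q i).map D.rA = R := by
    ext j
    rw [hQ2 i j, hcoeff i j, (L3 _ (hxO i j) (hx12 i j)).2, hμ,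
      RedData.rd_mul (pow_mem hsO _) (hb1 i).1, RedData.rd_pow hsO, hrds, mul_left_comm,
      HolLift_trF_inv_pow, hR', HolLift_res_coeff (D.rd t) htb0 ρb hρb R j]
  rw [sub_mul, map_sub, sub_eq_zero]
  apply (algebraMap k⟮D.rd t⟯ Fb).injective
  rw [e1, e2]
  exact hR.symm

end Fermat.Agent.MR.Lift
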