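import Fermat.Agent.MR.Lift.Res
import Fermat.Agent.INJ.P9b

/-!
# MR / Lift : (A5) "Serre duality" by linear algebra, `Stmt_HolOfLam`
-/

set_option autoImplicit false

namespace Fermat.Agent.MR.Lift

open Polynomial IntermediateField Fermat.Agent.INJ

section API

variable {K F : Type} [Field K] [Field F] [Algebra K F]

theorem HolOfLam_isInt_of_mem {t x : F} (h : x ∈ Algebra.adjoin K {t}) : IsInt K t x :=
  isIntegral_algebraMap (R := Algebra.adjoin K {t}) (x := ⟨x, h⟩)

theorem HolOfLam_isInt_aeval (t : F) (P : K[X]) : IsInt K t (aeval t P) :=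
  HolOfLam_isInt_of_mem (by rw [Algebra.adjoin_singleton_eq_range_aeval]; exact ⟨P, rfl⟩)

theorem HolOfLam_isInt_pow (t : F) (j : ℕ) : IsInt K t (t ^ j) := by
  have := HolOfLam_isInt_aeval (K := K) t (X ^ j)
  rwa [map_pow, aeval_X] at this

theorem HolOfLam_isInt_mul {t x y : F} (hx : IsInt K t x) (hy : IsInt K t y) : IsInt K t (x * y) :=
  IsIntegral.mul hx hy

/-- elements of the span are polynomial combinations. -/
theorem HolOfLam_exists_coeff {n : ℕ} {t : F} (b : Fin n → F) {y : F}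
    (hy : y ∈ Submodule.span (Algebra.adjoin K {t}) (Set.range b)) :
    ∃ c : Fin n → K[X], y = ∑ i, aeval t (c i) * b i := by
  obtain ⟨c, hc⟩ := (Submodule.mem_span_range_iff_exists_fun _).1 hy
  have h1 : ∀ z ∈ Algebra.adjoin K ({t} : Set F), ∃ P : K[X], aeval t P = z := by
    intro z hz
    rw [Algebra.adjoin_singleton_eq_range_aeval] at hz
    exact hz
  choose P hP using fun i => h1 _ (c i).2
  refine ⟨P, ?_⟩
  rw [← hc]
  refine Finset.sum_congr rfl fun i _ => ?_
  rw [hP]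
  rfl

/-- an element with prescribed traces against a basis. -/
theorem HolOfLam_exists_dual [CharZero K] (t : F) [FiniteDimensional K⟮t⟯ F]
    (b : Fin (Module.finrank K⟮t⟯ F) → F) (hb : LinearIndependent K⟮t⟯ b)
    (P : Fin (Module.finrank K⟮t⟯ F) → K[X]) :
    ∃ h : F, ∀ i, trF K t (h * b i) = aeval t (P i) := by
  have : CharZero K⟮t⟯ := charZero_of_injective_algebraMap (algebraMap K K⟮t⟯).injective
  have hne : Nonempty (Fin (Module.finrank K⟮t⟯ F)) :=
    ⟨⟨0, Module.finrank_pos⟩⟩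
  let bb : Module.Basis (Fin (Module.finrank K⟮t⟯ F)) K⟮t⟯ F :=
    basisOfLinearIndependentOfCardEqFinrank hb (by simp)
  have hbb : ∀ i, bb i = b i := fun i => by
    simp [bb]
  refine ⟨∑ i, aeval t (P i) * bb.traceDual i, fun j => ?_⟩
  rw [Finset.sum_mul, trF_sum]
  have h1 : ∀ i, trF K t (aeval t (P i) * bb.traceDual i * b j)
      = if j = i then aeval t (P i) else 0 := by
    intro i
    rw [mul_assoc, trF_mul_aeval, ← hbb j]
    unfold trF
    rw [Module.Basis.trace_traceDual_mul]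
    split_ifs <;> simp
  rw [Finset.sum_congr rfl fun i _ => h1 i]
  simp

end API

theorem stmt_HolOfLam : Stmt_HolOfLam := by
  intro K F _ _ _ _ t ht hfin b hbint hbspan hbli ρ hρ Lam hL1 hL2
  have ht0 : t ≠ 0 := by
    rintro rfl
    exact ht isAlgebraic_zero
  -- the bound `J`
  have hcl : ∀ i, ∃ c : ℕ, ∀ c' : ℕ, c ≤ c' → IsInt K t⁻¹ (t⁻¹ ^ c' * b i) := by
    intro i
    refine stmt_Clear K F t⁻¹ (b i) (inv_ne_zero ht0) ?_
    rw [inv_inv]
    exact hbint i
  choose cc hcc using hcl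
  obtain ⟨J, hJle⟩ : ∃ J : ℕ, ∀ i, cc i ≤ J :=
    ⟨Finset.univ.sup cc, fun i => Finset.le_sup (Finset.mem_univ i)⟩
  -- the polynomials `P i`
  obtain ⟨P, hPc⟩ : ∃ P : Fin (Module.finrank K⟮t⟯ F) → K[X], ∀ i l,
      (P i).coeff l = if l < J then Lam (t ^ (-(l : ℤ) - 1) * b i) else 0 := by
    refine ⟨fun i => ∑ l ∈ Finset.range J, monomial l (Lam (t ^ (-(l : ℤ) - 1) * b i)),
      fun i l => ?_⟩
    simp only [finsetSum_coeff, coeff_monomial]
    rw [Finset.sum_ite_eq' (Finset.range J) l]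
    simp only [Finset.mem_range]
  obtain ⟨h, hh⟩ := HolOfLam_exists_dual t b hbli P
  -- the key computation
  have key : ∀ (i : Fin (Module.finrank K⟮t⟯ F)) (j : ℤ),
      ρ (t ^ j * aeval t (P i)) = Lam (t ^ j * b i) := by
    intro i j
    rw [res_zpow_mul_aeval ht0 hρ]
    split_ifs with hj
    · rw [hPc]
      have e : -(((-1 - j).toNat : ℕ) : ℤ) - 1 = j := by omega
      split_ifs with hl
      · rw [e]
      · symm
        apply hL2
        have e2 : t ^ j = t⁻¹ ^ ((-1 - j).toNat + 1) := by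
          rw [inv_pow, ← zpow_natCast, ← zpow_neg]
          congr 1
          push_cast
          omega
        rw [e2]
        exact hcc i _ (by have := hJle i; omega)
    · symm
      apply hL1
      have e2 : t ^ j = t ^ j.toNat := by
        rw [← zpow_natCast, Int.toNat_of_nonneg (by omega)]
      rw [e2]
      exact HolOfLam_isInt_mul (HolOfLam_isInt_pow t _) (hbint i)
  have key2 : ∀ (i : Fin (Module.finrank K⟮t⟯ F)) (c : K[X]) (j : ℤ),
      ρ (t ^ j * (aeval t c * aeval t (P i))) = Lam (t ^ j * (aeval t c * b i)) := by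
    intro i c j
    induction c using Polynomial.induction_on' with
    | add p q hp hq =>
      rw [map_add, add_mul, add_mul, mul_add, mul_add, map_add, map_add, hp, hq]
    | monomial e a =>
      have e1 : ∀ z : F, t ^ j * (aeval t (monomial e a) * z) = a • (t ^ (j + e) * z) := by
        intro z
        rw [aeval_monomial, zpow_add₀ ht0, zpow_natCast, Algebra.smul_def]
        ring
      rw [e1, e1, map_smul, map_smul, key]
  -- the trace formula
  have htr : ∀ c : Fin (Module.finrank K⟮t⟯ F) → K[X],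
      trF K t (h * ∑ i, aeval t (c i) * b i) = ∑ i, aeval t (c i) * aeval t (P i) := by
    intro c
    rw [Finset.mul_sum, trF_sum]
    refine Finset.sum_congr rfl fun i _ => ?_
    rw [show h * (aeval t (c i) * b i) = aeval t (c i) * (h * b i) by ring, trF_mul_aeval, hh]
  -- (★)
  have star : ∀ x, IsInt12 K t x → ρ (trF K t (h * x)) = Lam x := by
    rintro x ⟨m, hm⟩
    obtain ⟨c, hc⟩ := HolOfLam_exists_coeff b (hbspan _ hm)
    have hx : x = t ^ (-(m : ℤ)) * ∑ i, aeval t (c i) * b i := by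
      rw [← hc, ← mul_assoc, ← zpow_natCast, ← zpow_add₀ ht0]
      simp
    rw [hx, show h * (t ^ (-(m : ℤ)) * ∑ i, aeval t (c i) * b i)
      = t ^ (-(m : ℤ)) * (h * ∑ i, aeval t (c i) * b i) by ring, trF_mul_zpow, htr,
      Finset.mul_sum, Finset.mul_sum, map_sum, map_sum]
    exact Finset.sum_congr rfl fun i _ => key2 i (c i) _
  -- `h ∈ C(B₁)`
  have hd1 : ∀ y, IsInt K t y → ∃ R : K[X], trF K t (h * y) = aeval t R := by
    intro y hy
    obtain ⟨c, hc⟩ := HolOfLam_exists_coeff b (hbspan _ hy)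
    refine ⟨∑ i, c i * P i, ?_⟩
    rw [hc, htr, map_sum]
    simp only [map_mul]
  refine ⟨h, ⟨hd1, ?_⟩, star⟩
  -- `h t² ∈ C(B₂)`
  intro y hy
  obtain ⟨c, hc⟩ := stmt_Clear K F t y ht0 hy
  obtain ⟨R, hR⟩ := hd1 _ (hc (c + 2) (by omega))
  have hR' : t ^ (c + 2) * trF K t (h * y) = aeval t R := by
    rw [← trF_mul_pow, ← hR]
    congr 1
    ring
  have hdeg : R.natDegree ≤ c := by
    rw [natDegree_le_iff_coeff_eq_zero]
    intro s hs
    have h1 := res_zpow_mul_aeval ht0 hρ (-1 - (s : ℤ)) R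
    rw [if_pos (by omega)] at h1
    have h2 : (-1 - (-1 - (s : ℤ))).toNat = s := by omega
    rw [h2] at h1
    rw [← h1, ← hR', ← mul_assoc, ← zpow_natCast t (c + 2), ← zpow_add₀ ht0, ← trF_mul_zpow,
      show t ^ (-1 - (s : ℤ) + ((c + 2 : ℕ) : ℤ)) * (h * y)
        = h * (t ^ (-1 - (s : ℤ) + ((c + 2 : ℕ) : ℤ)) * y) by ring]
    have e3 : t ^ (-1 - (s : ℤ) + ((c + 2 : ℕ) : ℤ)) = t⁻¹ ^ (s - c - 1) := by
      rw [inv_pow, ← zpow_natCast, ← zpow_neg]
      congr 1
      push_cast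
      omega
    rw [star]
    · apply hL2
      rw [e3]
      exact HolOfLam_isInt_mul (HolOfLam_isInt_pow _ _) hy
    · refine ⟨s + 1, ?_⟩
      have e4 : t ^ (s + 1) * (t ^ (-1 - (s : ℤ) + ((c + 2 : ℕ) : ℤ)) * y) = t ^ (c + 2) * y := by
        rw [← mul_assoc, ← zpow_natCast t (s + 1), ← zpow_add₀ ht0, ← zpow_natCast t (c + 2)]
        congr 2
        push_cast
        ring
      rw [e4]
      exact hc _ (by omega)
  refine ⟨R.reflect c, ?_⟩
  show trF K t⁻¹ (h * t ^ 2 * y) = _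
  rw [trF_inv, show h * t ^ 2 * y = t ^ 2 * (h * y) by ring, trF_mul_pow]
  have h5 : aeval t⁻¹ (R.reflect c) * t ^ c = aeval t R := by
    let _ := invertibleOfNonzero ht0
    have := eval₂_reflect_mul_pow (algebraMap K F) t c R hdeg
    rw [invOf_eq_inv] at this
    exact this
  have h6 : t ^ c ≠ 0 := pow_ne_zero _ ht0
  apply mul_right_cancel₀ h6
  rw [h5, ← hR']
  ring

end Fermat.Agent.MR.Lift
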