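import Fermat.Agent.MR.Lift.Interface
import Fermat.Agent.INJ.All

/-!
# MR / Lift : (A4) functionals on `H¹_k` lift to `H¹_A` (`Stmt_LamLift`)

`b` = orthonormal `K[t]`-basis of `B₁` (P6).  The family `e (j, i) = t ^ j * b i`, `j ∈ ℤ`, is
`K`-independent and `O ∩ B₁₂` is the free `A`-module on it; so we work with
`X = (ℤ × Fin n) →₀ A` and `ev : X → F`.
-/

set_option autoImplicit false

namespace Fermat.Agent.MR.Lift

open Polynomial IntermediateField Fermat.Agent.INJ

section Lin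

variable {K F : Type*} [Field K] [Field F] [Algebra K F]

/-- the integral powers of a transcendental element are linearly independent. -/
theorem LamLift_zpow_indep {t : F} (ht : Transcendental K t) :
    LinearIndependent K (fun j : ℤ => t ^ j) := by
  classical
  have ht0 : t ≠ 0 := by
    rintro rfl
    exact ht isAlgebraic_zero
  rw [linearIndependent_iff']
  intro s g hs j0 hj0
  set m : ℕ := ∑ j ∈ s, j.natAbs with hm
  have hpos : ∀ j ∈ s, 0 ≤ j + m := by
    intro j hj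
    have h1 : j.natAbs ≤ m := Finset.single_le_sum (f := fun j : ℤ => j.natAbs)
      (fun _ _ => Nat.zero_le _) hj
    omega
  set P : K[X] := ∑ j ∈ s, monomial (j + m).toNat (g j) with hP
  have hPt : aeval t P = 0 := by
    have h1 : aeval t P = t ^ m * ∑ j ∈ s, g j • t ^ j := by
      rw [hP, map_sum, Finset.mul_sum]
      refine Finset.sum_congr rfl fun j hj => ?_
      rw [aeval_monomial, Algebra.smul_def, ← zpow_natCast t (j + m).toNat,
        Int.toNat_of_nonneg (hpos j hj), zpow_add₀ ht0, zpow_natCast]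
      ring
    rw [h1, hs, mul_zero]
  have hP0 : P = 0 := transcendental_iff.1 ht P hPt
  have h2 := congrArg (fun Q : K[X] => Q.coeff (j0 + m).toNat) hP0
  simp only [hP, finsetSum_coeff, coeff_monomial, coeff_zero] at h2
  rw [Finset.sum_eq_single j0] at h2
  · simpa using h2
  · intro j hj hne
    rw [if_neg]
    intro h
    apply hne
    have h3 := hpos j hj
    have h4 := hpos j0 hj0
    omega
  · intro h
    exact absurd hj0 h

theorem LamLift_family_indep {t : F} (ht : Transcendental K t) {n : ℕ} {b : Fin n → F}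
    (hb : LinearIndependent K⟮t⟯ b) :
    LinearIndependent K (fun p : ℤ × Fin n => t ^ p.1 * b p.2) := by
  have h1 : LinearIndependent K (fun j : ℤ => (AdjoinSimple.gen K t) ^ j) := by
    refine LinearIndependent.of_comp (IntermediateField.val K⟮t⟯).toLinearMap ?_
    have : ((IntermediateField.val K⟮t⟯).toLinearMap ∘ fun j : ℤ => (AdjoinSimple.gen K t) ^ j)
        = fun j : ℤ => t ^ j := by
      funext j
      show (IntermediateField.val K⟮t⟯) ((AdjoinSimple.gen K t) ^ j) = t ^ j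
      rw [map_zpow₀]
      rfl
    rw [this]
    exact LamLift_zpow_indep ht
  have h2 := linearIndependent_smul h1 hb
  convert h2 using 2 with p
  rw [Algebra.smul_def]
  congr 1

/-- a linear form with prescribed values on an independent family. -/
theorem LamLift_exists_lin {V ι : Type*} [AddCommGroup V] [Module K V] {e : ι → V}
    (he : LinearIndependent K e) (c : ι → K) : ∃ L : V →ₗ[K] K, ∀ p, L (e p) = c p := by
  obtain ⟨L, hL⟩ := ((Module.Basis.span he).constr K c).exists_extend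
  refine ⟨L, fun p => ?_⟩
  have h1 : L (e p) = (L.comp (Submodule.subtype _)) (Module.Basis.span he p) := by
    rw [LinearMap.comp_apply, Submodule.subtype_apply, Module.Basis.coe_span_apply]
  rw [h1, hL, Module.Basis.constr_basis]

theorem LamLift_isInt_const_mul {t x : F} (a : K) (hx : IsInt K t x) :
    IsInt K t (algebraMap K F a * x) :=
  IsIntegral.mul (P9_isInt_algebraMap t a) hx

end Lin

section Red

variable {K F k Fb : Type} [Field K] [Field F] [Algebra K F] [Field k] [Field Fb] [Algebra k Fb]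

/-- `BB = B ∩ O` as an `A`-module. -/
noncomputable def LamLift_B (D : RedData K F k Fb) (t : F) : Submodule D.A F where
  carrier := {x | x ∈ D.O ∧ IsInt K t x}
  add_mem' := fun hx hy => ⟨add_mem hx.1 hy.1, IsIntegral.add hx.2 hy.2⟩
  zero_mem' := ⟨zero_mem _, isIntegral_zero⟩
  smul_mem' := fun a x hx => by
    rw [P9_smul_def]
    exact ⟨mul_mem (RedData.algebraMap_mem a.2) hx.1, LamLift_isInt_const_mul _ hx.2⟩

theorem LamLift_mem_B (D : RedData K F k Fb) (t x : F) :
    x ∈ LamLift_B D t ↔ x ∈ D.O ∧ IsInt K t x := Iff.rfl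

/-- the family `t ^ j * b i`. -/
def LamLift_e (t : F) {n : ℕ} (b : Fin n → F) (p : ℤ × Fin n) : F := t ^ p.1 * b p.2

/-- the evaluation map. -/
noncomputable def LamLift_ev (D : RedData K F k Fb) (t : F) {n : ℕ} (b : Fin n → F) :
    ((ℤ × Fin n) →₀ D.A) →ₗ[D.A] F := Finsupp.linearCombination D.A (LamLift_e t b)

theorem LamLift_ev_single (D : RedData K F k Fb) (t : F) {n : ℕ} (b : Fin n → F) (p : ℤ × Fin n)
    (a : D.A) :
    LamLift_ev D t b (Finsupp.single p a) = algebraMap K F (a : K) * (t ^ p.1 * b p.2) := by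
  rw [LamLift_ev, Finsupp.linearCombination_single, P9_smul_def]
  rfl

theorem LamLift_zpow_mem (D : RedData K F k Fb) {t : F} (htO : t ∈ D.O) (htiO : t⁻¹ ∈ D.O) (j : ℤ) :
    t ^ j ∈ D.O := by
  obtain ⟨s, rfl | rfl⟩ := j.eq_nat_or_neg
  · rw [zpow_natCast]
    exact pow_mem htO s
  · rw [zpow_neg, zpow_natCast, ← inv_pow]
    exact pow_mem htiO s

theorem LamLift_ev_mem (D : RedData K F k Fb) {t : F} (htO : t ∈ D.O) (htiO : t⁻¹ ∈ D.O) {n : ℕ}
    {b : Fin n → F} (hbO : ∀ i, b i ∈ D.O) (f : (ℤ × Fin n) →₀ D.A) :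
    LamLift_ev D t b f ∈ D.O := by
  induction f using Finsupp.induction_linear with
  | zero =>
    rw [map_zero]
    exact zero_mem _
  | add f g hf hg =>
    rw [map_add]
    exact add_mem hf hg
  | single p a =>
    rw [LamLift_ev_single]
    exact mul_mem (RedData.algebraMap_mem a.2) (mul_mem (LamLift_zpow_mem D htO htiO _) (hbO _))

/-- coordinates: `O ∩ B₁₂` is the image of `ev`. -/
theorem LamLift_coord (D : RedData K F k Fb) {t : F} (htO : t ∈ D.O)
    (htr : Transcendental k (D.rd t)) {n : ℕ} (b : Fin n → F) (hbO : ∀ i, b i ∈ D.O)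
    (hspan : ∀ x, IsInt K t x → x ∈ Submodule.span (Algebra.adjoin K {t}) (Set.range b))
    (hli : LinearIndependent k⟮D.rd t⟯ (fun i => D.rd (b i)))
    {x : F} (hx : x ∈ D.O) (hx12 : IsInt12 K t x) : ∃ f, LamLift_ev D t b f = x := by
  classical
  have ht0 : t ≠ 0 := by
    rintro rfl
    apply htr
    rw [RedData.rd_zero]
    exact isAlgebraic_zero
  obtain ⟨-, hG2, -, -, -⟩ := stmt_Gauss K F k Fb D t htO htr
  obtain ⟨-, hO2⟩ := all_Ortho K F k Fb D t htO htr (Fin n) b hbO hli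
  obtain ⟨m, hm⟩ := hx12
  obtain ⟨cf, hcf⟩ := (Submodule.mem_span_range_iff_exists_fun _).1 (hspan _ hm)
  have hcf' : ∑ i, ((cf i : F)) * b i = t ^ m * x := by
    rw [← hcf]
    rfl
  have hP : ∀ i, ∃ P : K[X], aeval t P = (cf i : F) := by
    intro i
    have h5 : (cf i : F) ∈ (aeval (R := K) t).range := by
      rw [← Algebra.adjoin_singleton_eq_range_aeval]
      exact (cf i).2
    exact h5
  choose P hP using hP
  have hcO := hO2 (fun i => ⟨(cf i : F), IntermediateField.algebra_adjoin_le_adjoin K {t} (cf i).2⟩)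
    (by
      show ∑ i, ((cf i : F)) * b i ∈ D.O
      rw [hcf']
      exact mul_mem (pow_mem htO m) hx)
  have hQ : ∀ i, ∃ Q : (D.A)[X], Q.map D.A.subtype = P i := by
    intro i
    refine hG2 (P i) ?_
    rw [hP i]
    exact hcO i
  choose Q hQ using hQ
  refine ⟨∑ i, ∑ j ∈ Finset.range ((Q i).natDegree + 1),
    Finsupp.single ((j : ℤ) - m, i) ((Q i).coeff j), ?_⟩
  have h4 : x = t⁻¹ ^ m * (t ^ m * x) := by
    rw [inv_pow]
    field_simp
  rw [h4, ← hcf', Finset.mul_sum, map_sum]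
  refine Finset.sum_congr rfl fun i _ => ?_
  rw [← hP i, ← hQ i, P9_aeval_map, Finset.sum_mul, Finset.mul_sum, map_sum]
  refine Finset.sum_congr rfl fun j _ => ?_
  rw [LamLift_ev_single, zpow_sub₀ ht0, zpow_natCast, zpow_natCast, inv_pow]
  field_simp

end Red

theorem LamLift_aux (hSplit : Stmt_Split) (hFun : Stmt_FunLift)
    (K F k Fb : Type) [Field K] [Field F] [Algebra K F] [Field k] [Field Fb] [Algebra k Fb]
    [IsAlgClosed K] [CharZero K] [IsAlgClosed k] (D : RedData K F k Fb) (t : F)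
    (hC : Chart D t) (hC' : Chart D t⁻¹) (n : ℕ) (b : Fin n → F)
    (hb : ∀ i, b i ∈ D.O ∧ IsInt K t (b i))
    (hspan : ∀ x, IsInt K t x → x ∈ Submodule.span (Algebra.adjoin K {t}) (Set.range b))
    (hli : LinearIndependent k⟮D.rd t⟯ (fun i => D.rd (b i)))
    (μ : Fb →ₗ[k] k) (hμ1 : ∀ y, IsInt k (D.rd t) y → μ y = 0)
    (hμ2 : ∀ y, IsInt k (D.rd t)⁻¹ y → μ y = 0) :
    ∃ Lam : F →ₗ[K] K, (∀ y, IsInt K t y → Lam y = 0) ∧ (∀ y, IsInt K t⁻¹ y → Lam y = 0) ∧
      ∀ x ∈ D.O, IsInt12 K t x → Lam x ∈ D.A ∧ D.ra (Lam x) = μ (D.rd x) := by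
  classical
  have htO := hC.t_mem
  have htiO := hC'.t_mem
  have htr := hC.trans
  have htb0 : D.rd t ≠ 0 := by
    intro h
    apply htr
    rw [h]
    exact isAlgebraic_zero
  have ht0 : t ≠ 0 := by
    rintro rfl
    exact htb0 RedData.rd_zero
  have hrdinv : D.rd t⁻¹ = (D.rd t)⁻¹ := RedData.rd_inv htb0
  obtain ⟨-, -, -, hKtr, -⟩ := stmt_Gauss K F k Fb D t htO htr
  have hbO : ∀ i, b i ∈ D.O := fun i => (hb i).1
  obtain ⟨hbli, -⟩ := all_Ortho K F k Fb D t htO htr (Fin n) b hbO hli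
  have heli : LinearIndependent K (LamLift_e t b) := LamLift_family_indep hKtr hbli
  set ev := LamLift_ev D t b with hev
  have hevO : ∀ f, ev f ∈ D.O := LamLift_ev_mem D htO htiO hbO
  have hcoord : ∀ x ∈ D.O, IsInt12 K t x → ∃ f, ev f = x := fun x hx h =>
    LamLift_coord D htO htr b hbO hspan hli hx h
  set S : Submodule D.A ((ℤ × Fin n) →₀ D.A) :=
    (LamLift_B D t ⊔ LamLift_B D t⁻¹).comap ev with hS
  have memS : ∀ f, f ∈ S ↔ ∃ y₁ y₂, (y₁ ∈ D.O ∧ IsInt K t y₁) ∧ (y₂ ∈ D.O ∧ IsInt K t⁻¹ y₂) ∧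
      y₁ + y₂ = ev f := by
    intro f
    rw [hS, Submodule.mem_comap, Submodule.mem_sup]
    constructor
    · rintro ⟨y₁, h1, y₂, h2, h⟩
      exact ⟨y₁, y₂, h1, h2, h⟩
    · rintro ⟨y₁, y₂, h1, h2, h⟩
      exact ⟨y₁, h1, y₂, h2, h⟩
  -- the functional
  let μ' : ((ℤ × Fin n) →₀ D.A) →+ k :=
    { toFun := fun f => μ (D.rd (ev f))
      map_zero' := by rw [map_zero, RedData.rd_zero, map_zero]
      map_add' := fun f g => by rw [map_add, RedData.rd_add (hevO f) (hevO g), map_add] }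
  have hμ' : ∀ f, μ' f = μ (D.rd (ev f)) := fun f => rfl
  have hsemi : ∀ (a : D.A) (f : (ℤ × Fin n) →₀ D.A), μ' (a • f) = D.rA a * μ' f := by
    intro a f
    rw [hμ', hμ', map_smul, P9_smul_def, RedData.rd_mul (RedData.algebraMap_mem a.2) (hevO f),
      RedData.rd_algebraMap a.2, RedData.ra_of_mem a.2, ← Algebra.smul_def, map_smul, smul_eq_mul]
  have hkill : ∀ f ∈ S, μ' f = 0 := by
    intro f hf
    obtain ⟨y₁, y₂, h1, h2, h⟩ := (memS f).1 hf
    have h3 := all_IntRed K F k Fb D t⁻¹ hC' y₂ h2.1 h2.2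
    rw [hrdinv] at h3
    rw [hμ', ← h, RedData.rd_add h1.1 h2.1, map_add,
      hμ1 _ (all_IntRed K F k Fb D t hC y₁ h1.1 h1.2), hμ2 _ h3, add_zero]
  -- torsion free
  have htf : ∀ (a : D.A) (f : (ℤ × Fin n) →₀ D.A), a ≠ 0 → a • f ∈ S → f ∈ S := by
    intro a f ha hf
    obtain ⟨y₁, y₂, h1, h2, h⟩ := (memS _).1 hf
    have ha' : (a : K) ≠ 0 := fun h0 => ha (Subtype.ext h0)
    have haF : algebraMap K F (a : K) ≠ 0 := by simpa using ha'
    rw [map_smul, P9_smul_def] at h
    have e1 : algebraMap K F (a : K)⁻¹ * y₁ + algebraMap K F (a : K)⁻¹ * y₂ = ev f := by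
      rw [← mul_add, h, map_inv₀]
      field_simp
    obtain ⟨c, hc1, hc2⟩ := hSplit K F k Fb D t hC hC' _ _ (LamLift_isInt_const_mul _ h1.2)
      (LamLift_isInt_const_mul _ h2.2) (by rw [e1]; exact hevO f)
    refine (memS f).2 ⟨_, _,
      ⟨hc1, IsIntegral.sub (LamLift_isInt_const_mul _ h1.2) (P9_isInt_algebraMap t c)⟩,
      ⟨hc2, IsIntegral.add (LamLift_isInt_const_mul _ h2.2) (P9_isInt_algebraMap t⁻¹ c)⟩, ?_⟩
    rw [← e1]
    ring
  -- generators
  have hcl : ∀ i, ∃ c : ℕ, ∀ c' : ℕ, c ≤ c' → IsInt K t⁻¹ (t⁻¹ ^ c' * b i) := by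
    intro i
    refine stmt_Clear K F t⁻¹ (b i) (inv_ne_zero ht0) ?_
    rw [inv_inv]
    exact (hb i).2
  choose cc hcc using hcl
  set J : ℕ := Finset.univ.sup cc with hJ
  set g : Fin (J * n) → ((ℤ × Fin n) →₀ D.A) := fun x =>
    Finsupp.single (-(((finProdFinEquiv.symm x).1 : ℕ) : ℤ), (finProdFinEquiv.symm x).2) 1 with hg
  have hsingle : ∀ p : ℤ × Fin n,
      Finsupp.single p (1 : D.A) ∈ S ⊔ Submodule.span D.A (Set.range g) := by
    rintro ⟨j, i⟩
    obtain ⟨s, rfl | rfl⟩ := j.eq_nat_or_neg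
    · refine Submodule.mem_sup_left ((memS _).2 ⟨t ^ s * b i, 0,
        ⟨mul_mem (pow_mem htO s) (hbO i), IsIntegral.mul (P9_isInt_pow_self t s) (hb i).2⟩,
        ⟨zero_mem _, isIntegral_zero⟩, ?_⟩)
      rw [hev, LamLift_ev_single]
      simp
    · rcases le_or_gt J s with h | h
      · refine Submodule.mem_sup_left ((memS _).2 ⟨0, t⁻¹ ^ s * b i, ⟨zero_mem _, isIntegral_zero⟩,
          ⟨mul_mem (pow_mem htiO s) (hbO i),
            hcc i s ((Finset.le_sup (Finset.mem_univ i)).trans h)⟩, ?_⟩)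
        rw [hev, LamLift_ev_single]
        simp
      · refine Submodule.mem_sup_right (Submodule.subset_span ⟨finProdFinEquiv (⟨s, h⟩, i), ?_⟩)
        simp only [hg, Equiv.symm_apply_apply]
  have hgen : S ⊔ Submodule.span D.A (Set.range g) = ⊤ := by
    rw [eq_top_iff]
    intro f _
    induction f using Finsupp.induction_linear with
    | zero => exact zero_mem _
    | add f g hf hg => exact add_mem (hf trivial) (hg trivial)
    | single p a =>
      rw [← Finsupp.smul_single_one]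
      exact Submodule.smul_mem _ _ (hsingle p)
  obtain ⟨lam, hlamS, hlamμ⟩ := hFun D.A _ k D.rA D.rA_surj S (J * n) g hgen htf μ' hsemi hkill
  obtain ⟨Lam, hLam⟩ := LamLift_exists_lin heli (fun p => ((lam (Finsupp.single p 1) : D.A) : K))
  have hLamev : ∀ f, Lam (ev f) = ((lam f : D.A) : K) := by
    intro f
    induction f using Finsupp.induction_linear with
    | zero => simp
    | add f g hf hg =>
      rw [map_add, map_add, map_add, hf, hg]
      rfl
    | single p a =>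
      have h1 : Lam (t ^ p.1 * b p.2) = ((lam (Finsupp.single p 1) : D.A) : K) := hLam p
      rw [hev, LamLift_ev_single, ← Algebra.smul_def, map_smul, h1, ← Finsupp.smul_single_one p a,
        map_smul, smul_eq_mul, smul_eq_mul]
      rfl
  have hscale : ∀ y : F, (∀ a : K, y * algebraMap K F a ∈ D.O →
      ∃ f ∈ S, ev f = y * algebraMap K F a) → Lam y = 0 := by
    intro y hy
    by_cases hy0 : y = 0
    · rw [hy0, map_zero]
    obtain ⟨a, ha0, haO, -⟩ := D.unram y hy0
    obtain ⟨f, hfS, hf⟩ := hy a haO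
    have h1 := hLamev f
    rw [hlamS f hfS, hf, mul_comm, ← Algebra.smul_def, map_smul, smul_eq_mul] at h1
    exact (mul_eq_zero.1 h1).resolve_left ha0
  refine ⟨Lam, ?_, ?_, ?_⟩
  · intro y hy
    refine hscale y fun a haO => ?_
    have hint : IsInt K t (y * algebraMap K F a) := IsIntegral.mul hy (P9_isInt_algebraMap t a)
    obtain ⟨f, hf⟩ := hcoord _ haO ⟨0, by simpa using hint⟩
    exact ⟨f, (memS f).2 ⟨_, 0, ⟨haO, hint⟩, ⟨zero_mem _, isIntegral_zero⟩,
      by rw [add_zero, hf]⟩, hf⟩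
  · intro y hy
    refine hscale y fun a haO => ?_
    have hint : IsInt K t⁻¹ (y * algebraMap K F a) :=
      IsIntegral.mul hy (P9_isInt_algebraMap t⁻¹ a)
    obtain ⟨c, hc⟩ := stmt_Clear K F t _ ht0 hint
    obtain ⟨f, hf⟩ := hcoord _ haO ⟨c, hc c le_rfl⟩
    exact ⟨f, (memS f).2 ⟨0, _, ⟨zero_mem _, isIntegral_zero⟩, ⟨haO, hint⟩,
      by rw [zero_add, hf]⟩, hf⟩
  · intro x hx hx12
    obtain ⟨f, hf⟩ := hcoord x hx hx12
    rw [← hf, hLamev]
    refine ⟨(lam f).2, ?_⟩
    rw [RedData.ra_of_mem (lam f).2]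
    exact hlamμ f

theorem stmt_LamLift (hSplit : Stmt_Split) (hFun : Stmt_FunLift) : Stmt_LamLift := by
  intro K F k Fb _ _ _ _ _ _ _ _ _ D t hC hC' μ hμ1 hμ2
  obtain ⟨b, hb, hspan, hli⟩ := all_BBasis K F k Fb D t hC
  exact LamLift_aux hSplit hFun K F k Fb D t hC hC' _ b hb hspan hli μ hμ1 hμ2

end Fermat.Agent.MR.Lift

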