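import Fermat.Agent.MR.Lift.Interface
import Fermat.Agent.INJ.P7a
import Fermat.Agent.INJ.P7

/-!
# MR / Lift, task LIFT-B1 : `(z β)^m ∈ β B` implies `z ∈ C(B)` (`Stmt_RadDual`)
-/

set_option autoImplicit false

namespace Fermat.Agent.MR.Lift

open Polynomial IntermediateField Fermat.Agent.INJ
open scoped IntermediateField.algebraAdjoinAdjoin

variable {k Fb : Type} [Field k] [Field Fb] [Algebra k Fb]

/-- the trace of an integral element is a polynomial in `tb`. -/
theorem RadDual_trace_int {tb : Fb} (htb : Transcendental k tb) [FiniteDimensional k⟮tb⟯ Fb]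
    {s : Fb} (hs : IsInt k tb s) :
    ∃ P : k[X], algebraMap k⟮tb⟯ Fb (Algebra.trace k⟮tb⟯ Fb s) = aeval tb P := by
  have hPID := P7a_isPrincipalIdealRing htb
  have hTint : IsIntegral (Algebra.adjoin k {tb}) (Algebra.trace k⟮tb⟯ Fb s) :=
    Algebra.isIntegral_trace hs
  obtain ⟨T₀, hT₀⟩ := IsIntegrallyClosed.isIntegral_iff.1 hTint
  have hmem : (T₀ : Fb) ∈ (aeval tb : k[X] →ₐ[k] Fb).range := by
    rw [← Algebra.adjoin_singleton_eq_range_aeval]; exact T₀.2
  obtain ⟨P, hP⟩ := hmem
  refine ⟨P, ?_⟩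
  rw [← hT₀]
  exact hP.symm

/-- `β` as a polynomial. -/
theorem RadDual_beta (tb : Fb) (S : Finset k) :
    beta tb S = aeval tb (∏ c ∈ S, (X - C c)) := by
  simp [beta, map_prod]

theorem RadDual_beta_ne {tb : Fb} (htb : Transcendental k tb) (S : Finset k) : beta tb S ≠ 0 :=
  Finset.prod_ne_zero_iff.2 fun c _ => P7_sub_ne_zero htb c

/-- the trace is linear over polynomials in `tb`. -/
theorem RadDual_trace_mul (tb : Fb) (Q : k[X]) (x : Fb) :
    algebraMap k⟮tb⟯ Fb (Algebra.trace k⟮tb⟯ Fb (aeval tb Q * x)) =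
      aeval tb Q * algebraMap k⟮tb⟯ Fb (Algebra.trace k⟮tb⟯ Fb x) := by
  have h1 : algebraMap k⟮tb⟯ Fb (aeval (AdjoinSimple.gen k tb) Q) = aeval tb Q := by
    rw [← aeval_algebraMap_apply, AdjoinSimple.algebraMap_gen]
  have h2 : aeval tb Q * x = (aeval (AdjoinSimple.gen k tb) Q) • x := by
    rw [Algebra.smul_def, h1]
  rw [h2, map_smul, smul_eq_mul, map_mul, h1]

theorem stmt_RadDual : Stmt_RadDual := by
  intro k Fb _ _ _ tb htb hfin hsep S z m hm hint y hy
  classical
  have hβ0 := RadDual_beta_ne htb S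
  have hβint : IsInt k tb (beta tb S) := by
    rw [RadDual_beta]; exact P7_isInt_aeval tb _
  set w : Fb := (z * beta tb S) ^ m / beta tb S with hw
  have hzw : (z * beta tb S) ^ m = beta tb S * w := by
    rw [hw]; field_simp
  have hzβ : IsInt k tb (z * beta tb S) := by
    refine IsIntegral.of_pow hm ?_
    rw [hzw]
    exact hβint.mul hint
  have hs : IsInt k tb (z * beta tb S * y) := hzβ.mul hy
  obtain ⟨T, hT⟩ := RadDual_trace_int htb hs
  have hinj : Function.Injective (aeval tb : k[X] → Fb) := transcendental_iff_injective.1 htb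
  have hdvd : ∀ c ∈ S, (X - C c) ∣ T := by
    intro c hc
    have hsplit : beta tb S = (tb - algebraMap k Fb c) * ∏ c' ∈ S.erase c, (tb - algebraMap k Fb c') :=
      (Finset.mul_prod_erase S (fun c' => tb - algebraMap k Fb c') hc).symm
    have hc0 := P7_sub_ne_zero htb c
    have he : (z * beta tb S * y) ^ m / (tb - algebraMap k Fb c)
        = w * y ^ m * ∏ c' ∈ S.erase c, (tb - algebraMap k Fb c') := by
      rw [mul_pow, hzw]
      nth_rewrite 1 [hsplit]
      field_simp
    have hint' : IsInt k tb ((z * beta tb S * y) ^ m / (tb - algebraMap k Fb c)) := by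
      rw [he]
      refine (IsIntegral.mul hint (hy.pow m)).mul ?_
      exact IsIntegral.prod _ fun c' _ => P7_isInt_sub_const tb c'
    obtain ⟨P, hP⟩ := stmt_TraceNil k Fb tb htb hfin hsep c _ m hm hint'
    refine ⟨P, hinj ?_⟩
    rw [← hT, hP]
    simp
  have hprod : (∏ c ∈ S, (X - C c)) ∣ T := by
    refine Finset.prod_dvd_of_coprime ?_ hdvd
    exact (Polynomial.pairwise_coprime_X_sub_C (s := fun c : k => c)
      Function.injective_id).set_pairwise _
  obtain ⟨Q, hQ⟩ := hprod
  refine ⟨Q, ?_⟩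
  apply mul_left_cancel₀ hβ0
  have h3 : z * beta tb S * y = aeval tb (∏ c ∈ S, (X - C c)) * (z * y) := by
    rw [← RadDual_beta]; ring
  rw [h3, RadDual_trace_mul, ← RadDual_beta] at hT
  rw [hT, hQ, map_mul, ← RadDual_beta]

end Fermat.Agent.MR.Lift
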