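import Fermat.Agent.MR.Lift.Interface

/-!
# MR / Lift : (A0) the coefficient of `t⁻¹`, trace bookkeeping, (A6) `Stmt_LamOfHol`
-/

set_option autoImplicit false

namespace Fermat.Agent.MR.Lift

open Polynomial IntermediateField Fermat.Agent.INJ

section API

variable {K F : Type*} [Field K] [Field F] [Algebra K F]

theorem Res_adjoin_inv_eq (t : F) : K⟮t⁻¹⟯ = K⟮t⟯ := by
  apply le_antisymm
  · rw [adjoin_simple_le_iff]
    exact inv_mem (mem_adjoin_simple_self K t)
  · rw [adjoin_simple_le_iff]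
    have h := inv_mem (mem_adjoin_simple_self K t⁻¹)
    simpa using h

theorem Res_trace_congr {E₁ E₂ : IntermediateField K F} (h : E₁ = E₂) (x : F) :
    algebraMap E₁ F (Algebra.trace E₁ F x) = algebraMap E₂ F (Algebra.trace E₂ F x) := by
  subst h
  rfl

/-- the trace only depends on the field `K(t) = K(t⁻¹)`. -/
theorem trF_inv (t x : F) : trF K t⁻¹ x = trF K t x :=
  Res_trace_congr (Res_adjoin_inv_eq t) x

theorem trF_zero (t : F) : trF K t 0 = 0 := by
  unfold trF
  rw [map_zero, map_zero]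

theorem trF_add (t x y : F) : trF K t (x + y) = trF K t x + trF K t y := by
  unfold trF
  rw [map_add, map_add]

theorem trF_neg (t x : F) : trF K t (-x) = -trF K t x := by
  unfold trF
  rw [map_neg, map_neg]

theorem trF_sub (t x y : F) : trF K t (x - y) = trF K t x - trF K t y := by
  unfold trF
  rw [map_sub, map_sub]

theorem trF_sum {ι : Type*} (t : F) (s : Finset ι) (f : ι → F) :
    trF K t (∑ i ∈ s, f i) = ∑ i ∈ s, trF K t (f i) := by
  unfold trF
  rw [map_sum, map_sum]

/-- `K(t)`-linearity of the trace. -/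
theorem trF_mul_of_mem (t : F) {a : F} (ha : a ∈ K⟮t⟯) (x : F) :
    trF K t (a * x) = a * trF K t x := by
  unfold trF
  have h : a * x = (⟨a, ha⟩ : K⟮t⟯) • x := rfl
  rw [h, map_smul, smul_eq_mul, map_mul]
  rfl

theorem trF_mul_of_mem' (t : F) {a : F} (ha : a ∈ K⟮t⟯) (x : F) :
    trF K t (x * a) = trF K t x * a := by
  rw [mul_comm, trF_mul_of_mem t ha, mul_comm]

theorem trF_smul (t : F) (c : K) (x : F) : trF K t (c • x) = c • trF K t x := by
  rw [Algebra.smul_def, Algebra.smul_def]
  exact trF_mul_of_mem t (IntermediateField.algebraMap_mem _ c) x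

theorem Res_aeval_mem (t : F) (P : K[X]) : aeval t P ∈ K⟮t⟯ := by
  induction P using Polynomial.induction_on' with
  | add p q hp hq =>
    rw [map_add]
    exact add_mem hp hq
  | monomial n a =>
    rw [aeval_monomial]
    exact mul_mem (IntermediateField.algebraMap_mem _ a) (pow_mem (mem_adjoin_simple_self K t) n)

theorem Res_zpow_mem (t : F) (j : ℤ) : t ^ j ∈ K⟮t⟯ :=
  zpow_mem (mem_adjoin_simple_self K t) j

theorem trF_mul_aeval (t : F) (P : K[X]) (x : F) :
    trF K t (aeval t P * x) = aeval t P * trF K t x :=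
  trF_mul_of_mem t (Res_aeval_mem t P) x

theorem trF_mul_zpow (t : F) (j : ℤ) (x : F) : trF K t (t ^ j * x) = t ^ j * trF K t x :=
  trF_mul_of_mem t (Res_zpow_mem t j) x

theorem trF_mul_pow (t : F) (j : ℕ) (x : F) : trF K t (t ^ j * x) = t ^ j * trF K t x :=
  trF_mul_of_mem t (pow_mem (mem_adjoin_simple_self K t) j) x

/-- `K`-linear version of `trF`. -/
noncomputable def trFₗ (K : Type*) {F : Type*} [Field K] [Field F] [Algebra K F] (t : F) :
    F →ₗ[K] F where
  toFun := trF K t
  map_add' := trF_add t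
  map_smul' c x := trF_smul t c x

@[simp] theorem trFₗ_apply (t x : F) : trFₗ K t x = trF K t x := rfl

/-- `ρ (t ^ j * P(t))` is the coefficient of index `-1 - j` of `P`. -/
theorem res_zpow_mul_aeval {t : F} (ht : t ≠ 0) {ρ : F →ₗ[K] K} (hρ : IsRes K t ρ) (j : ℤ)
    (P : K[X]) :
    ρ (t ^ j * aeval t P) = if 0 ≤ -1 - j then P.coeff (-1 - j).toNat else 0 := by
  induction P using Polynomial.induction_on' with
  | add p q hp hq =>
    rw [map_add, mul_add, map_add, hp, hq, coeff_add]
    split_ifs <;> simp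
  | monomial n a =>
    have h1 : t ^ j * aeval t (monomial n a) = a • t ^ (j + n) := by
      rw [aeval_monomial, zpow_add₀ ht, zpow_natCast, Algebra.smul_def]
      ring
    rw [h1, map_smul, hρ, coeff_monomial]
    by_cases h : j + n = -1
    · have h2 : 0 ≤ -1 - j := by omega
      have h3 : n = (-1 - j).toNat := by omega
      rw [if_pos h, if_pos h2, if_pos h3, smul_eq_mul, mul_one]
    · rw [if_neg h, smul_zero]
      split_ifs with h2 h3
      · omega
      · rfl
      · rfl

theorem res_aeval_zpow {t : F} (ht : t ≠ 0) {ρ : F →ₗ[K] K} (hρ : IsRes K t ρ) (m : ℕ)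
    (P : K[X]) :
    ρ (t ^ (-(m : ℤ)) * aeval t P) = if m = 0 then 0 else P.coeff (m - 1) := by
  rw [res_zpow_mul_aeval ht hρ]
  by_cases h : m = 0
  · rw [if_pos h, if_neg (by omega)]
  · rw [if_neg h, if_pos (by omega)]
    congr 1
    omega

theorem res_aeval {t : F} (ht : t ≠ 0) {ρ : F →ₗ[K] K} (hρ : IsRes K t ρ) (P : K[X]) :
    ρ (aeval t P) = 0 := by
  have h := res_zpow_mul_aeval ht hρ 0 P
  rwa [zpow_zero, one_mul, if_neg (by omega)] at h

/-- `ρ (t ^ j * P(t⁻¹))` is the coefficient of index `j + 1` of `P`. -/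
theorem res_zpow_mul_aeval_inv {t : F} (ht : t ≠ 0) {ρ : F →ₗ[K] K} (hρ : IsRes K t ρ) (j : ℤ)
    (P : K[X]) :
    ρ (t ^ j * aeval t⁻¹ P) = if 0 ≤ j + 1 then P.coeff (j + 1).toNat else 0 := by
  induction P using Polynomial.induction_on' with
  | add p q hp hq =>
    rw [map_add, mul_add, map_add, hp, hq, coeff_add]
    split_ifs <;> simp
  | monomial n a =>
    have h1 : t ^ j * aeval t⁻¹ (monomial n a) = a • t ^ (j - n) := by
      rw [aeval_monomial, zpow_sub₀ ht, zpow_natCast, Algebra.smul_def, inv_pow]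
      field_simp
    rw [h1, map_smul, hρ, coeff_monomial]
    by_cases h : j - n = -1
    · have h2 : 0 ≤ j + 1 := by omega
      have h3 : n = (j + 1).toNat := by omega
      rw [if_pos h, if_pos h2, if_pos h3, smul_eq_mul, mul_one]
    · rw [if_neg h, smul_zero]
      split_ifs with h2 h3
      · omega
      · rfl
      · rfl

/-- the integral powers of a transcendental element are linearly independent. -/
theorem Res_linearIndependent_zpow {t : F} (ht : Transcendental K t) :
    LinearIndependent K (fun j : ℤ => t ^ j) := by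
  have ht0 : t ≠ 0 := by
    rintro rfl
    exact ht isAlgebraic_zero
  rw [linearIndependent_iff']
  intro s g hg i₀ hi₀
  obtain ⟨N, hN⟩ : ∃ N : ℤ, ∀ i ∈ s, 0 ≤ i + N := by
    obtain ⟨b, hb⟩ := s.bddBelow
    exact ⟨-b, fun i hi => by have := hb (Finset.mem_coe.2 hi); omega⟩
  have h1 : aeval t (∑ i ∈ s, monomial (i + N).toNat (g i)) = 0 := by
    rw [map_sum]
    have h2 : ∀ i ∈ s, aeval t (monomial (i + N).toNat (g i)) = t ^ N * (g i • t ^ i) := by
      intro i hi
      have h3 : t ^ (i + N).toNat = t ^ (i + N) := by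
        rw [← zpow_natCast, Int.toNat_of_nonneg (hN i hi)]
      rw [aeval_monomial, h3, zpow_add₀ ht0, Algebra.smul_def]
      ring
    rw [Finset.sum_congr rfl h2, ← Finset.mul_sum, hg, mul_zero]
  have h4 := (transcendental_iff.1 ht) _ h1
  have h5 := congrArg (fun P : K[X] => P.coeff (i₀ + N).toNat) h4
  simp only [finsetSum_coeff, coeff_monomial, coeff_zero] at h5
  rw [Finset.sum_eq_single i₀] at h5
  · simpa using h5
  · intro i hi hne
    rw [if_neg]
    intro h
    have := hN i hi
    have := hN i₀ hi₀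
    omega
  · intro h
    exact absurd hi₀ h

end API

theorem stmt_Res : Stmt_Res := by
  intro K F _ _ _ t ht
  have hli := Res_linearIndependent_zpow ht
  obtain ⟨ρ, hρ⟩ := LinearMap.exists_extend ((Finsupp.lapply (-1 : ℤ)).comp hli.repr)
  refine ⟨ρ, fun j => ?_⟩
  have hmem : t ^ j ∈ Submodule.span K (Set.range (fun j : ℤ => t ^ j)) :=
    Submodule.subset_span ⟨j, rfl⟩
  have h1 := LinearMap.congr_fun hρ ⟨t ^ j, hmem⟩
  have h2 : hli.repr ⟨t ^ j, hmem⟩ = Finsupp.single j 1 := hli.repr_eq_single j _ rfl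
  simp only [LinearMap.comp_apply, Submodule.subtype_apply, h2, Finsupp.lapply_apply] at h1
  rw [h1, Finsupp.single_apply]

theorem stmt_LamOfHol : Stmt_LamOfHol := by
  intro K F _ _ _ t ht ρ hρ h hh
  have ht0 : t ≠ 0 := by
    rintro rfl
    exact ht isAlgebraic_zero
  refine ⟨fun y hy => ?_, fun y hy => ?_⟩
  · obtain ⟨P, hP⟩ := hh.1 y hy
    have h1 : trF K t (h * y) = aeval t P := hP
    rw [h1]
    exact res_aeval ht0 hρ P
  · obtain ⟨P, hP⟩ := hh.2 y hy
    have h1 : trF K t⁻¹ (h * t ^ 2 * y) = aeval t⁻¹ P := hP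
    rw [trF_inv, show h * t ^ 2 * y = t ^ 2 * (h * y) by ring, trF_mul_pow] at h1
    have h2 : trF K t (h * y) = t ^ (-2 : ℤ) * aeval t⁻¹ P := by
      rw [← h1, ← mul_assoc, ← zpow_natCast t 2, ← zpow_add₀ ht0]
      simp
    rw [h2, res_zpow_mul_aeval_inv ht0 hρ, if_neg (by omega)]

end Fermat.Agent.MR.Lift
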