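import Fermat.Agent.MR.Lift.Interface
import Fermat.Agent.INJ.All

/-!
# MR / Lift, (A2) : `(B₁ + B₂) ∩ O = BB₁ + BB₂` (`Stmt_Split`)

`H¹_A = BB₁₂ / (BB₁ + BB₂)` is torsion free.  One step argument: normalise `y₁` by a constant so that
one fixed coordinate (the one where the coordinates of `1` have a unit coefficient) vanishes; if the
normalised `y₁'` were not in `O`, a rescaling `a y₁'` would be a unit of `O` whose reduction is
integral over `k[tbar]` and over `k[1/tbar]`, hence a nonzero constant, contradicting the vanishing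
of the chosen coordinate.
-/

set_option autoImplicit false

namespace Fermat.Agent.MR.Lift

open Polynomial IntermediateField Fermat.Agent.INJ

section Aux

variable {k Fb : Type*} [Field k] [Field Fb] [Algebra k Fb]

/-- a `k[tb]`-relation between `k(tb)`-independent elements is trivial. -/
theorem Split_coord_zero (tb : Fb) (htr : Transcendental k tb) {ι : Type*} [Fintype ι]
    (eb : ι → Fb) (hli : LinearIndependent k⟮tb⟯ eb) (R : ι → k[X])
    (h : ∑ i, aeval tb (R i) * eb i = 0) (i : ι) : R i = 0 := by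
  have h1 := Fintype.linearIndependent_iff.1 hli
    (fun i => ⟨aeval tb (R i), P8_aeval_mem_field tb (R i)⟩) h i
  have h2 : aeval tb (R i) = 0 := congrArg Subtype.val h1
  exact transcendental_iff.1 htr _ h2

theorem Split_isInt_algebraMap (t : Fb) (c : k) : IsInt k t (algebraMap k Fb c) := by
  have := P8_isInt_aeval (K := k) t (C c)
  rwa [aeval_C] at this

end Aux

theorem stmt_Split : Stmt_Split := by
  intro K F k Fb _ _ _ _ _ _ _ _ _ D t hch hch' y₁ y₂ hy₁ hy₂ hsum
  have ht := hch.t_mem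
  have htr := hch.trans
  have hfin := hch.fin
  obtain ⟨b, hb, hbs, hbli⟩ := all_BBasis K F k Fb D t hch
  have hbO : ∀ i, b i ∈ D.O := fun i => (hb i).1
  -- coordinates of `1`
  obtain ⟨U, hU⟩ := (P8_mem_span_iff t b 1).1 (hbs 1 isIntegral_one)
  obtain ⟨QU, hQU, hrdU⟩ := P8_coord stmt_Gauss all_Ortho D t ht htr b hbO hbli U
    (hU ▸ D.O.one_mem)
  rw [← hU, RedData.rd_one] at hrdU
  -- some coefficient is a unit
  obtain ⟨i0, hi0⟩ : ∃ i0, (QU i0).map D.rA ≠ 0 := by
    by_contra hcon
    push Not at hcon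
    apply one_ne_zero (α := Fb)
    rw [hrdU]
    exact Finset.sum_eq_zero fun i _ => by rw [hcon i]; simp
  obtain ⟨j0, hj0⟩ : ∃ j0, ((QU i0).map D.rA).coeff j0 ≠ 0 := by
    by_contra hcon
    push Not at hcon
    exact hi0 (Polynomial.ext (by simpa using hcon))
  rw [coeff_map] at hj0
  set u0 : D.A := (QU i0).coeff j0 with hu0
  have hu0U : (U i0).coeff j0 = (u0 : K) := by rw [← hQU i0, coeff_map]; rfl
  have hu00 : (u0 : K) ≠ 0 := by
    intro h
    apply hj0
    have : u0 = 0 := Subtype.ext h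
    rw [this, map_zero]
  -- coordinates of `y₁`
  obtain ⟨Y, hY⟩ := (P8_mem_span_iff t b y₁).1 (hbs y₁ hy₁)
  refine ⟨(Y i0).coeff j0 / (u0 : K), ?_⟩
  set c : K := (Y i0).coeff j0 / (u0 : K) with hc
  suffices hmain : y₁ - algebraMap K F c ∈ D.O by
    refine ⟨hmain, ?_⟩
    have : y₂ + algebraMap K F c = (y₁ + y₂) - (y₁ - algebraMap K F c) := by ring
    rw [this]; exact sub_mem hsum hmain
  by_contra hnot
  have hy'0 : y₁ - algebraMap K F c ≠ 0 := fun h => hnot (h ▸ D.O.zero_mem)
  obtain ⟨a, ha0, hv, hv'⟩ := D.unram _ hy'0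
  have haF : algebraMap K F a ≠ 0 := by
    rw [Ne, map_eq_zero_iff _ (algebraMap K F).injective]; exact ha0
  set v : F := (y₁ - algebraMap K F c) * algebraMap K F a with hvdef
  have hv0 : v ≠ 0 := mul_ne_zero hy'0 haF
  -- `a` lies in the maximal ideal
  have hainv : (algebraMap K F a)⁻¹ ∉ D.O := by
    intro h
    apply hnot
    have : y₁ - algebraMap K F c = v * (algebraMap K F a)⁻¹ := by
      rw [hvdef, mul_assoc, mul_inv_cancel₀ haF, mul_one]
    rw [this]; exact mul_mem hv h
  obtain ⟨haO, hard⟩ := RedData.inv_mem_of_not_mem hainv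
  rw [inv_inv] at haO hard
  have hrv : D.rd v ≠ 0 := RedData.rd_ne_zero_of_inv_mem hv0 hv hv'
  -- integrality of `v` on the first chart
  have hvi : IsInt K t v :=
    IsIntegral.mul (IsIntegral.sub hy₁ (Split_isInt_algebraMap t c)) (Split_isInt_algebraMap t a)
  -- the companion on the second chart
  set z : F := (y₂ + algebraMap K F c) * algebraMap K F a with hzdef
  have hzv : z = (y₁ + y₂) * algebraMap K F a - v := by rw [hzdef, hvdef]; ring
  have hzO : z ∈ D.O := by rw [hzv]; exact sub_mem (mul_mem hsum haO) hv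
  have hzrd : D.rd z = - D.rd v := by
    rw [hzv, RedData.rd_sub (mul_mem hsum haO) hv, RedData.rd_mul hsum haO, hard, mul_zero,
      zero_sub]
  have hzi : IsInt K t⁻¹ z :=
    IsIntegral.mul (IsIntegral.add hy₂ (Split_isInt_algebraMap t⁻¹ c))
      (Split_isInt_algebraMap t⁻¹ a)
  have hrt0 : D.rd t ≠ 0 := by
    intro h
    apply htr
    rw [h]
    exact ⟨X, X_ne_zero, by simp⟩
  have hI1 : IsInt k (D.rd t) (D.rd v) := all_IntRed K F k Fb D t hch v hv hvi
  have hI2 : IsInt k (D.rd t)⁻¹ (D.rd v) := by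
    have h := all_IntRed K F k Fb D t⁻¹ hch' z hzO hzi
    rw [RedData.rd_inv hrt0, hzrd] at h
    have h' := IsIntegral.neg h
    rwa [neg_neg] at h'
  -- the reduction of `v` is a constant
  have hfinb : FiniteDimensional k⟮D.rd t⟯ Fb := by
    apply Module.finite_of_finrank_pos
    rw [(all_Trace K F k Fb D t hch).1]
    exact Module.finrank_pos
  obtain ⟨cb, hcb⟩ := stmt_Const k Fb (D.rd t) (D.rd v) htr hfinb hI1 hI2
  have hcb0 : cb ≠ 0 := by
    rintro rfl
    rw [map_zero] at hcb
    exact hrv hcb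
  obtain ⟨c', hc'⟩ := D.rA_surj cb
  have hc'O : algebraMap K F (c' : K) ∈ D.O := RedData.algebraMap_mem c'.2
  have hc'rd : D.rd (algebraMap K F (c' : K)) = algebraMap k Fb cb := by
    rw [RedData.rd_algebraMap c'.2, RedData.ra_of_mem c'.2, ← hc']
  -- `w = v - c'`
  have hwO : v - algebraMap K F (c' : K) ∈ D.O := sub_mem hv hc'O
  have hwrd : D.rd (v - algebraMap K F (c' : K)) = 0 := by
    rw [RedData.rd_sub hv hc'O, hc'rd, hcb, sub_self]
  have hW : v - algebraMap K F (c' : K) =
      ∑ i, aeval t (C a * (Y i - C c * U i) - C (c' : K) * U i) * b i := by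
    have e1 : ∀ i, aeval t (C a * (Y i - C c * U i) - C (c' : K) * U i) * b i =
        algebraMap K F a * (aeval t (Y i) * b i) -
          (algebraMap K F a * algebraMap K F c + algebraMap K F (c' : K)) *
            (aeval t (U i) * b i) := by
      intro i
      simp only [map_sub, map_mul, aeval_C]
      ring
    simp only [e1]
    rw [Finset.sum_sub_distrib, ← Finset.mul_sum, ← Finset.mul_sum, ← hY, ← hU, hvdef]
    ring
  obtain ⟨QW, hQW, hrdW⟩ := P8_coord stmt_Gauss all_Ortho D t ht htr b hbO hbli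
    (fun i => C a * (Y i - C c * U i) - C (c' : K) * U i) (hW ▸ hwO)
  rw [← hW, hwrd] at hrdW
  have hzero := Split_coord_zero (D.rd t) htr _ hbli (fun i => (QW i).map D.rA) hrdW.symm i0
  have hcoef : D.rA ((QW i0).coeff j0) = 0 := by
    rw [← coeff_map, hzero, coeff_zero]
  have hval : (QW i0).coeff j0 = - (c' * u0) := by
    apply Subtype.ext
    have h1 : (((QW i0).coeff j0 : D.A) : K) = ((QW i0).map D.A.subtype).coeff j0 := by
      rw [coeff_map]; rfl
    rw [h1, hQW i0]
    simp only [coeff_sub, coeff_C_mul, hu0U]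
    have h2 : c * (u0 : K) = (Y i0).coeff j0 := by rw [hc, div_mul_cancel₀ _ hu00]
    rw [h2, sub_self, mul_zero, zero_sub]
    rfl
  rw [hval, map_neg, map_mul, hc', neg_eq_zero] at hcoef
  exact (mul_ne_zero hcb0 hj0) hcoef

end Fermat.Agent.MR.Lift
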