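import Fermat.Agent.MR.Lift.Interface
import Fermat.Agent.INJ.TameBranch
import Fermat.Agent.S24.Differential
import Fermat.Agent.S24.PlaceCases
import Fermat.Agent.S24.DegPrincipalCore
import Fermat.Agent.S24.PlacePrime

/-!
# MR / Lift, task LIFT-B3 : `β δ(B) ⊆ rad (β B)` in characteristic zero (`Stmt_TameDer`)
-/

set_option autoImplicit false

namespace Fermat.Agent.MR.Lift

open Polynomial IntermediateField AlgebraicCurve IsDedekindDomain KaehlerDifferential
open Fermat.Agent.INJ Fermat.Agent.S24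
open scoped IntermediateField.algebraAdjoinAdjoin

section Local

variable {K F M : Type*} [Field K] [CharZero K] [Field F] [Algebra K F] [Field M] [Algebra K M]

/-- chain rule: `δM (φ f) = φ (df/dt) δM (φ t)`. -/
theorem TameDer_chain (δM : Derivation K M M) (φ : F →ₐ[K] M) (t : F) [FiniteDimensional K⟮t⟯ F]
    (δ : Derivation K F F) (hδ : δ t = 1) (f : F) : δM (φ f) = φ (δ f) * δM (φ t) := by
  obtain ⟨L, hLs, hLD⟩ := S24.exists_lift_derivation δM φ
  have htop := S24.span_D_eq_top (K := K) t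
  obtain ⟨a, ha⟩ : ∃ a : F, a • D K F t = D K F f :=
    Submodule.mem_span_singleton.1 (htop ▸ Submodule.mem_top)
  have h1 : δ f = a := by
    have := congrArg δ.liftKaehlerDifferential ha
    rw [map_smul, Derivation.liftKaehlerDifferential_comp_D,
      Derivation.liftKaehlerDifferential_comp_D, hδ, smul_eq_mul, mul_one] at this
    exact this.symm
  rw [← hLD, ← ha, hLs, hLD, h1]

/-- the order of `dx/dt` at a zero of `x`. -/
theorem TameDer_ord (w : M → ℤ) (δM : Derivation K M M) (hw : S24.IsDiffVal w δM)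
    (v : Place K F) (φ : F →ₐ[K] M) (e : ℕ) (he : 0 < e)
    (hφ : ∀ f : F, f ≠ 0 → w (φ f) = e * v.ord f) (t : F) [FiniteDimensional K⟮t⟯ F]
    (δ : Derivation K F F) (hδ : δ t = 1) (c : K) (hc : 0 < v.ord (t - algebraMap K F c))
    (x : F) (hx : 0 < v.ord x) :
    δ x ≠ 0 ∧ v.ord (δ x) = v.ord x - v.ord (t - algebraMap K F c) := by
  have heZ : (e : ℤ) ≠ 0 := by exact_mod_cast he.ne'
  have hφ0 : ∀ f : F, f ≠ 0 → φ f ≠ 0 := fun f hf => (map_ne_zero φ.toRingHom).2 hf
  have hx0 : x ≠ 0 := by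
    rintro rfl
    simp at hx
  have hu0 : t - algebraMap K F c ≠ 0 := by
    intro h
    rw [h] at hc
    simp at hc
  have hδu : δ (t - algebraMap K F c) = 1 := by
    rw [map_sub, hδ, Derivation.map_algebraMap, sub_zero]
  have h1 := TameDer_chain δM φ t δ hδ x
  have h2 := TameDer_chain δM φ t δ hδ (t - algebraMap K F c)
  rw [hδu, map_one, one_mul] at h2
  have hwu : w (φ (t - algebraMap K F c)) ≠ 0 := by
    rw [hφ _ hu0]; exact mul_ne_zero heZ hc.ne'
  have hwx : w (φ x) ≠ 0 := by
    rw [hφ _ hx0]; exact mul_ne_zero heZ hx.ne'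
  have hδu0 := hw.deriv_ne_zero _ (hφ0 _ hu0) hwu
  have hδx0 := hw.deriv_ne_zero _ (hφ0 _ hx0) hwx
  have hwδu := hw.map_deriv _ (hφ0 _ hu0) hwu
  have hwδx := hw.map_deriv _ (hφ0 _ hx0) hwx
  rw [h2] at hδu0 hwδu
  have hz0 : δ x ≠ 0 := by
    intro h
    rw [h, map_zero, zero_mul] at h1
    exact hδx0 h1
  refine ⟨hz0, ?_⟩
  have h3 := congrArg w h1
  rw [hw.map_mul _ _ (hφ0 _ hz0) hδu0, hwδu, hwδx, hφ _ hz0, hφ _ hx0, hφ _ hu0] at h3
  have h4 : (e : ℤ) * v.ord (δ x) = e * (v.ord x - v.ord (t - algebraMap K F c)) := by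
    linarith
  exact mul_left_cancel₀ heZ h4

variable [IsAlgClosed K]

omit [CharZero K] in
/-- an element regular at `v` is a constant or congruent to a constant. -/
theorem TameDer_const (t : F) (ht : Transcendental K t) [FiniteDimensional K⟮t⟯ F]
    (v : Place K F) (x : F) (hx : x ∈ v.toValuationSubring) :
    ∃ c : K, x = algebraMap K F c ∨ 0 < v.ord (x - algebraMap K F c) := by
  by_cases hx' : Transcendental K x
  · have := finiteDimensional_adjoin_simple_of_transcendental t ht x hx'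
    obtain ⟨c, hc⟩ := exists_ord_sub_pos x hx' v hx
    exact ⟨c, Or.inr hc⟩
  · have halg : IsAlgebraic K x := by
      by_contra h
      exact hx' h
    have hint : IsIntegral K x := halg.isIntegral
    have hdeg := IsAlgClosed.degree_eq_one_of_irreducible K (minpoly.irreducible hint)
    obtain ⟨c, hc⟩ := minpoly.mem_range_of_degree_eq_one K _ hdeg
    exact ⟨c, Or.inl hc.symm⟩

/-- `ord_v (dx/dt) ≥ 1 - e_v` for `x` regular at `v`. -/
theorem TameDer_local (w : M → ℤ) (δM : Derivation K M M) (hw : S24.IsDiffVal w δM)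
    (v : Place K F) (φ : F →ₐ[K] M) (e : ℕ) (he : 0 < e)
    (hφ : ∀ f : F, f ≠ 0 → w (φ f) = e * v.ord f) (t : F) (ht : Transcendental K t)
    [FiniteDimensional K⟮t⟯ F]
    (δ : Derivation K F F) (hδ : δ t = 1) (c : K) (hc : 0 < v.ord (t - algebraMap K F c))
    (x : F) (hx : x ∈ v.toValuationSubring) :
    δ x = 0 ∨ 1 - v.ord (t - algebraMap K F c) ≤ v.ord (δ x) := by
  obtain ⟨cx, h | h⟩ := TameDer_const t ht v x hx
  · left
    rw [h, Derivation.map_algebraMap]
  · right
    obtain ⟨-, h2⟩ := TameDer_ord w δM hw v φ e he hφ t δ hδ c hc _ h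
    rw [map_sub, Derivation.map_algebraMap, sub_zero] at h2
    rw [h2]
    omega

end Local

section Global

variable {K F : Type*} [Field K] [IsAlgClosed K] [CharZero K] [Field F] [Algebra K F]

/-- from local orders to `z β ∈ rad (β B)`. -/
theorem TameDer_glob {t : F} (ht : Transcendental K t) [FiniteDimensional K⟮t⟯ F] (S : Finset K)
    (z : F)
    (h1 : ∀ (v : Place K F) (c : K), 0 < v.ord (t - algebraMap K F c) → c ∈ S →
      1 - v.ord (t - algebraMap K F c) ≤ v.ord z)
    (h2 : ∀ (v : Place K F) (c : K), 0 < v.ord (t - algebraMap K F c) → c ∉ S → 0 ≤ v.ord z) :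
    ∃ m : ℕ, 0 < m ∧ IsInt K t ((z * beta t S) ^ m / beta t S) := by
  classical
  by_cases hz : z = 0
  · refine ⟨1, one_pos, ?_⟩
    rw [hz, zero_mul, pow_one, zero_div]
    exact isIntegral_zero
  have hDB := intRing_isDedekindDomain ht
  have hFB := intRing_isFractionRing (K := K) t
  have hKT : IsScalarTower K (intRing K t) F := IsScalarTower.of_algebraMap_eq fun _ => rfl
  have hβ0 : beta t S ≠ 0 := by
    rw [← Tame.coe_betaPoly]
    exact fun h => Tame.betaPoly_ne_zero ht S (Subtype.ext h)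
  have hw0 : z * beta t S ≠ 0 := mul_ne_zero hz hβ0
  have ht0 : t ≠ 0 := fun h => ht (h ▸ isAlgebraic_zero)
  -- the linear factors, in `B`
  let lin : K → intRing K t := fun c =>
    algebraMap (polyRing K t) (intRing K t) (Tame.linPoly t c)
  have hlin : ∀ c, algebraMap (intRing K t) F (lin c) = t - algebraMap K F c := fun c => rfl
  have hu0 : ∀ c : K, t - algebraMap K F c ≠ 0 := fun c h0 =>
    ht ((sub_eq_zero.1 h0) ▸ isAlgebraic_algebraMap c)
  have hlin0 : ∀ c, lin c ≠ 0 := by
    intro c h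
    apply hu0 c
    rw [← hlin, h, map_zero]
  let βB : intRing K t := ∏ c ∈ S, lin c
  have hβB : algebraMap (intRing K t) F βB = beta t S := by
    simp only [βB, map_prod, hlin]
    rfl
  have hβB0 : βB ≠ 0 := by
    intro h
    apply hβ0
    rw [← hβB, h, map_zero]
  have key1 : ∀ (P : HeightOneSpectrum (intRing K t)) (c : K), c ∈ S →
      0 < (Place.ofHeightOneSpectrum (K := K) P).ord (t - algebraMap K F c) →
      0 < (Place.ofHeightOneSpectrum (K := K) P).ord (z * beta t S) := by
    intro P c hcS hc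
    have hsplit : beta t S = (t - algebraMap K F c) *
        algebraMap (intRing K t) F (∏ c' ∈ S.erase c, lin c') := by
      rw [← hβB, ← hlin, ← map_mul, Finset.mul_prod_erase S lin hcS]
    have hβ'0 : algebraMap (intRing K t) F (∏ c' ∈ S.erase c, lin c') ≠ 0 := by
      intro h
      rw [hsplit, h, mul_zero] at hβ0
      exact hβ0 rfl
    rw [hsplit, Place.ord_mul _ hz (mul_ne_zero (hu0 c) hβ'0), Place.ord_mul _ (hu0 c) hβ'0]
    have e1 := h1 _ c hc hcS
    have e2 := ord_algebraMap_nonneg (K := K) (F := F) P (∏ c' ∈ S.erase c, lin c')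
    omega
  have key2 : ∀ P : HeightOneSpectrum (intRing K t),
      0 ≤ (Place.ofHeightOneSpectrum (K := K) P).ord (z * beta t S) := by
    intro P
    have htv : t ∈ (Place.ofHeightOneSpectrum (K := K) P).toValuationSubring := by
      refine mem_of_ord_nonneg _ ht0 ?_
      exact ord_algebraMap_nonneg (K := K) (F := F) P
        (algebraMap (polyRing K t) (intRing K t) (xPoly K t))
    obtain ⟨c, hc⟩ := exists_ord_sub_pos t ht _ htv
    by_cases hcS : c ∈ S
    · exact (key1 P c hcS hc).le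
    · rw [Place.ord_mul _ hz hβ0]
      have e1 := h2 _ c hc hcS
      have e2 := ord_algebraMap_nonneg (K := K) (F := F) P βB
      rw [hβB] at e2
      omega
  obtain ⟨b, hb⟩ := HeightOneSpectrum.mem_integers_of_valuation_le_one F _
    (fun P => (ord_ofHeightOneSpectrum_nonneg_iff (K := K) P _ hw0).1 (key2 P))
  have hb0 : b ≠ 0 := by
    rintro rfl
    rw [map_zero] at hb
    exact hw0 hb.symm
  have hrad : b ∈ (Ideal.span {βB}).radical := by
    rw [Ideal.radical_eq_sInf, Ideal.mem_sInf]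
    rintro J ⟨hJ1, hJ2⟩
    have hβJ : βB ∈ J := hJ1 (Ideal.mem_span_singleton_self _)
    have hJ0 : J ≠ ⊥ := by
      intro h
      rw [h, Ideal.mem_bot] at hβJ
      exact hβB0 hβJ
    obtain ⟨c, hcS, hcJ⟩ := (hJ2.prod_mem_iff).1 hβJ
    have hc : 0 < (Place.ofHeightOneSpectrum (K := K)
        (⟨J, hJ2, hJ0⟩ : HeightOneSpectrum (intRing K t))).ord (t - algebraMap K F c) :=
      (ord_algebraMap_pos_iff (K := K) (F := F)
        (⟨J, hJ2, hJ0⟩ : HeightOneSpectrum (intRing K t)) (lin c) (hlin0 c)).2 hcJ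
    have h3 := key1 _ c hcS hc
    rw [← hb] at h3
    exact (ord_algebraMap_pos_iff (K := K) (F := F)
      (⟨J, hJ2, hJ0⟩ : HeightOneSpectrum (intRing K t)) b hb0).1 h3
  obtain ⟨n, hn⟩ := hrad
  have hn' : b ^ (n + 1) ∈ Ideal.span {βB} := by
    rw [pow_succ]
    exact Ideal.mul_mem_right _ _ hn
  obtain ⟨b', hb'⟩ := Ideal.mem_span_singleton'.1 hn'
  refine ⟨n + 1, Nat.succ_pos n, ?_⟩
  have h4 : (z * beta t S) ^ (n + 1) / beta t S = algebraMap (intRing K t) F b' := by
    rw [← hb, ← map_pow, ← hb', map_mul, hβB, mul_div_cancel_right₀ _ hβ0]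
  rw [h4]
  exact b'.2

end Global

/-- **(B3)** -/
theorem stmt_TameDer : Stmt_TameDer := by
  intro K F M _ _ _ _ _ _ _ w δM hw hunif t ht hfd δ hδ S hunr x hx
  have hreg : ∀ (v : Place K F) (c : K), 0 < v.ord (t - algebraMap K F c) →
      x ∈ v.toValuationSubring := by
    intro v c hc
    have htv : t ∈ v.toValuationSubring := by
      have h0 : t - algebraMap K F c ≠ 0 := by
        intro h0
        rw [h0, Place.ord_zero] at hc
        exact lt_irrefl _ hc
      have h1 := mem_of_ord_nonneg v h0 hc.le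
      have h2 := add_mem h1 (v.algebraMap_mem' c)
      rwa [sub_add_cancel] at h2
    exact intRing_le_valuationSubring v htv ⟨x, hx⟩
  have hloc : ∀ (v : Place K F) (c : K), 0 < v.ord (t - algebraMap K F c) →
      δ x = 0 ∨ 1 - v.ord (t - algebraMap K F c) ≤ v.ord (δ x) := by
    intro v c hc
    obtain ⟨φ, e, he, hφ⟩ := hunif v
    exact TameDer_local w δM hw v φ e he hφ t ht δ hδ c hc x (hreg v c hc)
  refine TameDer_glob ht S (δ x) ?_ ?_
  · intro v c hc _
    rcases hloc v c hc with h | h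
    · rw [h, Place.ord_zero]
      omega
    · exact h
  · intro v c hc hcS
    rcases hloc v c hc with h | h
    · rw [h, Place.ord_zero]
    · rw [hunr v c hcS hc] at h
      omega

end Fermat.Agent.MR.Lift
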