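import Fermat.Agent.MR.Lift.InstInterface
import Fermat.Agent.INJ.Inst.BranchT
import Fermat.Agent.INJ.Inst.RamJ
import Fermat.Agent.S24.ExistsIndex

/-!
# MR / Lift : (I3) uniformisation of all places of `FF N`, (I4) tameness of `d/dj`, `d/d(j⁻¹)`
-/

set_option autoImplicit false
set_option synthInstance.maxHeartbeats 400000

noncomputable section

namespace Fermat.Agent.MR.Lift

open Polynomial IntermediateField AlgebraicCurve ModularCurve
open Fermat.Agent.INJ Fermat.Agent.INJ.Inst
open Fermat.Agent.S24 (Qbar FF jF MerGerm Cosets)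

/-- (I3) -/
theorem stmt_UnifFF : Stmt_UnifFF := by
  intro N _ v
  obtain ⟨hfd, hn⟩ := Fermat.Agent.S24.finrank_FF_le N
  let _ := Fintype.ofFinite (Cosets N)
  rw [Nat.card_eq_fintype_card] at hn
  have hj : Transcendental Qbar (jF N) := Fermat.Agent.S24.DegBd.transcendental_jF N
  rcases Fermat.Agent.S24.place_cases (jF N) hj v with ⟨hP, -⟩ | ⟨-, c, hP, -⟩
  · obtain ⟨U⟩ := Fermat.Agent.S24.localUnif_infty N
    have hfdinv : FiniteDimensional Qbar⟮(jF N)⁻¹⟯ (FF N) := by
      rw [Fermat.Agent.S24.rh_adjoin_inv_eq]; infer_instance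
    have hninv : Module.finrank Qbar⟮(jF N)⁻¹⟯ (FF N) ≤ Fintype.card (Cosets N) := by
      rw [Fermat.Agent.S24.rh_adjoin_inv_eq]; exact hn
    obtain ⟨i, m, hm, hφ⟩ := Fermat.Agent.S24.exists_index_of_mem_zeroPlaces MerGerm.ord
      MerGerm.deriv MerGerm.isDiffVal (jF N)⁻¹ (Cosets N) hninv _ U v hP
    exact ⟨U.φ i, m, hm, hφ⟩
  · obtain ⟨U⟩ := Fermat.Agent.S24.localUnif_finite N c
    have hfdc : FiniteDimensional Qbar⟮jF N - algebraMap Qbar (FF N) c⟯ (FF N) := by
      rw [Fermat.Agent.S24.rh_adjoin_sub_algebraMap_eq]; infer_instance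
    have hnc : Module.finrank Qbar⟮jF N - algebraMap Qbar (FF N) c⟯ (FF N)
        ≤ Fintype.card (Cosets N) := by
      rw [Fermat.Agent.S24.rh_adjoin_sub_algebraMap_eq]; exact hn
    obtain ⟨i, m, hm, hφ⟩ := Fermat.Agent.S24.exists_index_of_mem_zeroPlaces MerGerm.ord
      MerGerm.deriv MerGerm.isDiffVal (jF N - algebraMap Qbar (FF N) c) (Cosets N) hnc _ U v hP
    exact ⟨U.φ i, m, hm, hφ⟩

/-- abstract form of the two tameness conditions. -/
theorem TameJ_aux (hT : Stmt_TameDer) {K F k Fb M : Type} [Field K] [IsAlgClosed K] [CharZero K]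
    [Field F] [Algebra K F] [Field k] [Field Fb] [Algebra k Fb] [Field M] [Algebra K M]
    (w : M → ℤ) (δM : Derivation K M M) (hw : S24.IsDiffVal w δM)
    (hU : ∀ v : Place K F, ∃ (φ : F →ₐ[K] M) (e : ℕ), 0 < e ∧
      ∀ f : F, f ≠ 0 → w (φ f) = e * v.ord f)
    (D : RedData K F k Fb) {t : F} (ht : Transcendental K t)
    [FiniteDimensional K⟮t⟯ F] (a : K) (ha : a ∈ D.A) (hai : a⁻¹ ∈ D.A)
    (h : ∀ (v : Place K F) (c : K), c ≠ 0 → c ≠ a → 0 < v.ord (t - algebraMap K F c) →
      v.ord (t - algebraMap K F c) = 1) (δ : Derivation K F F) (hδ : δ t = 1) :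
    TameAt D t δ ∧ TameAt D t⁻¹ ((-t ^ 2) • δ) := by
  classical
  have ht0 : t ≠ 0 := S24.rh_ne_zero_of_transcendental ht
  constructor
  · refine ⟨{0, a}, ?_, ?_, hT K F M w δM hw hU t ht inferInstance δ hδ {0, a} ?_⟩
    · intro c hc
      simp only [Finset.mem_insert, Finset.mem_singleton] at hc
      rcases hc with rfl | rfl
      · exact D.A.zero_mem
      · exact ha
    · intro c hc c' hc' hne
      simp only [Finset.mem_insert, Finset.mem_singleton] at hc hc'
      rcases hc with rfl | rfl <;> rcases hc' with rfl | rfl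
      · exact absurd rfl hne
      · rw [zero_sub, inv_neg]; exact neg_mem hai
      · rw [sub_zero]; exact hai
      · exact absurd rfl hne
    · intro v c hc
      simp only [Finset.mem_insert, Finset.mem_singleton, not_or] at hc
      exact h v c hc.1 hc.2
  · have hfd : FiniteDimensional K⟮t⁻¹⟯ F := S24.placeCases_finiteDimensional_adjoin_inv t
    have hδ' : ((-t ^ 2) • δ) t⁻¹ = 1 := by
      rw [Derivation.smul_apply, Derivation.leibniz_inv, hδ, smul_eq_mul, smul_eq_mul]
      field_simp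
    refine ⟨{0, a⁻¹}, ?_, ?_, hT K F M w δM hw hU t⁻¹ (S24.placeCases_transcendental_inv ht) hfd
      _ hδ' {0, a⁻¹} ?_⟩
    · intro c hc
      simp only [Finset.mem_insert, Finset.mem_singleton] at hc
      rcases hc with rfl | rfl
      · exact D.A.zero_mem
      · exact hai
    · intro c hc c' hc' hne
      simp only [Finset.mem_insert, Finset.mem_singleton] at hc hc'
      rcases hc with rfl | rfl <;> rcases hc' with rfl | rfl
      · exact absurd rfl hne
      · rw [zero_sub, inv_neg, inv_inv]; exact neg_mem ha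
      · rw [sub_zero, inv_inv]; exact ha
      · exact absurd rfl hne
    · intro v c hc
      simp only [Finset.mem_insert, Finset.mem_singleton, not_or] at hc
      exact BR_inv ht a h v c hc.1 hc.2

/-- (I4) -/
theorem stmt_TameJ (hT : Stmt_TameDer) : Stmt_TameJ := by
  intro N _ p hp hp5 A hA L D hD δ hδ
  have hj : Transcendental Qb (jF N) := Fermat.Agent.S24.DegBd.transcendental_jF N
  have hfd : FiniteDimensional Qb⟮jF N⟯ (FL N) := (Fermat.Agent.S24.finrank_FF_le N).1
  have hJ : JRam (K := Qb) (jF N) := stmt_RamJ stmt_RamUnif N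
  have hn : ¬ p ∣ 1728 := by
    intro h
    have h1 : p ∣ 2 ^ 6 * 3 ^ 3 := by norm_num; exact h
    rcases (Nat.Prime.dvd_mul hp.out).1 h1 with h2 | h2
    · have := Nat.le_of_dvd (by norm_num) (hp.out.dvd_of_dvd_pow h2)
      omega
    · have := Nat.le_of_dvd (by norm_num) (hp.out.dvd_of_dvd_pow h2)
      omega
  refine TameJ_aux hT MerGerm.ord MerGerm.deriv MerGerm.isDiffVal (stmt_UnifFF N) D hj 1728 ?_ ?_
    (fun v c h0 h1 hv => (hJ c v hv).2.2 h0 h1) δ hδ
  · rw [hD.hA]; exact_mod_cast natCast_mem A 1728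
  · rw [hD.hA]; exact_mod_cast BR_inv_mem hp.out hA 1728 hn

end Fermat.Agent.MR.Lift

end
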