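import Fermat.Agent.INJ.P16

/-!
# MR / Lift, task LIFT-I5, abstract part (helper99)

`Θ` a derivation of a field `M`, `ι : L → M` a subfield, separable algebraic over `E`, and
`Θ (E) ⊆ u · L`.  Then `Θ (L) ⊆ u · L`, and `u⁻¹ Θ` restricts to a derivation of `L`.
-/

set_option autoImplicit false

namespace Fermat.Agent.MR.Lift

open Polynomial Fermat.Agent.INJ

section

variable {k E L M : Type} [Field k] [Field E] [Field L] [Field M] [Algebra k L] [Algebra k M]
  [Algebra E L] (ι : L →ₐ[k] M) (Θ : Derivation k M M) (u : M)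

/-- `Θ (p(x)) = u w + p'(x) Θ x`. -/
theorem ThetaDer_poly (hE : ∀ c : E, ∃ y : L, Θ (ι (algebraMap E L c)) = u * ι y) (x : L)
    (p : E[X]) :
    ∃ w : L, Θ (ι (aeval x p)) = u * ι w + ι (aeval x (derivative p)) * Θ (ι x) := by
  induction p using Polynomial.induction_on' with
  | add p q hp hq =>
    obtain ⟨w₁, h₁⟩ := hp
    obtain ⟨w₂, h₂⟩ := hq
    refine ⟨w₁ + w₂, ?_⟩
    rw [map_add, map_add, map_add, h₁, h₂, derivative_add, map_add, map_add, map_add]
    ring
  | monomial n c =>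
    obtain ⟨y, hy⟩ := hE c
    refine ⟨y * x ^ n, ?_⟩
    rw [aeval_monomial, map_mul, Derivation.leibniz, hy, map_pow, Derivation.leibniz_pow,
      derivative_monomial, aeval_monomial]
    simp only [map_mul, map_pow, map_natCast, smul_eq_mul, nsmul_eq_mul]
    ring

/-- `Θ (L) ⊆ u · L`. -/
theorem ThetaDer_mem [Algebra.IsSeparable E L]
    (hE : ∀ c : E, ∃ y : L, Θ (ι (algebraMap E L c)) = u * ι y) (x : L) :
    ∃ y : L, Θ (ι x) = u * ι y := by
  obtain ⟨w, hw⟩ := ThetaDer_poly ι Θ u hE x (minpoly E x)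
  have hsep : (minpoly E x).Separable := Algebra.IsSeparable.isSeparable E x
  have hne : aeval x (derivative (minpoly E x)) ≠ 0 :=
    hsep.aeval_derivative_ne_zero (minpoly.aeval E x)
  rw [minpoly.aeval, map_zero, map_zero] at hw
  set d : L := aeval x (derivative (minpoly E x)) with hd
  have hd' : ι d ≠ 0 := (map_ne_zero ι).2 hne
  refine ⟨-w / d, ?_⟩
  rw [map_div₀, map_neg]
  field_simp
  linear_combination -hw

end

/-- the restricted derivation. -/
theorem ThetaDer_exists {k L M : Type} [Field k] [Field L] [Field M] [Algebra k L] [Algebra k M]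
    (ι : L →ₐ[k] M) (Θ : Derivation k M M) (u : M) (hu : u ≠ 0)
    (h : ∀ x : L, ∃ y : L, Θ (ι x) = u * ι y) :
    ∃ δ : Derivation k L L, ∀ x : L, Θ (ι x) = u * ι (δ x) := by
  choose f hf using h
  have hinj : Function.Injective ι := ι.toRingHom.injective
  have key : ∀ a b : L, u * ι a = u * ι b → a = b := fun a b hab =>
    hinj (mul_left_cancel₀ hu hab)
  refine ⟨P16_mkDer f ?_ ?_ ?_, fun x => by rw [P16_mkDer_apply]; exact hf x⟩
  · intro a b
    apply key
    rw [← hf, map_add, map_add, hf, hf, map_add]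
    ring
  · intro a b
    apply key
    rw [← hf, map_mul, Derivation.leibniz, hf, hf, map_add, map_mul, map_mul]
    simp only [smul_eq_mul]
    ring
  · intro c
    apply key
    rw [← hf, AlgHom.commutes, Derivation.map_algebraMap, map_zero, mul_zero]

/-- the case of `k(t)`. -/
theorem ThetaDer_adjoin {k L M : Type} [Field k] [Field L] [Field M] [Algebra k L] [Algebra k M]
    (ι : L →ₐ[k] M) (Θ : Derivation k M M) (t c : L)
    (hc : c ∈ IntermediateField.adjoin k ({t} : Set L)) :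
    ∃ y : L, Θ (ι c) = Θ (ι t) * ι y := by
  induction hc using IntermediateField.adjoin_induction with
  | mem x hx =>
    rw [Set.mem_singleton_iff] at hx
    subst hx
    exact ⟨1, by rw [map_one, mul_one]⟩
  | algebraMap a =>
    exact ⟨0, by rw [AlgHom.commutes, Derivation.map_algebraMap, map_zero, mul_zero]⟩
  | add a b _ _ ha hb =>
    obtain ⟨y₁, h₁⟩ := ha
    obtain ⟨y₂, h₂⟩ := hb
    exact ⟨y₁ + y₂, by rw [map_add, map_add, h₁, h₂, map_add]; ring⟩
  | inv a _ ha =>
    obtain ⟨y, h⟩ := ha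
    refine ⟨-a⁻¹ ^ 2 * y, ?_⟩
    rw [map_inv₀, Derivation.leibniz_inv, h]
    simp only [map_mul, map_neg, map_pow, map_inv₀, smul_eq_mul]
    ring
  | mul a b _ _ ha hb =>
    obtain ⟨y₁, h₁⟩ := ha
    obtain ⟨y₂, h₂⟩ := hb
    refine ⟨a * y₂ + b * y₁, ?_⟩
    rw [map_mul, Derivation.leibniz, h₁, h₂]
    simp only [map_mul, map_add, smul_eq_mul]
    ring

open IntermediateField in
/-- **the abstract form of `Stmt_ThetaDer`.** -/
theorem ThetaDer_abs {k L M : Type} [Field k] [Field L] [Field M] [Algebra k L] [Algebra k M]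
    (ι : L →ₐ[k] M) (Θ : Derivation k M M) (t : L) (ht : Θ (ι t) ≠ 0)
    [Algebra.IsSeparable k⟮t⟯ L] :
    ∃ δ : Derivation k L L, δ t = 1 ∧ ∀ x : L, Θ (ι x) = Θ (ι t) * ι (δ x) := by
  have hE : ∀ c : k⟮t⟯, ∃ y : L, Θ (ι (algebraMap k⟮t⟯ L c)) = Θ (ι t) * ι y :=
    fun c => ThetaDer_adjoin ι Θ t c c.2
  obtain ⟨δ, hδ⟩ := ThetaDer_exists ι Θ (Θ (ι t)) ht (ThetaDer_mem ι Θ (Θ (ι t)) hE)
  refine ⟨δ, ?_, hδ⟩
  have h1 := hδ t
  have h2 : ι (δ t) = ι 1 := by
    rw [map_one]
    exact (mul_left_cancel₀ ht (by rw [mul_one]; exact h1)).symm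
  exact ι.toRingHom.injective h2

end Fermat.Agent.MR.Lift
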