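import Fermat.Agent.MR.Lift.InstInterface
import Fermat.Agent.MR.Lift.ThetaDerAbs

/-!
# MR / Lift, task LIFT-I5 : `θ / θ t` is the derivation `d/dt` on a subfield of `R((q))` (helper99)
-/

set_option autoImplicit false
set_option synthInstance.maxHeartbeats 400000

namespace Fermat.Agent.MR.Lift

open Fermat.Agent.INJ

theorem stmt_ThetaDer : Stmt_ThetaDer := by
  intro R _ L t ht hsep
  exact ThetaDer_abs L.val
    (P16_mkDer P16_thetaFun P16_thetaFun_add P16_thetaFun_mul P16_thetaFun_algebraMap) t ht

end Fermat.Agent.MR.Lift
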