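import Fermat.Agent.MR.Lift.Top
import Fermat.Agent.MR.Lift.Res
import Fermat.Agent.MR.Lift.DualOrtho
import Fermat.Agent.MR.Lift.Split
import Fermat.Agent.MR.Lift.FunLift
import Fermat.Agent.MR.Lift.LamLift
import Fermat.Agent.MR.Lift.HolOfLam
import Fermat.Agent.MR.Lift.HolLift
import Fermat.Agent.MR.Lift.RadDual
import Fermat.Agent.MR.Lift.DerRed
import Fermat.Agent.MR.Lift.TameDer
import Fermat.Agent.MR.Lift.DerDual
import Fermat.Agent.MR.Lift.DLog
import Fermat.Agent.MR.Lift.KerDer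
import Fermat.Agent.MR.Lift.ChartJ
import Fermat.Agent.MR.Lift.TameJ
import Fermat.Agent.MR.Lift.ThetaDer
import Fermat.Agent.MR.Lift.BddInt
import Fermat.Agent.MR.Lift.CuspBdd
import Fermat.Agent.MR.Lift.BridgeA
import Fermat.Agent.MR.Lift.ANOrd

/-!
# MR / LIFT : everything except the analytic leaf `Stmt_ANform`

`all_LIFTCong_of_AN : Stmt_AN → Stmt_LIFTCong`.
-/

set_option synthInstance.maxHeartbeats 400000

namespace Fermat.Agent.MR.Lift

theorem all_HolLift : Stmt_HolLift :=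
  stmt_HolLift stmt_Res stmt_DualOrtho (stmt_LamLift stmt_Split stmt_FunLift) stmt_HolOfLam
    stmt_LamOfHol

theorem all_DerDual : Stmt_DerDual := stmt_DerDual stmt_RadDual stmt_DerRed

theorem all_DLogHol : Stmt_DLogHol := stmt_DLogHol all_DerDual

theorem all_TameJ : Stmt_TameJ := stmt_TameJ stmt_TameDer

theorem all_LIFT0 : Stmt_LIFT0 := stmt_LIFT0 stmt_ChartJ stmt_ThetaDer stmt_KerDer

theorem all_LIFT_of_AN (hAN : Stmt_AN) : Stmt_LIFT :=
  stmt_LIFT stmt_ChartJ stmt_BranchJ stmt_ThetaDer all_TameJ all_DLogHol all_HolLift hAN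
    stmt_CuspBdd stmt_BddInt

theorem all_LIFTCong_of_AN (hAN : Stmt_AN) : Stmt_LIFTCong :=
  stmt_LIFTCong (all_LIFT_of_AN hAN) all_LIFT0 stmt_BridgeA

end Fermat.Agent.MR.Lift
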