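import Fermat.Agent.MR.Lift.InstInterface
import Fermat.Agent.ES.Mid.HF1

/-!
# MR / Lift : (H1) `dlog` intertwines `formalN` and `T_ℓ`
-/

set_option autoImplicit false
set_option synthInstance.maxHeartbeats 400000

noncomputable section

namespace Fermat.Agent.MR.Lift

open ModularCurve Fermat.Agent.INJ
open Fermat.Agent.ES.Mid (tw twProd compress formalN tw_coeff compress_coeff)

variable {R : Type} [Field R]

theorem DlogN_th_coeff (x : LaurentSeries R) (n : ℤ) : (th x).coeff n = (n : R) * x.coeff n := rfl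

theorem DlogN_th_mul (x y : LaurentSeries R) : th (x * y) = x * th y + y * th x :=
  P16_thetaFun_mul x y

theorem DlogN_th_one : th (1 : LaurentSeries R) = 0 := by
  ext n
  rw [DlogN_th_coeff, HahnSeries.coeff_one, HahnSeries.coeff_zero]
  split_ifs with h
  · rw [h]; simp
  · simp

theorem DlogN_qExpand_coeff (ℓ : ℕ) [NeZero ℓ] (x : LaurentSeries R) (n : ℤ) :
    (qExpand R ℓ x).coeff n = if (ℓ : ℤ) ∣ n then x.coeff (n / ℓ) else 0 := by
  split_ifs with h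
  · obtain ⟨m, rfl⟩ := h
    rw [qExpand_coeff_mul, Int.mul_ediv_cancel_left _ (by exact_mod_cast NeZero.ne ℓ)]
  · exact qExpand_coeff_of_not_dvd ℓ x h

theorem DlogN_th_qExpand (ℓ : ℕ) [NeZero ℓ] (x : LaurentSeries R) :
    th (qExpand R ℓ x) = HahnSeries.C (ℓ : R) * qExpand R ℓ (th x) := by
  ext n
  rw [HahnSeries.C_mul_eq_smul, DlogN_th_coeff, HahnSeries.coeff_smul, DlogN_qExpand_coeff, DlogN_qExpand_coeff]
  split_ifs with h
  · obtain ⟨m, rfl⟩ := h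
    rw [Int.mul_ediv_cancel_left _ (by exact_mod_cast NeZero.ne ℓ), DlogN_th_coeff, smul_eq_mul]
    push_cast
    ring
  · simp

theorem DlogN_th_tw (z : Rˣ) (x : LaurentSeries R) : th (tw z x) = tw z (th x) := by
  ext n
  rw [DlogN_th_coeff, tw_coeff, tw_coeff, DlogN_th_coeff]
  ring

theorem DlogN_th_prod {ι : Type*} (s : Finset ι) (f g : ι → LaurentSeries R)
    (h : ∀ j ∈ s, th (f j) = g j * f j) :
    th (∏ j ∈ s, f j) = (∑ j ∈ s, g j) * ∏ j ∈ s, f j := by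
  classical
  induction s using Finset.induction_on with
  | empty => simp [DlogN_th_one]
  | insert a s ha ih =>
    rw [Finset.prod_insert ha, Finset.sum_insert ha, DlogN_th_mul,
      ih (fun j hj => h j (Finset.mem_insert_of_mem hj)), h a (Finset.mem_insert_self a s)]
    ring

theorem DlogN_sum_tw {ℓ : ℕ} [NeZero ℓ] {ζ : Rˣ} (hζ : IsPrimitiveRoot ζ ℓ)
    (y : LaurentSeries R) :
    ∑ j ∈ Finset.range ℓ, tw (ζ ^ j) y = HahnSeries.C (ℓ : R) * qExpand R ℓ (compress ℓ y) := by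
  ext n
  rw [HahnSeries.C_mul_eq_smul, HahnSeries.coeff_sum, HahnSeries.coeff_smul, DlogN_qExpand_coeff]
  simp only [tw_coeff]
  rw [← Finset.sum_mul]
  have e : ∀ j : ℕ, (((ζ ^ j) ^ n : Rˣ) : R) = ((ζ ^ n : Rˣ) : R) ^ j := by
    intro j
    rw [← Units.val_pow_eq_pow_val]
    congr 1
    rw [← zpow_natCast, ← zpow_mul, ← zpow_natCast, ← zpow_mul, mul_comm]
  simp only [e]
  split_ifs with h
  · have h1 : (ζ ^ n : Rˣ) = 1 := (hζ.zpow_eq_one_iff_dvd n).2 h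
    obtain ⟨m, rfl⟩ := h
    rw [h1, Int.mul_ediv_cancel_left _ (by exact_mod_cast NeZero.ne ℓ), compress_coeff]
    simp
  · have hne : (ζ ^ n : Rˣ) ≠ 1 := fun h1 => h ((hζ.zpow_eq_one_iff_dvd n).1 h1)
    have h2 := mul_geom_sum ((ζ ^ n : Rˣ) : R) ℓ
    have h3 : ((ζ ^ n : Rˣ) : R) ^ ℓ = 1 := by
      rw [← Units.val_pow_eq_pow_val, ← zpow_natCast, ← zpow_mul, mul_comm, zpow_mul, zpow_natCast,
        hζ.pow_eq_one, one_zpow, Units.val_one]
    rw [h3, sub_self] at h2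
    have h4 : ∑ j ∈ Finset.range ℓ, ((ζ ^ n : Rˣ) : R) ^ j = 0 :=
      (mul_eq_zero.1 h2).resolve_left (sub_ne_zero.2 fun h => hne (Units.ext h))
    rw [h4, zero_mul, smul_zero]

/-- **(H1)** -/
theorem stmt_DlogN : Stmt_DlogN := by
  intro R _ ℓ _ ζ hζ x y Y hx hy hY n
  have hζ' : IsPrimitiveRoot (ζ : R) ℓ := IsPrimitiveRoot.coe_units_iff.2 hζ
  have hℓR : (ℓ : R) ≠ 0 := (hζ'.neZero').out
  have hC0 : (HahnSeries.C (ℓ : R) : LaurentSeries R) ≠ 0 :=
    (map_ne_zero (HahnSeries.C : R →+* LaurentSeries R)).2 hℓR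
  have hVC : qExpand R ℓ (compress ℓ (twProd ℓ ζ x)) = twProd ℓ ζ x :=
    ES.Mid.HF1.hf_expand R ℓ ζ hζ x
  have hZ : th (twProd ℓ ζ x) = (∑ j ∈ Finset.range ℓ, tw (ζ ^ j) y) * twProd ℓ ζ x := by
    apply DlogN_th_prod
    intro j _
    rw [DlogN_th_tw, ← hy, ES.Mid.HF1.tw_mul]
  rw [DlogN_sum_tw hζ] at hZ
  have hC : th (compress ℓ (twProd ℓ ζ x)) = compress ℓ y * compress ℓ (twProd ℓ ζ x) := by
    apply (qExpand R ℓ).injective
    apply mul_left_cancel₀ hC0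
    rw [← DlogN_th_qExpand, hVC, hZ, map_mul, hVC, mul_assoc]
  have hN : th (formalN ℓ ζ x)
      = (compress ℓ y + HahnSeries.C (ℓ : R) * qExpand R ℓ y) * formalN ℓ ζ x := by
    show th (qExpand R ℓ x * compress ℓ (twProd ℓ ζ x))
      = _ * (qExpand R ℓ x * compress ℓ (twProd ℓ ζ x))
    rw [DlogN_th_mul, hC, DlogN_th_qExpand, ← hy, map_mul]
    ring
  have hN0 : formalN ℓ ζ x ≠ 0 := by
    obtain ⟨h1, h2⟩ := ES.Mid.HF1.hf_mul R ℓ ζ hζ
    intro h0
    have h3 := h2 x x⁻¹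
    rw [mul_inv_cancel₀ hx, h1, h0, zero_mul] at h3
    exact one_ne_zero h3
  have hYeq : Y = compress ℓ y + HahnSeries.C (ℓ : R) * qExpand R ℓ y :=
    mul_right_cancel₀ hN0 (hY.trans hN)
  rw [hYeq, HahnSeries.coeff_add, compress_coeff, HahnSeries.C_mul_eq_smul, HahnSeries.coeff_smul,
    DlogN_qExpand_coeff]
  split_ifs <;> simp

end Fermat.Agent.MR.Lift

end

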