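import Fermat.Agent.MR.Lift.SkelInterface
import Fermat.Agent.MR.Lift.DlogN
import Fermat.Agent.ORD.Dep.GOApi
import Fermat.Agent.ORD.Dep.LemmaDp
import Fermat.Agent.ES.Mid.HF3

/-!
# MR / Lift, task LIFT-S4 (helper40; architect helper66)

`stmt_HeckeRed : Stmt_HeckeRed` : the multiplicative Hecke relation `N_ℓ u ~ u ^ a` reduces modulo `p`
to `T_ℓ y = a y`, `y = θ(ub)/ub`.  The MULTIPLICATIVE relation is reduced, then `dlog` is taken in
characteristic `p`.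
-/

set_option autoImplicit false
set_option synthInstance.maxHeartbeats 400000

noncomputable section

namespace Fermat.Agent.MR.Lift

open ModularCurve
open Fermat.Agent.INJ Fermat.Agent.INJ.Inst
open Fermat.Agent.S24 (Qbar FF)
open Fermat.Agent.S28 (Kf)
open Fermat.Agent.ES.Mid (formalN)
open Fermat.Agent.ORD.Dep
open Fermat.Agent.INJ.Inst.Gauss (IsRatio inc rho)

/-! ### `θ` on powers -/

section Th

variable {R : Type} [Field R]

theorem HeckeRed_th_pow {x y : LaurentSeries R} (h : y * x = th x) (n : ℕ) :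
    th (x ^ n) = HahnSeries.C (n : R) * y * x ^ n := by
  induction n with
  | zero => simp [DlogN_th_one]
  | succ n ih =>
    rw [pow_succ, DlogN_th_mul, ih, ← h]
    push_cast
    rw [map_add, map_one]
    ring

theorem HeckeRed_th_pow_succ (x : LaurentSeries R) (n : ℕ) :
    th (x ^ (n + 1)) = HahnSeries.C ((n + 1 : ℕ) : R) * x ^ n * th x := by
  induction n with
  | zero => simp
  | succ n ih =>
    rw [pow_succ, DlogN_th_mul, ih]
    push_cast
    simp only [map_add, map_one]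
    ring

theorem HeckeRed_th_pow_char (p : ℕ) (hp : 0 < p) [CharP R p] (x : LaurentSeries R) :
    th (x ^ p) = 0 := by
  obtain ⟨n, rfl⟩ : ∃ n, p = n + 1 := ⟨p - 1, by omega⟩
  rw [HeckeRed_th_pow_succ, CharP.cast_eq_zero, map_zero, zero_mul, zero_mul]

theorem HeckeRed_th_zpow {x y : LaurentSeries R} (hx : x ≠ 0) (h : y * x = th x) (a : ℤ) :
    th (x ^ a) = HahnSeries.C (a : R) * y * x ^ a := by
  have hinv : (-y) * x⁻¹ = th x⁻¹ := by
    have h1 := DlogN_th_mul x x⁻¹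
    rw [mul_inv_cancel₀ hx, DlogN_th_one, ← h] at h1
    have h2 : x * x⁻¹ = 1 := mul_inv_cancel₀ hx
    have h3 : x * th x⁻¹ = -y := by linear_combination -h1 - y * h2
    calc (-y) * x⁻¹ = (x * th x⁻¹) * x⁻¹ := by rw [h3]
      _ = th x⁻¹ * (x * x⁻¹) := by ring
      _ = th x⁻¹ := by rw [h2, mul_one]
  cases a with
  | ofNat n => simpa using HeckeRed_th_pow h n
  | negSucc n =>
    rw [zpow_negSucc, ← inv_pow, HeckeRed_th_pow hinv (n + 1), Int.cast_negSucc, map_neg]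
    ring

end Th

/-! ### roots of unity of order prime to `p` -/

theorem HeckeRed_exists_zA {p ℓ : ℕ} (hp : p.Prime) (hℓ : ℓ.Prime) (hℓp : ℓ ≠ p)
    (A : ValuationSubring Qbar) (hA : A.LiesOverPrime p) (ζ : Qbarˣ) (hζ : IsPrimitiveRoot ζ ℓ) :
    ∃ zA : Aˣ, Units.map (A.subtype : A →* Qbar) zA = ζ ∧
      IsPrimitiveRoot (Units.map (IsLocalRing.residue A : A →* kA A) zA) ℓ := by
  have : Fact p.Prime := ⟨hp⟩
  have : Fact ℓ.Prime := ⟨hℓ⟩
  have hchar : CharP (kA A) p := ES.Mid.HF3.charP_residue A p hA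
  have hζ1 : (ζ : Qbar) ^ ℓ = 1 := by
    have := congrArg Units.val hζ.pow_eq_one
    rwa [Units.val_pow_eq_pow_val, Units.val_one] at this
  have hζ2 : ((ζ⁻¹ : Qbarˣ) : Qbar) ^ ℓ = 1 := by
    have h3 : (ζ⁻¹) ^ ℓ = 1 := by rw [inv_pow, hζ.pow_eq_one, inv_one]
    have := congrArg Units.val h3
    rwa [Units.val_pow_eq_pow_val, Units.val_one] at this
  let zA : Aˣ := ⟨⟨ζ, ES.Mid.HF3.mem_of_pow_eq_one A ℓ hℓ.pos hζ1⟩,
    ⟨(ζ⁻¹ : Qbarˣ), ES.Mid.HF3.mem_of_pow_eq_one A ℓ hℓ.pos hζ2⟩,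
    Subtype.ext (by simp), Subtype.ext (by simp)⟩
  have hzA : Units.map (A.subtype : A →* Qbar) zA = ζ := Units.ext rfl
  refine ⟨zA, hzA, ?_⟩
  have hpowA : (zA : A) ^ ℓ = 1 := Subtype.ext hζ1
  have hneA : (zA : A) ≠ 1 := by
    intro h
    apply hζ.ne_one hℓ.one_lt
    apply Units.ext
    exact congrArg Subtype.val h
  have hsum : ∑ j ∈ Finset.range ℓ, (zA : A) ^ j = 0 := by
    have h2 := mul_geom_sum (zA : A) ℓ
    rw [hpowA, sub_self] at h2
    exact (mul_eq_zero.1 h2).resolve_left (sub_ne_zero.2 hneA)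
  have hpow : (Units.map (IsLocalRing.residue A : A →* kA A) zA) ^ ℓ = 1 := by
    rw [← map_pow]
    have : zA ^ ℓ = 1 := Units.ext (by rw [Units.val_pow_eq_pow_val, hpowA, Units.val_one])
    rw [this, map_one]
  have hne : Units.map (IsLocalRing.residue A : A →* kA A) zA ≠ 1 := by
    intro h
    have h1 : IsLocalRing.residue A (zA : A) = 1 := congrArg Units.val h
    have h2 := congrArg (IsLocalRing.residue A) hsum
    rw [map_sum, map_zero] at h2
    simp only [map_pow, h1, one_pow, Finset.sum_const, Finset.card_range, nsmul_eq_mul,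
      mul_one] at h2
    have h3 : p ∣ ℓ := (CharP.cast_eq_zero_iff (kA A) p ℓ).mp h2
    exact hℓp ((Nat.prime_dvd_prime_iff_eq hp hℓ).mp h3).symm
  have h4 := IsPrimitiveRoot.orderOf (Units.map (IsLocalRing.residue A : A →* kA A) zA)
  rwa [orderOf_eq_prime hpow hne] at h4

/-! ### `formalN` on a field -/

section FN

variable {R : Type} [Field R] {ℓ : ℕ} [NeZero ℓ] {ζ : Rˣ}

theorem HeckeRed_formalN_ne_zero (hζ : IsPrimitiveRoot ζ ℓ) {x : LaurentSeries R} (hx : x ≠ 0) :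
    formalN ℓ ζ x ≠ 0 := by
  obtain ⟨h1, h2⟩ := ES.Mid.HF1.hf_mul R ℓ ζ hζ
  intro h0
  have h3 := h2 x x⁻¹
  rw [mul_inv_cancel₀ hx, h1, h0, zero_mul] at h3
  exact one_ne_zero h3

theorem HeckeRed_formalN_div (hζ : IsPrimitiveRoot ζ ℓ) (x : LaurentSeries R)
    {y : LaurentSeries R} (hy : y ≠ 0) : formalN ℓ ζ (x / y) = formalN ℓ ζ x / formalN ℓ ζ y := by
  rw [eq_div_iff (HeckeRed_formalN_ne_zero hζ hy), ← (ES.Mid.HF1.hf_mul R ℓ ζ hζ).2,
    div_mul_cancel₀ _ hy]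

end FN

/-! ### Gauss units -/

section GU

variable {A : ValuationSubring Qbar}

theorem HeckeRed_GO_zpow {x : LaurentSeries Qbar} (hx : GO A x) (h : rd A x ≠ 0) (a : ℤ) :
    GO A (x ^ a) ∧ rd A (x ^ a) = rd A x ^ a := by
  cases a with
  | ofNat n => simpa using ⟨hx.pow n, rd_pow hx n⟩
  | negSucc n =>
    rw [zpow_negSucc, zpow_negSucc]
    have h1 := hx.pow (n + 1)
    have h2 : rd A (x ^ (n + 1)) ≠ 0 := by rw [rd_pow hx]; exact pow_ne_zero _ h
    exact ⟨h1.inv h2, by rw [rd_inv h1 h2, rd_pow hx]⟩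

theorem HeckeRed_mem_of_pow_mem {d : Qbar} {n : ℕ} (hn : 0 < n) (h : d ^ n ∈ A) : d ∈ A := by
  rcases A.mem_or_inv_mem d with h1 | h1
  · exact h1
  · by_cases hd : d = 0
    · rw [hd]; exact A.zero_mem
    obtain ⟨m, rfl⟩ : ∃ m, n = m + 1 := ⟨n - 1, by omega⟩
    have e : d = d ^ (m + 1) * d⁻¹ ^ m := by
      rw [pow_succ, inv_pow]
      field_simp
    rw [e]
    exact mul_mem h (pow_mem h1 m)

/-- reduction commutes with the multiplicative Hecke operator. -/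
theorem HeckeRed_rd_formalN {ℓ : ℕ} [NeZero ℓ] (ζ : Qbarˣ) (hζ : IsPrimitiveRoot ζ ℓ) (zA : Aˣ)
    (h1 : Units.map (A.subtype : A →* Qbar) zA = ζ)
    (hb : IsPrimitiveRoot (Units.map (IsLocalRing.residue A : A →* kA A) zA) ℓ)
    {x : LaurentSeries Qbar} (hx : GO A x) :
    GO A (formalN ℓ ζ x) ∧ rd A (formalN ℓ ζ x)
      = formalN ℓ (Units.map (IsLocalRing.residue A : A →* kA A) zA) (rd A x) := by
  obtain ⟨f, g, hr⟩ := hx
  rw [rd_eq hr]
  have hg0 : rho (IsLocalRing.residue A) g ≠ 0 := hr.1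
  have eI : ∀ w : LaurentSeries A, inc A (formalN ℓ zA w) = formalN ℓ ζ (inc A w) := fun w => by
    rw [← h1]
    exact ES.Mid.HF1.hf_map A Qbar A.subtype ℓ zA w
  have eR : ∀ w : LaurentSeries A, rho (IsLocalRing.residue A) (formalN ℓ zA w)
      = formalN ℓ (Units.map (IsLocalRing.residue A : A →* kA A) zA)
        (rho (IsLocalRing.residue A) w) := fun w =>
    ES.Mid.HF1.hf_map A (kA A) (IsLocalRing.residue A) ℓ zA w
  have hr' : IsRatio (IsLocalRing.residue A) (formalN ℓ ζ x) (formalN ℓ zA f)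
      (formalN ℓ zA g) := by
    refine ⟨?_, ?_⟩
    · rw [eR]
      exact HeckeRed_formalN_ne_zero hb hg0
    · rw [eI, eI, ← (ES.Mid.HF1.hf_mul Qbar ℓ ζ hζ).2, hr.2]
  exact ⟨⟨_, _, hr'⟩, by rw [rd_eq hr', eR, eR, HeckeRed_formalN_div hb _ hg0]⟩

end GU

/-- **(S4)**. -/
theorem stmt_HeckeRed : Stmt_HeckeRed := by
  intro p _ hp A hA M _ _ u ub hred ℓ _ hℓ hℓp a hrel y hy n
  obtain ⟨hub0, c, hc0, hrd⟩ := hred
  have hub0' : (ub : LaurentSeries (kA A)) ≠ 0 := fun h => hub0 (Subtype.ext h)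
  have : Fact p.Prime := ⟨hp⟩
  have hchar : CharP (kA A) p := ES.Mid.HF3.charP_residue A p hA
  obtain ⟨ζ₀, hζ₀⟩ := HasEnoughRootsOfUnity.exists_primitiveRoot Qbar ℓ
  obtain ⟨ζ, rfl⟩ := hζ₀.isUnit (NeZero.ne _)
  have hζ : IsPrimitiveRoot ζ ℓ := IsPrimitiveRoot.coe_units_iff.mp hζ₀
  obtain ⟨zA, hz1, hzb⟩ := HeckeRed_exists_zA hp hℓ hℓp A hA ζ hζ
  obtain ⟨v, g, hv, hvg⟩ := hrel ζ hζ
  have hNu : formalN ℓ ζ (u : LaurentSeries Qbar)
      = (u : LaurentSeries Qbar) ^ a * (g : LaurentSeries Qbar) ^ p := by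
    rw [← hv, hvg]
    show (modularFunctionFieldBar (M * p)).val (u ^ a * g ^ p) = _
    rw [map_mul, map_zpow₀, map_pow]
    rfl
  generalize (u : LaurentSeries Qbar) = U at hrd hNu
  have hmulN := (ES.Mid.HF1.hf_mul Qbar ℓ ζ hζ).2
  have hu1rd : rd A (cst c * U) ≠ 0 := by rw [hrd]; exact hub0'
  have hu1 : GO A (cst c * U) := GO_of_rd_ne_zero hu1rd
  obtain ⟨hGN, hrdN⟩ := HeckeRed_rd_formalN ζ hζ zA hz1 hzb hu1
  have hcst0 : cst c ≠ 0 := DP_cst_ne_zero hc0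
  -- the relation for `u1 = c u`
  obtain ⟨c'', hc''⟩ := IsAlgClosed.exists_pow_nat_eq (c ^ (ℓ + 1) * c ^ (-a)) hp.pos
  have hNu1 : formalN ℓ ζ (cst c * U)
      = (cst c * U) ^ a * (cst c'' * (g : LaurentSeries Qbar)) ^ p := by
    rw [hmulN, DP_formalN_cst, hNu, mul_zpow, mul_pow, ← DP_cst_pow, hc'', DP_cst_mul]
    have e1 : cst (c ^ (-a)) = (cst c ^ a)⁻¹ := by
      rw [zpow_neg]
      show algebraMap Qbar (LaurentSeries Qbar) (c ^ a)⁻¹ = _
      rw [map_inv₀, map_zpow₀]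
    have e2 : cst c ^ a * (cst c ^ a)⁻¹ = 1 := mul_inv_cancel₀ (zpow_ne_zero _ hcst0)
    rw [e1]
    linear_combination (-(cst (c ^ (ℓ + 1)) * U ^ a * (g : LaurentSeries Qbar) ^ p)) * e2
  generalize hu1def : cst c * U = u1 at hrd hu1rd hu1 hGN hrdN hNu1
  have hN0 : formalN ℓ ζ u1 ≠ 0 := by
    intro h0
    rw [h0, rd_zero, hrd] at hrdN
    exact HeckeRed_formalN_ne_zero hzb hub0' hrdN.symm
  have hg0 : g ≠ 0 := by
    rintro rfl
    apply hN0
    rw [hNu1]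
    have : ((0 : FF (M * p)) : LaurentSeries Qbar) = 0 := rfl
    rw [this, mul_zero, zero_pow hp.ne_zero, mul_zero]
  obtain ⟨e, he0, hg2, hg2rd⟩ := exists_norm A (M * p) hg0
  generalize (g : LaurentSeries Qbar) = G at hNu1 hg2 hg2rd
  obtain ⟨hua, hua'⟩ := HeckeRed_GO_zpow hu1 hu1rd a
  obtain ⟨huna, -⟩ := HeckeRed_GO_zpow hu1 hu1rd (-a)
  have hu10 : u1 ≠ 0 := by
    rintro rfl
    exact hu1rd rd_zero
  -- `d = c'' / e` is integral
  have hg1 : cst c'' * G = cst (c'' * e⁻¹) * (cst e * G) := by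
    rw [DP_cst_mul, mul_assoc, cst_inv_mul_cancel he0]
  have hg2p : GO A ((cst e * G) ^ p) := hg2.pow p
  have hg2p0 : rd A ((cst e * G) ^ p) ≠ 0 := by rw [rd_pow hg2]; exact pow_ne_zero _ hg2rd
  have hg2ne : (cst e * G) ^ p ≠ 0 := by
    intro h0
    rw [h0] at hg2p0
    exact hg2p0 rd_zero
  have hd : c'' * e⁻¹ ∈ A := by
    apply HeckeRed_mem_of_pow_mem hp.pos
    apply mem_of_GO_cst
    have e3 : cst ((c'' * e⁻¹) ^ p) = formalN ℓ ζ u1 * u1 ^ (-a) * ((cst e * G) ^ p)⁻¹ := by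
      rw [DP_cst_pow, hNu1, hg1, zpow_neg]
      have e4 : u1 ^ a * (u1 ^ a)⁻¹ = 1 := mul_inv_cancel₀ (zpow_ne_zero _ hu10)
      have e5 : (cst e * G) ^ p * ((cst e * G) ^ p)⁻¹ = 1 := mul_inv_cancel₀ hg2ne
      linear_combination (-(cst (c'' * e⁻¹) ^ p)) * e4
        - cst (c'' * e⁻¹) ^ p * (u1 ^ a * (u1 ^ a)⁻¹) * e5
    rw [e3]
    exact (hGN.mul huna).mul (hg2p.inv hg2p0)
  have hGg1 : GO A (cst c'' * G) := by
    rw [hg1]
    exact (GO_cst hd).mul hg2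
  -- reduce
  have hform : formalN ℓ (Units.map (IsLocalRing.residue A : A →* kA A) zA)
      (ub : LaurentSeries (kA A)) = (ub : LaurentSeries (kA A)) ^ a * rd A (cst c'' * G) ^ p := by
    rw [← hrd, ← hrdN, hNu1, rd_mul hua (hGg1.pow p), hua', rd_pow hGg1]
  have hth : (HahnSeries.C (a : kA A) * y) *
      formalN ℓ (Units.map (IsLocalRing.residue A : A →* kA A) zA) (ub : LaurentSeries (kA A))
      = th (formalN ℓ (Units.map (IsLocalRing.residue A : A →* kA A) zA)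
        (ub : LaurentSeries (kA A))) := by
    rw [hform, DlogN_th_mul, HeckeRed_th_zpow hub0' hy a, HeckeRed_th_pow_char p hp.pos, mul_zero,
      zero_add]
    ring
  have hfin := stmt_DlogN (kA A) ℓ _ hzb (ub : LaurentSeries (kA A)) y _ hub0' hy hth n
  rw [HahnSeries.C_mul_eq_smul, HahnSeries.coeff_smul, smul_eq_mul] at hfin
  exact hfin.symm

end Fermat.Agent.MR.Lift

end
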