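import Fermat.Agent.MR.Lift.Interface
import Fermat.Agent.INJ.P16
import Fermat.Agent.BR.Inst.Defs
import Fermat.Agent.ES.Mid.AInterface
import Fermat.Agent.ES.Mid.BInterface
import Fermat.Agent.ES.Mid.HeckeDefs
import Fermat.Agent.MR.Top

/-!
# MR / Lift : instantiation at `F = FF N`, `p ∤ N`, `p ≥ 5`, chart `t = j(q)` (architect: helper66)

* block I : `j` is a good coordinate, branch and tameness conditions, `θ = q d/dq` versus `d/dj`,
  integrality of `q`-expansions.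
* block C : a holomorphic differential `h dj` of `FF N` gives the cusp form `h · θ j ∈ S₂(Γ₀(N))`.
* block H : `dlog` intertwines the multiplicative Hecke operator `formalN` and `T_ℓ`.
* `Stmt_LIFT` : the output of the package.
-/

set_option autoImplicit false
set_option synthInstance.maxHeartbeats 400000

noncomputable section

namespace Fermat.Agent.MR.Lift

open Polynomial IntermediateField AlgebraicCurve ModularCurve UpperHalfPlane CongruenceSubgroup
open Fermat.Agent.INJ Fermat.Agent.INJ.Inst Fermat.Agent.BR.Inst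
open Fermat.Agent.S24 (Qbar FF funAlg iota jF MerGerm)
open Fermat.Agent.ES.Mid.A (Vfin Vcusp embFin embCusp)
open scoped MatrixGroups

/-- `θ = q d/dq`. -/
abbrev th {R : Type} [Field R] (x : LaurentSeries R) : LaurentSeries R := P16_thetaFun x

/-- the power series `∑ c n q^n` as a Laurent series. -/
def serOf {R : Type} [CommRing R] (c : ℕ → R) : LaurentSeries R :=
  HahnSeries.ofPowerSeries ℤ R (PowerSeries.mk c)

/-! ## Block I -/

/-- (I1) `j(q)` is a good coordinate at the levels prime to `p`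
(`Stmt_ChartS` + `Stmt_ChartSwap` + `Stmt_SepL` + `Stmt_ResFinite`). -/
def Stmt_ChartJ : Prop :=
  ∀ (N : ℕ) [NeZero N] (p : ℕ) [Fact p.Prime], ¬ p ∣ N →
    ∀ A : ValuationSubring Qb, A.LiesOverPrime p →
    ∀ (L : IntermediateField (kA A) (LaurentSeries (kA A))) (D : RedData Qb (FL N) (kA A) L),
      IsGauss N A L D → Chart D (jF N) ∧ Chart D (jF N)⁻¹ ∧
        ((D.rd (jF N) : L) : LaurentSeries (kA A)) = S28.jd (kA A) 1

/-- (I2) branch conditions for `j` and `j⁻¹`, `p ≥ 5` (`Stmt_RamJ` + `Stmt_BranchClause`,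
`S = {0, 1728}` resp. `{0, 1/1728}`). -/
def Stmt_BranchJ : Prop :=
  ∀ (N : ℕ) [NeZero N] (p : ℕ) [Fact p.Prime], 5 ≤ p →
    ∀ A : ValuationSubring Qb, A.LiesOverPrime p →
    ∀ (L : IntermediateField (kA A) (LaurentSeries (kA A))) (D : RedData Qb (FL N) (kA A) L),
      IsGauss N A L D → Branch D (jF N) ∧ Branch D (jF N)⁻¹

/-- (I3) every place of `FF N` is uniformised by germs of meromorphic functions
(`ES.Mid.B.Stmt_Count`, `Stmt_UnifFin`, `Stmt_UnifCusp`, all landed). -/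
def Stmt_UnifFF : Prop :=
  ∀ (N : ℕ) [NeZero N] (v : Place Qbar (FF N)), ∃ (φ : FF N →ₐ[Qbar] MerGerm) (e : ℕ), 0 < e ∧
    ∀ f : FF N, f ≠ 0 → MerGerm.ord (φ f) = e * v.ord f

/-- (I4) tameness of `d/dj` and `d/d(j⁻¹)`. -/
def Stmt_TameJ : Prop :=
  ∀ (N : ℕ) [NeZero N] (p : ℕ) [Fact p.Prime], 5 ≤ p →
    ∀ A : ValuationSubring Qb, A.LiesOverPrime p →
    ∀ (L : IntermediateField (kA A) (LaurentSeries (kA A))) (D : RedData Qb (FL N) (kA A) L),
      IsGauss N A L D → ∀ δ : Derivation Qb (FL N) (FL N), δ (jF N) = 1 →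
        TameAt D (jF N) δ ∧ TameAt D (jF N)⁻¹ ((-(jF N) ^ 2) • δ)

/-- (I5) on a subfield `L` of `R((q))`, separable algebraic over `R(t)`, `θ t ≠ 0`: `θ / θ t` preserves
`L`; it is the derivation `d/dt`. -/
def Stmt_ThetaDer : Prop :=
  ∀ (R : Type) [Field R] (L : IntermediateField R (LaurentSeries R)) (t : L),
    th (t : LaurentSeries R) ≠ 0 → Algebra.IsSeparable R⟮t⟯ L →
    ∃ δ : Derivation R L L, δ t = 1 ∧
      ∀ x : L, th (x : LaurentSeries R) = th (t : LaurentSeries R) * ((δ x : L) : LaurentSeries R)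

/-- (I6) a bounded series which is a ratio `f / g` of `A`-integral series, `g` primitive, is
`A`-integral (`A` of rank one). -/
def Stmt_BddInt : Prop :=
  ∀ (p : ℕ) [Fact p.Prime] (A : ValuationSubring Qb), A.LiesOverPrime p →
    ∀ (x : LaurentSeries Qb) (f g : LaurentSeries A) (a : Qb), a ≠ 0 →
      (∀ n, a * x.coeff n ∈ A) → coeffMap (IsLocalRing.residue A) g ≠ 0 →
      x * coeffMap A.subtype g = coeffMap A.subtype f →
      ∃ y : LaurentSeries A, coeffMap A.subtype y = x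

/-- (I7) the `q`-expansion of a cusp form with coefficients in `ℚ̄` is bounded (S23). -/
def Stmt_CuspBdd : Prop :=
  ∀ (N : ℕ) [NeZero N] (A : ValuationSubring Qb) (f : CuspForm (Gamma0 N) 2) (c : ℕ → Qb),
    (∀ n, ModularFormClass.qCoeff f n = iota (c n)) → ∃ a : Qb, a ≠ 0 ∧ ∀ n, a * c n ∈ A

/-- (I8) helper24's bridge `MR.congIdeal_ne_top_of_form` in the language `(ℚ̄, A, iota)`
(copy his proof with the predicate `∃ y ∈ 𝔪_A, z = iota y`). -/
def Stmt_BridgeA : Prop :=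
  ∀ (N : ℕ) [NeZero N] (p : ℕ) [Fact p.Prime] (a : ℕ → ℤ) (Good : ℕ → Prop)
    (A : ValuationSubring Qb), A.LiesOverPrime p →
    ∀ (f : CuspForm (Gamma0 N) 2) (c : ℕ → A), (∀ n, ModularFormClass.qCoeff f n = iota (c n : Qb)) →
      (∃ n, IsLocalRing.residue A (c n) ≠ 0) →
      (∀ ℓ : ℕ, ℓ.Prime → ¬ ℓ ∣ N → Good ℓ → ∀ n : ℕ, IsLocalRing.residue A
        (c (ℓ * n) + (if ℓ ∣ n then (ℓ : A) * c (n / ℓ) else 0) - (a ℓ : A) * c n) = 0) →
      MR.congIdeal N p a Good ≠ ⊤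

/-! ## Block C : from holomorphic differentials to cusp forms -/

/-- (C1) `h · j'` has no pole on `ℍ`. -/
def Stmt_ANfin : Prop :=
  ∀ (N : ℕ) [NeZero N] (h : FF N), h ≠ 0 → InDual Qbar (jF N) h →
    ∀ z : ℍ, 0 ≤ Vfin N z h + (MerGerm.deriv (embFin N z (jF N))).ord

/-- (C2) `h · j` vanishes at all cusps. -/
def Stmt_ANcusp : Prop :=
  ∀ (N : ℕ) [NeZero N] (h : FF N), h ≠ 0 → InDual Qbar (jF N)⁻¹ (h * jF N ^ 2) →
    ∀ g : SL(2, ℤ), 0 < Vcusp N g (h * jF N)

/-- (C3) construction of the cusp form `h · θ j`. -/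
def Stmt_ANform : Prop :=
  ∀ (N : ℕ) [NeZero N] (h : FF N), h ≠ 0 →
    (∀ z : ℍ, 0 ≤ Vfin N z h + (MerGerm.deriv (embFin N z (jF N))).ord) →
    (∀ g : SL(2, ℤ), 0 < Vcusp N g (h * jF N)) →
    ∃ f : CuspForm (Gamma0 N) 2,
      (∀ n : ℕ, ModularFormClass.qCoeff f n =
        iota (((h : LaurentSeries Qbar) * th (jF N : LaurentSeries Qbar)).coeff n)) ∧
      ∀ n : ℤ, n < 0 → ((h : LaurentSeries Qbar) * th (jF N : LaurentSeries Qbar)).coeff n = 0

/-- (C) holomorphic differentials are cusp forms. -/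
def Stmt_AN : Prop :=
  ∀ (N : ℕ) [NeZero N] (h : FF N), IsHol Qbar (jF N) h →
    ∃ f : CuspForm (Gamma0 N) 2,
      (∀ n : ℕ, ModularFormClass.qCoeff f n =
        iota (((h : LaurentSeries Qbar) * th (jF N : LaurentSeries Qbar)).coeff n)) ∧
      ∀ n : ℤ, n < 0 → ((h : LaurentSeries Qbar) * th (jF N : LaurentSeries Qbar)).coeff n = 0

/-! ## Block H : Hecke -/

/-- (H1) `θ (N_ℓ x) / N_ℓ x = T_ℓ (θ x / x)` (weight 2, formal). -/
def Stmt_DlogN : Prop :=
  ∀ (R : Type) [Field R] (ℓ : ℕ) [NeZero ℓ] (ζ : Rˣ), IsPrimitiveRoot ζ ℓ →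
    ∀ x y Y : LaurentSeries R, x ≠ 0 → y * x = th x →
      Y * ES.Mid.formalN ℓ ζ x = th (ES.Mid.formalN ℓ ζ x) →
      ∀ n : ℤ, Y.coeff n = y.coeff (ℓ * n) + if (ℓ : ℤ) ∣ n then (ℓ : R) * y.coeff (n / ℓ) else 0

/-! ## The output -/

/-- **[LIFT]**.  `g ≠ 0` in the residue field of level `N` (`p ∤ N`, `p ≥ 5`) with divisor in `p Div`:
`θ g / g` is the reduction of a cusp form of level `N` with `A`-integral `q`-expansion. -/
def Stmt_LIFT : Prop :=
  ∀ (N : ℕ) [NeZero N] (p : ℕ) [Fact p.Prime], 5 ≤ p → ¬ p ∣ N →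
    ∀ A : ValuationSubring Qb, A.LiesOverPrime p →
    ∀ (L : IntermediateField (kA A) (LaurentSeries (kA A))) (D : RedData Qb (FL N) (kA A) L),
      IsGaussS N A L D →
    ∀ g : L, g ≠ 0 → LocPow (kA A) (D.rd (jF N)) g p → LocPow (kA A) (D.rd (jF N))⁻¹ g p →
      ∃ (f : CuspForm (Gamma0 N) 2) (c : ℕ → A),
        (∀ n, ModularFormClass.qCoeff f n = iota (c n : Qb)) ∧
        serOf (fun n => IsLocalRing.residue A (c n)) * (g : LaurentSeries (kA A))
          = th (g : LaurentSeries (kA A))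

/-- complement: if `θ g = 0` then `g` is a `p`-th power in the residue field. -/
def Stmt_LIFT0 : Prop :=
  ∀ (N : ℕ) [NeZero N] (p : ℕ) [Fact p.Prime], ¬ p ∣ N →
    ∀ A : ValuationSubring Qb, A.LiesOverPrime p →
    ∀ (L : IntermediateField (kA A) (LaurentSeries (kA A))) (D : RedData Qb (FL N) (kA A) L),
      IsGaussS N A L D →
    ∀ g : L, th (g : LaurentSeries (kA A)) = 0 → ∃ w : L, w ^ p = g

/-- **[LIFT], final form consumed by the core of MR**: an eigenclass `g` (divisor in `p Div`, not a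
`p`-th power) in the residue field of level `N` makes helper24's congruence ideal of level `N`
proper.  `y = θ g / g`. -/
def Stmt_LIFTCong : Prop :=
  ∀ (N : ℕ) [NeZero N] (p : ℕ) [Fact p.Prime], 5 ≤ p → ¬ p ∣ N →
    ∀ A : ValuationSubring Qb, A.LiesOverPrime p →
    ∀ (L : IntermediateField (kA A) (LaurentSeries (kA A))) (D : RedData Qb (FL N) (kA A) L),
      IsGaussS N A L D →
    ∀ g : L, LocPow (kA A) (D.rd (jF N)) g p → LocPow (kA A) (D.rd (jF N))⁻¹ g p →
      (¬ ∃ w : L, w ^ p = g) →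
    ∀ (a : ℕ → ℤ) (Good : ℕ → Prop) (y : LaurentSeries (kA A)),
      y * (g : LaurentSeries (kA A)) = th (g : LaurentSeries (kA A)) →
      (∀ ℓ : ℕ, ℓ.Prime → ¬ ℓ ∣ N → Good ℓ → ∀ n : ℤ,
        y.coeff (ℓ * n) + (if (ℓ : ℤ) ∣ n then (ℓ : kA A) * y.coeff (n / ℓ) else 0)
          = (a ℓ : kA A) * y.coeff n) →
      MR.congIdeal N p a Good ≠ ⊤

end Fermat.Agent.MR.Lift

end
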