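import Fermat.Agent.INJ.Interface2
import Fermat.Agent.S24.Defs

/-!
# MR / Lift : lifting of holomorphic differentials from characteristic `p` (abstract part)
(architect: helper66; route: reports #1376 sect. 6, #1428, and the LIFT blueprint report)

Setting = `INJ.RedData D` on `F / K` (valuation rings `A ⊆ K`, `O ⊆ F`, residue fields `k`, `Fb`),
`t` a good coordinate (`INJ.Chart D t`).  `B₁`, `B₂` = integral closures of `K[t]`, `K[t⁻¹]` in `F`,
`B₁₂ = B₁[t⁻¹]`.  `h dt` is a holomorphic differential iff `h ∈ C(B₁)` and `h t² ∈ C(B₂)`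
(`C` = trace dual = `INJ.InDual`).

* block A : every holomorphic differential of `Fb / k` is the reduction of one of `F / K`
  (`Stmt_HolLift`).  NO Riemann-Roch, NO genus: `H¹_A = BB₁₂ / (BB₁ + BB₂)` is finitely generated and
  torsion free (`Stmt_Split`), hence free, so functionals lift (`Stmt_LamLift`); functionals on
  `B₁₂ / (B₁ + B₂)` are holomorphic differentials by bare linear algebra (`Stmt_HolOfLam`).
* block B : `dlog g` is holomorphic if `div g ∈ p Div` in characteristic `p` (`Stmt_DLogHol`).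
Every statement is a `Prop`; each is proved in its own file `Fermat/Agent/MR/Lift/<Name>.lean`.
-/

set_option autoImplicit false

namespace Fermat.Agent.MR.Lift

open Polynomial IntermediateField AlgebraicCurve Fermat.Agent.INJ

section Defs

variable (K : Type*) {F : Type*} [Field K] [Field F] [Algebra K F]

/-- `h dt` is a holomorphic differential of `F / K`. -/
def IsHol (t h : F) : Prop := InDual K t h ∧ InDual K t⁻¹ (h * t ^ 2)

/-- `x ∈ B₁₂ = B₁[t⁻¹]`. -/
def IsInt12 (t x : F) : Prop := ∃ m : ℕ, IsInt K t (t ^ m * x)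

/-- `ρ` is "the coefficient of `t⁻¹`". -/
def IsRes (t : F) (ρ : F →ₗ[K] K) : Prop := ∀ j : ℤ, ρ (t ^ j) = if j = -1 then 1 else 0

/-- the trace `F → K(t) ⊆ F`. -/
noncomputable def trF (t x : F) : F := algebraMap K⟮t⟯ F (Algebra.trace K⟮t⟯ F x)

variable {K} {k Fb : Type*} [Field k] [Field Fb] [Algebra k Fb]

/-- "`β δ(B) ⊆ rad (β B)`": the derivation `δ = d/dt` has at most tame poles, all over the finite set
`S ⊆ A` whose elements are pairwise distinct modulo the maximal ideal. -/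
def TameAt (D : RedData K F k Fb) (t : F) (δ : Derivation K F F) : Prop :=
  ∃ S : Finset K, (∀ c ∈ S, c ∈ D.A) ∧ (∀ c ∈ S, ∀ c' ∈ S, c ≠ c' → (c - c')⁻¹ ∈ D.A) ∧
    ∀ x : F, IsInt K t x → ∃ m : ℕ, 0 < m ∧ IsInt K t ((δ x * beta t S) ^ m / beta t S)

/-- the divisor of `g` is divisible by `p` (valuation ring form, coordinate free). -/
def PDiv (k : Type*) {Fb : Type*} [Field k] [Field Fb] [Algebra k Fb] (g : Fb) (p : ℕ) : Prop :=
  ∀ V : ValuationSubring Fb, (∀ c : k, algebraMap k Fb c ∈ V) →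
    ∃ α : Fb, α ≠ 0 ∧ α ^ p * g ∈ V ∧ (α ^ p * g)⁻¹ ∈ V

end Defs

/-! ## Block A : lifting holomorphic differentials -/

/-- (A0) existence of "the coefficient of `t⁻¹`". -/
def Stmt_Res : Prop :=
  ∀ (K F : Type) [Field K] [Field F] [Algebra K F] (t : F), Transcendental K t →
    ∃ ρ : F →ₗ[K] K, IsRes K t ρ

/-- (A1) the trace dual of an orthonormal basis is orthonormal (no Gram matrices). -/
def Stmt_DualOrtho : Prop :=
  ∀ (K F k Fb : Type) [Field K] [Field F] [Algebra K F] [Field k] [Field Fb] [Algebra k Fb]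
    [CharZero K] (D : RedData K F k Fb) (t : F), Chart D t →
    ∀ b : Fin (Module.finrank K⟮t⟯ F) → F, (∀ i, b i ∈ D.O) →
      LinearIndependent k⟮D.rd t⟯ (fun i => D.rd (b i)) →
      (∀ x : F, (∀ i, trF K t (x * b i) ∈ D.O) → x ∈ D.O) ∧
      (∀ u : Fin (Module.finrank K⟮t⟯ F) → K⟮t⟯, ∃ x : F, ∀ i,
        Algebra.trace K⟮t⟯ F (x * b i) = u i) ∧
      (∀ y : Fb, (∀ i, Algebra.trace k⟮D.rd t⟯ Fb (y * D.rd (b i)) = 0) → y = 0)

/-- (A2) `H¹_A → H¹_K` is injective: `(B₁ + B₂) ∩ O = BB₁ + BB₂`. -/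
def Stmt_Split : Prop :=
  ∀ (K F k Fb : Type) [Field K] [Field F] [Algebra K F] [Field k] [Field Fb] [Algebra k Fb]
    [IsAlgClosed K] [CharZero K] [IsAlgClosed k] (D : RedData K F k Fb) (t : F),
    Chart D t → Chart D t⁻¹ →
    ∀ y₁ y₂ : F, IsInt K t y₁ → IsInt K t⁻¹ y₂ → y₁ + y₂ ∈ D.O →
      ∃ c : K, y₁ - algebraMap K F c ∈ D.O ∧ y₂ + algebraMap K F c ∈ D.O

/-- (A3) functionals on a finitely generated torsion free module over a valuation ring lift from the
residue field (Mathlib: torsion free ⇒ flat over a Bezout domain; finite flat ⇒ free over a local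
ring; free ⇒ projective). -/
def Stmt_FunLift : Prop :=
  ∀ (A X k : Type) [CommRing A] [IsDomain A] [ValuationRing A] [Field k] [AddCommGroup X]
    [Module A X] (r : A →+* k), Function.Surjective r →
    ∀ (S : Submodule A X) (n : ℕ) (g : Fin n → X), S ⊔ Submodule.span A (Set.range g) = ⊤ →
      (∀ (a : A) (x : X), a ≠ 0 → a • x ∈ S → x ∈ S) →
      ∀ μ : X →+ k, (∀ (a : A) (x : X), μ (a • x) = r a * μ x) → (∀ x ∈ S, μ x = 0) →
        ∃ lam : X →ₗ[A] A, (∀ x ∈ S, lam x = 0) ∧ ∀ x, r (lam x) = μ x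

/-- (A4) functionals on `H¹_k` lift to `H¹_A`. -/
def Stmt_LamLift : Prop :=
  ∀ (K F k Fb : Type) [Field K] [Field F] [Algebra K F] [Field k] [Field Fb] [Algebra k Fb]
    [IsAlgClosed K] [CharZero K] [IsAlgClosed k] (D : RedData K F k Fb) (t : F),
    Chart D t → Chart D t⁻¹ →
    ∀ μ : Fb →ₗ[k] k, (∀ y, IsInt k (D.rd t) y → μ y = 0) → (∀ y, IsInt k (D.rd t)⁻¹ y → μ y = 0) →
      ∃ Lam : F →ₗ[K] K, (∀ y, IsInt K t y → Lam y = 0) ∧ (∀ y, IsInt K t⁻¹ y → Lam y = 0) ∧
        ∀ x ∈ D.O, IsInt12 K t x → Lam x ∈ D.A ∧ D.ra (Lam x) = μ (D.rd x)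

/-- (A5) "Serre duality" by linear algebra: a functional on `B₁₂ / (B₁ + B₂)` is
`x ↦ Res (Tr (h x) dt)` for a holomorphic `h dt`. -/
def Stmt_HolOfLam : Prop :=
  ∀ (K F : Type) [Field K] [Field F] [Algebra K F] [CharZero K] (t : F), Transcendental K t →
    FiniteDimensional K⟮t⟯ F →
    ∀ (b : Fin (Module.finrank K⟮t⟯ F) → F), (∀ i, IsInt K t (b i)) →
      (∀ x, IsInt K t x → x ∈ Submodule.span (Algebra.adjoin K {t}) (Set.range b)) →
      LinearIndependent K⟮t⟯ b →
    ∀ ρ : F →ₗ[K] K, IsRes K t ρ →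
    ∀ Lam : F →ₗ[K] K, (∀ y, IsInt K t y → Lam y = 0) → (∀ y, IsInt K t⁻¹ y → Lam y = 0) →
      ∃ h : F, IsHol K t h ∧ ∀ x, IsInt12 K t x → ρ (trF K t (h * x)) = Lam x

/-- (A6) a holomorphic differential kills `B₁ + B₂` (residue theorem, trivial direction). -/
def Stmt_LamOfHol : Prop :=
  ∀ (K F : Type) [Field K] [Field F] [Algebra K F] (t : F), Transcendental K t →
    ∀ ρ : F →ₗ[K] K, IsRes K t ρ → ∀ h : F, IsHol K t h →
      (∀ y, IsInt K t y → ρ (trF K t (h * y)) = 0) ∧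
      (∀ y, IsInt K t⁻¹ y → ρ (trF K t (h * y)) = 0)

/-- (A) **every holomorphic differential of the special fibre lifts.** -/
def Stmt_HolLift : Prop :=
  ∀ (K F k Fb : Type) [Field K] [Field F] [Algebra K F] [Field k] [Field Fb] [Algebra k Fb]
    [IsAlgClosed K] [CharZero K] [IsAlgClosed k] (D : RedData K F k Fb) (t : F),
    Chart D t → Chart D t⁻¹ →
    ∀ hb : Fb, IsHol k (D.rd t) hb → ∃ h ∈ D.O, D.rd h = hb ∧ IsHol K t h

/-! ## Block B : `dlog` is holomorphic -/

/-- (B1) converse of the branch clause: `(z β)^m ∈ β B` implies `z ∈ C(B)` (from `INJ.Stmt_TraceNil`). -/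
def Stmt_RadDual : Prop :=
  ∀ (k Fb : Type) [Field k] [Field Fb] [Algebra k Fb] (tb : Fb), Transcendental k tb →
    FiniteDimensional k⟮tb⟯ Fb → Algebra.IsSeparable k⟮tb⟯ Fb →
    ∀ (S : Finset k) (z : Fb) (m : ℕ), 0 < m → IsInt k tb ((z * beta tb S) ^ m / beta tb S) →
      InDual k tb z

/-- (B2) `d/dt` preserves `O` and commutes with the reduction. -/
def Stmt_DerRed : Prop :=
  ∀ (K F k Fb : Type) [Field K] [Field F] [Algebra K F] [Field k] [Field Fb] [Algebra k Fb]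
    (D : RedData K F k Fb) (t : F), Chart D t →
    ∀ (δ : Derivation K F F) (δb : Derivation k Fb Fb), δ t = 1 → δb (D.rd t) = 1 →
      ∀ x ∈ D.O, δ x ∈ D.O ∧ D.rd (δ x) = δb (D.rd x)

/-- (B3) characteristic zero: `ord_P (dx/dt) ≥ 1 - e_P` for `x` regular at `P`, in the form
`β δ(B) ⊆ rad (β B)`.  The places are uniformised by embeddings into a differential valued field
(`S24.IsDiffVal`; for `FF N`: germs of meromorphic functions). -/
def Stmt_TameDer : Prop :=
  ∀ (K F M : Type) [Field K] [IsAlgClosed K] [CharZero K] [Field F] [Algebra K F] [Field M]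
    [Algebra K M] (w : M → ℤ) (δM : Derivation K M M), S24.IsDiffVal w δM →
    (∀ v : Place K F, ∃ (φ : F →ₐ[K] M) (e : ℕ), 0 < e ∧ ∀ f : F, f ≠ 0 → w (φ f) = e * v.ord f) →
    ∀ t : F, Transcendental K t → FiniteDimensional K⟮t⟯ F →
    ∀ δ : Derivation K F F, δ t = 1 → ∀ S : Finset K,
      (∀ (v : Place K F) (c : K), c ∉ S → 0 < v.ord (t - algebraMap K F c) →
        v.ord (t - algebraMap K F c) = 1) →
      ∀ x : F, IsInt K t x → ∃ m : ℕ, 0 < m ∧ IsInt K t ((δ x * beta t S) ^ m / beta t S)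

/-- (B4) the derivation of the special fibre maps `Bbar` into its trace dual. -/
def Stmt_DerDual : Prop :=
  ∀ (K F k Fb : Type) [Field K] [Field F] [Algebra K F] [Field k] [Field Fb] [Algebra k Fb]
    [IsAlgClosed K] [CharZero K] (D : RedData K F k Fb) (t : F), Chart D t → Branch D t →
    ∀ (δ : Derivation K F F) (δb : Derivation k Fb Fb), δ t = 1 → δb (D.rd t) = 1 →
      TameAt D t δ → ∀ x : Fb, IsInt k (D.rd t) x → InDual k (D.rd t) (δb x)

/-- (B5) pure characteristic `p`: if `δ(B) ⊆ C(B)` and `g` is locally a unit times a `p`-th power then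
`δ g / g ∈ C(B)`. -/
def Stmt_DLog : Prop :=
  ∀ (k Fb : Type) [Field k] [IsAlgClosed k] [Field Fb] [Algebra k Fb] (p : ℕ) [Fact p.Prime]
    [CharP k p] (tb : Fb), Transcendental k tb → FiniteDimensional k⟮tb⟯ Fb →
    ∀ δb : Derivation k Fb Fb, (∀ x : Fb, IsInt k tb x → InDual k tb (δb x)) →
      ∀ g : Fb, g ≠ 0 → LocPow k tb g p → InDual k tb (δb g / g)

/-- (B) **`dlog g` is a holomorphic differential.** -/
def Stmt_DLogHol : Prop :=
  ∀ (K F k Fb : Type) [Field K] [Field F] [Algebra K F] [Field k] [Field Fb] [Algebra k Fb]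
    [IsAlgClosed K] [CharZero K] [IsAlgClosed k] (p : ℕ) [Fact p.Prime] [CharP k p]
    (D : RedData K F k Fb) (t : F), Chart D t → Chart D t⁻¹ → Branch D t → Branch D t⁻¹ →
    ∀ (δ : Derivation K F F) (δb : Derivation k Fb Fb), δ t = 1 → δb (D.rd t) = 1 →
      TameAt D t δ → TameAt D t⁻¹ ((-t ^ 2) • δ) →
      ∀ g : Fb, g ≠ 0 → LocPow k (D.rd t) g p → LocPow k (D.rd t)⁻¹ g p →
        IsHol k (D.rd t) (δb g / g)

/-! ## Block P : divisors divisible by `p` in characteristic `p` -/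

/-- (P1) from valuation rings to `LocPow` (semi-local approximation in the Dedekind domain `Bbar`). -/
def Stmt_LocPowOfPDiv : Prop :=
  ∀ (k Fb : Type) [Field k] [IsAlgClosed k] [Field Fb] [Algebra k Fb] (tb g : Fb) (p : ℕ),
    Transcendental k tb → FiniteDimensional k⟮tb⟯ Fb → Algebra.IsSeparable k⟮tb⟯ Fb → g ≠ 0 →
    0 < p → PDiv k g p → LocPow k tb g p

/-- (P2) descent of `LocPow` along an extension of degree prime to `p` (norms). -/
def Stmt_LocPowDesc : Prop :=
  ∀ (k Fb Fb' : Type) [Field k] [Field Fb] [Algebra k Fb] [Field Fb'] [Algebra k Fb']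
    [Algebra Fb Fb'] [IsScalarTower k Fb Fb'] [FiniteDimensional Fb Fb'] (tb g : Fb) (p : ℕ),
    Nat.Coprime (Module.finrank Fb Fb') p → g ≠ 0 →
    LocPow k (algebraMap Fb Fb' tb) (algebraMap Fb Fb' g) p → LocPow k tb g p

/-- (P3) the kernel of `d/dt` is the field of `p`-th powers. -/
def Stmt_KerDer : Prop :=
  ∀ (k Fb : Type) [Field k] [Field Fb] [Algebra k Fb] (p : ℕ) [Fact p.Prime] [CharP k p]
    [PerfectField k] (tb : Fb), Transcendental k tb → FiniteDimensional k⟮tb⟯ Fb →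
    Algebra.IsSeparable k⟮tb⟯ Fb → ∀ δb : Derivation k Fb Fb, δb tb = 1 →
    ∀ g : Fb, δb g = 0 → ∃ w : Fb, w ^ p = g

end Fermat.Agent.MR.Lift
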