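import Fermat.Agent.MR.Lift.Interface

/-!
# MR / Lift : (P3) the kernel of `d/dt` is the field of `p`-th powers (helper59)

`L = Fb` is separable over `k(t)`, `k` perfect: then `L = L^p[t]` (a subring containing all `p`-th
powers is a subfield: `x⁻¹ = x^(p-1) (x⁻¹)^p`).  On `a^p t^i` the Euler operator `θ = t d/dt` acts by
`i`, so `θ^(p-1)` is the projector onto the part with `p ∤ i`.
-/

set_option autoImplicit false

namespace Fermat.Agent.MR.Lift

open Polynomial IntermediateField

/-- `P ↦ ∑ (coeff P i)^p t^i`. -/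
noncomputable def KerDer_phi {L : Type*} [Field L] (p : ℕ) [Fact p.Prime] [CharP L p] (t : L) :
    L[X] →+* L := eval₂RingHom (frobenius L p) t

/-- a subring containing all `p`-th powers is closed under inverses. -/
theorem KerDer_inv_mem {L : Type*} [Field L] (p : ℕ) (hp : 0 < p) (S : Subring L)
    (hS : ∀ a : L, a ^ p ∈ S) {x : L} (hx : x ∈ S) : x⁻¹ ∈ S := by
  by_cases h0 : x = 0
  · rw [h0, inv_zero]
    exact S.zero_mem
  obtain ⟨m, rfl⟩ : ∃ m, p = m + 1 := ⟨p - 1, by omega⟩
  have : x⁻¹ = x ^ m * x⁻¹ ^ (m + 1) := by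
    rw [pow_succ, ← mul_assoc, ← mul_pow, mul_inv_cancel₀ h0, one_pow, one_mul]
  rw [this]
  exact S.mul_mem (S.pow_mem hx _) (hS _)

/-- `L = L^p[t]`. -/
theorem KerDer_span (k L : Type*) [Field k] [Field L] [Algebra k L] (p : ℕ) [Fact p.Prime]
    [CharP k p] [CharP L p] [PerfectField k] (t : L) [Algebra.IsSeparable k⟮t⟯ L] (x : L) :
    x ∈ (KerDer_phi p t).range := by
  have hpp : p.Prime := Fact.out
  have hpow : ∀ a : L, a ^ p ∈ (KerDer_phi p t).range := fun a =>
    ⟨C a, by simp [KerDer_phi, frobenius_def]⟩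
  have ht : t ∈ (KerDer_phi p t).range := ⟨X, by simp [KerDer_phi]⟩
  let T : Subfield L :=
    { (KerDer_phi p t).range with
      inv_mem' := fun x hx => KerDer_inv_mem p hpp.pos (KerDer_phi p t).range hpow hx }
  have hk : ∀ c : k, algebraMap k L c ∈ T := by
    intro c
    obtain ⟨d, rfl⟩ := surjective_frobenius k p c
    rw [frobenius_def, map_pow]
    exact hpow _
  let T1 : IntermediateField k L := { T with algebraMap_mem' := hk }
  have h1 : k⟮t⟯ ≤ T1 := adjoin_simple_le_iff.2 ht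
  let T2 : IntermediateField k⟮t⟯ L := { T with algebraMap_mem' := fun e => h1 e.2 }
  have h2 : (k⟮t⟯)⟮x ^ p⟯ ≤ T2 := adjoin_simple_le_iff.2 (hpow x)
  have h3 : x ∈ (k⟮t⟯)⟮x⟯ := mem_adjoin_simple_self _ x
  have : ExpChar k⟮t⟯ p := expChar_of_injective_algebraMap (algebraMap k k⟮t⟯).injective p
  rw [adjoin_simple_eq_adjoin_pow_expChar_of_isSeparable' (k⟮t⟯) L x p] at h3
  exact h2 h3

/-- Fermat's little theorem in a field of characteristic `p`. -/
theorem KerDer_fermat (L : Type*) [Field L] (p : ℕ) [Fact p.Prime] [CharP L p] (i : ℕ) :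
    (i : L) ^ (p - 1) = if p ∣ i then 0 else 1 := by
  have hpp : p.Prime := Fact.out
  split_ifs with h
  · rw [(CharP.cast_eq_zero_iff L p i).2 h, zero_pow]
    have := hpp.two_le
    omega
  · have h1 : (i : ZMod p) ≠ 0 := fun h0 => h ((CharP.cast_eq_zero_iff (ZMod p) p i).1 h0)
    have h2 := congrArg (ZMod.castHom (dvd_refl p) L) (ZMod.pow_card_sub_one_eq_one h1)
    rwa [map_pow, map_natCast, map_one] at h2

theorem KerDer_main (k L : Type*) [Field k] [Field L] [Algebra k L] (p : ℕ) [Fact p.Prime]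
    [CharP L p] (t : L) (δ : Derivation k L L) (hδ : δ t = 1) (P : L[X])
    (h0 : δ (KerDer_phi p t P) = 0) : ∃ w : L, w ^ p = KerDer_phi p t P := by
  have hpp : p.Prime := Fact.out
  set y : ℕ → L := fun i => (P.coeff i) ^ p * t ^ i with hy
  have hg : KerDer_phi p t P = ∑ i ∈ Finset.range (P.natDegree + 1), y i := by
    simp [KerDer_phi, eval₂_eq_sum_range, frobenius_def, hy]
  let θ : Module.End k L := (LinearMap.mulLeft k t).comp (δ : L →ₗ[k] L)
  have hθ : ∀ x, θ x = t * δ x := fun x => rfl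
  have hp0 : (p : L) = 0 := CharP.cast_eq_zero L p
  have hA : ∀ i, θ (y i) = (i : L) * y i := by
    intro i
    rw [hθ, hy]
    simp only
    rw [Derivation.leibniz, Derivation.leibniz_pow, Derivation.leibniz_pow, hδ]
    simp only [smul_eq_mul, nsmul_eq_mul, hp0, zero_mul, mul_zero, add_zero, mul_one]
    cases i with
    | zero => simp
    | succ j =>
      rw [Nat.add_sub_cancel, pow_succ]
      ring
  have hB : ∀ (m i : ℕ), (θ ^ m) (y i) = (i : L) ^ m * y i := by
    intro m i
    induction m with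
    | zero => simp
    | succ m ih =>
      rw [pow_succ, Module.End.mul_apply, hA, ← nsmul_eq_mul, map_nsmul, ih, nsmul_eq_mul]
      ring
  have h1 : (θ ^ (p - 1)) (KerDer_phi p t P) = 0 := by
    obtain ⟨m, hm⟩ : ∃ m, p - 1 = m + 1 := ⟨p - 2, by have := hpp.two_le; omega⟩
    rw [hm, pow_succ, Module.End.mul_apply, hθ, h0, mul_zero, map_zero]
  rw [hg, map_sum] at h1
  simp_rw [hB, KerDer_fermat L p] at h1
  refine ⟨∑ i ∈ Finset.range (P.natDegree + 1), if p ∣ i then P.coeff i * t ^ (i / p) else 0, ?_⟩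
  rw [sum_pow_char, hg]
  have h2 : ∑ i ∈ Finset.range (P.natDegree + 1), y i = ∑ i ∈ Finset.range (P.natDegree + 1), y i
      - ∑ i ∈ Finset.range (P.natDegree + 1), (if p ∣ i then (0 : L) else 1) * y i := by
    rw [h1, sub_zero]
  rw [h2, ← Finset.sum_sub_distrib]
  refine Finset.sum_congr rfl fun i _ => ?_
  split_ifs with h
  · obtain ⟨j, rfl⟩ := h
    rw [Nat.mul_div_cancel_left _ hpp.pos, mul_pow, ← pow_mul, mul_comm j p, zero_mul, sub_zero]
  · rw [zero_pow hpp.ne_zero, one_mul, sub_self]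

theorem stmt_KerDer : Stmt_KerDer := by
  intro k Fb _ _ _ p _ _ _ tb _ _ hsep δb hδ g hg
  have : CharP Fb p := charP_of_injective_algebraMap (algebraMap k Fb).injective p
  obtain ⟨P, rfl⟩ := KerDer_span k Fb p tb g
  exact KerDer_main k Fb p tb δb hδ P hg

end Fermat.Agent.MR.Lift
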