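import Fermat.Agent.MR.Lift.Interface

/-!
# MR / Lift (P2) : descent of `LocPow` along an extension of degree prime to `p` (norms)
-/

set_option autoImplicit false

namespace Fermat.Agent.MR.Lift

open Polynomial IntermediateField AlgebraicCurve Fermat.Agent.INJ

/-- the norm of an element integral over `k[t]` is integral over `k[t]`. -/
theorem LocPowDesc_norm {k Fb Fb' : Type} [Field k] [Field Fb] [Algebra k Fb] [Field Fb']
    [Algebra k Fb'] [Algebra Fb Fb'] [IsScalarTower k Fb Fb'] (tb : Fb) (x : Fb')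
    (hx : IsInt k (algebraMap Fb Fb' tb) x) : IsInt k tb (Algebra.norm Fb x) := by
  unfold IsInt at hx ⊢
  set f : Fb →ₐ[k] Fb' := IsScalarTower.toAlgHom k Fb Fb' with hf
  have h1 : Algebra.adjoin k {algebraMap Fb Fb' tb} = (Algebra.adjoin k {tb}).map f := by
    rw [AlgHom.map_adjoin_singleton]; rfl
  have hinj : Function.Injective f := f.toRingHom.injective
  let e : Algebra.adjoin k {algebraMap Fb Fb' tb} ≃ₐ[k] Algebra.adjoin k {tb} :=
    (Subalgebra.equivOfEq _ _ h1).trans
        (Subalgebra.equivMapOfInjective (Algebra.adjoin k {tb}) f hinj).symm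
  have hx' : IsIntegral (Algebra.adjoin k {tb}) x := by
    have := IsIntegral.map_of_comp_eq (R := Algebra.adjoin k {algebraMap Fb Fb' tb})
      (T := Algebra.adjoin k {tb}) (S := Fb') (U := Fb')
      (e : Algebra.adjoin k {algebraMap Fb Fb' tb} →+* Algebra.adjoin k {tb})
      (RingHom.id Fb') ?_ hx
    · simpa using this
    · ext y
      have h2 : ((e.symm (e y) : Algebra.adjoin k {algebraMap Fb Fb' tb}) : Fb')
          = f ((e y : Algebra.adjoin k {tb}) : Fb) := rfl
      rw [e.symm_apply_apply] at h2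
      exact h2.symm
  exact Algebra.isIntegral_norm Fb hx'

/-- (P2) descent of `LocPow` along an extension of degree prime to `p` (norms). -/
theorem stmt_LocPowDesc : Stmt_LocPowDesc := by
  intro k Fb Fb' _ _ _ _ _ _ _ _ tb g p hcop hg hL c
  obtain ⟨α', R, hα', hR, hI1, hI2⟩ := hL c
  set d : ℕ := Module.finrank Fb Fb' with hd
  set ν : Fb := Algebra.norm Fb α' with hν
  have hν0 : ν ≠ 0 := Algebra.norm_ne_zero_iff.mpr hα'
  set ε : Fb := ν ^ p * g ^ d with hε
  have hε0 : ε ≠ 0 := mul_ne_zero (pow_ne_zero _ hν0) (pow_ne_zero _ hg)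
  have hN : Algebra.norm Fb (α' ^ p * algebraMap Fb Fb' g) = ε := by
    rw [map_mul, map_pow, Algebra.norm_algebraMap]
  have hX : IsInt k tb ((aeval tb R) ^ d * ε) := by
    have := LocPowDesc_norm tb _ hI1
    rwa [map_mul, hN, Polynomial.aeval_algebraMap_apply, Algebra.norm_algebraMap] at this
  have hY : IsInt k tb ((aeval tb R) ^ d * ε⁻¹) := by
    have := LocPowDesc_norm tb _ hI2
    rwa [map_mul, Algebra.norm_inv, hN, Polynomial.aeval_algebraMap_apply,
      Algebra.norm_algebraMap] at this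
  -- Bezout
  have hbez : (d : ℤ) * Nat.gcdA d p + (p : ℤ) * Nat.gcdB d p = 1 := by
    have := Nat.gcd_eq_gcd_ab d p
    rw [hcop] at this
    simpa using this.symm
  set a : ℤ := Nat.gcdA d p with ha
  set b : ℤ := Nat.gcdB d p with hb
  have key : (ν ^ a * g ^ (-b)) ^ p * g = ε ^ a := by
    have h1 : g = g ^ ((d : ℤ) * a + (p : ℤ) * b) := by rw [hbez, zpow_one]
    rw [hε, mul_zpow, mul_pow, ← zpow_natCast (ν ^ a), ← zpow_natCast (g ^ (-b)), ← zpow_mul,
      ← zpow_mul, ← zpow_natCast ν, ← zpow_natCast g d, ← zpow_mul, ← zpow_mul, mul_assoc]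
    congr 1
    · rw [mul_comm]
    · have h2 : g ^ (-b * (p : ℤ)) * g = g ^ (-b * (p : ℤ)) * g ^ ((d : ℤ) * a + (p : ℤ) * b) := by
        rw [← h1]
      rw [h2, ← zpow_add₀ hg]
      congr 1
      ring
  refine ⟨ν ^ a * g ^ (-b), R ^ (d * a.natAbs), mul_ne_zero (zpow_ne_zero _ hν0)
    (zpow_ne_zero _ hg), ?_, ?_, ?_⟩
  · rw [eval_pow]; exact pow_ne_zero _ hR
  · rw [key, map_pow, pow_mul]
    rcases Int.natAbs_eq a with h | h
    · have : ε ^ a = ε ^ a.natAbs := by conv_lhs => rw [h, zpow_natCast]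
      rw [this, ← mul_pow]
      exact hX.pow _
    · have : ε ^ a = (ε⁻¹) ^ a.natAbs := by conv_lhs => rw [h, zpow_neg, zpow_natCast, ← inv_pow]
      rw [this, ← mul_pow]
      exact hY.pow _
  · rw [key, map_pow, pow_mul]
    rcases Int.natAbs_eq a with h | h
    · have : (ε ^ a)⁻¹ = (ε⁻¹) ^ a.natAbs := by
        conv_lhs => rw [h, zpow_natCast, ← inv_pow]
      rw [this, ← mul_pow]
      exact hY.pow _
    · have : (ε ^ a)⁻¹ = ε ^ a.natAbs := by
        conv_lhs => rw [h, zpow_neg, zpow_natCast, inv_inv]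
      rw [this, ← mul_pow]
      exact hX.pow _

end Fermat.Agent.MR.Lift
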