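import Mathlib

/-!
# MR / Lift, task LIFT-S3, abstract part (helper99)

A field obtained from `F` by successively adjoining roots of monic polynomials of degree `< p` has
degree prime to `p` over `F`.
-/

set_option autoImplicit false

namespace Fermat.Agent.MR.Lift

open Polynomial IntermediateField

variable {k Om : Type*} [Field k] [Field Om] [Algebra k Om]

/-- `x` is a root of a monic polynomial of degree `≤ d` with coefficients in `C`. -/
def LocPowKf_Root (d : ℕ) (C : IntermediateField k Om) (x : Om) : Prop :=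
  ∃ q : Om[X], q.Monic ∧ q.natDegree ≤ d ∧ (∀ i, q.coeff i ∈ C) ∧ q.eval x = 0

theorem LocPowKf_Root.mono {d : ℕ} {C C' : IntermediateField k Om} (h : C ≤ C') {x : Om}
    (hx : LocPowKf_Root d C x) : LocPowKf_Root d C' x := by
  obtain ⟨q, h1, h2, h3, h4⟩ := hx
  exact ⟨q, h1, h2, fun i => h (h3 i), h4⟩

theorem LocPowKf_step (p d : ℕ) (hp : p.Prime) (hd : d < p) (F C : IntermediateField k Om)
    (hFC : F ≤ C) (hcop : Nat.Coprime (relfinrank F C) p) (x : Om) (hx : LocPowKf_Root d C x) :
    ∃ C' : IntermediateField k Om, C ≤ C' ∧ x ∈ C' ∧ Nat.Coprime (relfinrank F C') p := by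
  obtain ⟨q, hq1, hq2, hq3, hq4⟩ := hx
  have hl : q ∈ Polynomial.lifts (algebraMap C Om) :=
    (lifts_iff_coeff_lifts q).2 (fun i => ⟨⟨q.coeff i, hq3 i⟩, rfl⟩)
  obtain ⟨q', hq'1, hq'2, hq'3⟩ := lifts_and_natDegree_eq_and_monic hl hq1
  have hroot : aeval x q' = 0 := by rw [aeval_def, ← eval_map, hq'1, hq4]
  have hint : IsIntegral C x := ⟨q', hq'3, hroot⟩
  have hCC' : C ≤ (C⟮x⟯).restrictScalars k := fun y hy => (C⟮x⟯).algebraMap_mem ⟨y, hy⟩
  have hx' : x ∈ (C⟮x⟯).restrictScalars k := mem_adjoin_simple_self C x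
  have hdeg : relfinrank C ((C⟮x⟯).restrictScalars k) = (minpoly C x).natDegree := by
    rw [relfinrank_eq_finrank_of_le hCC']
    have h : extendScalars hCC' = C⟮x⟯ :=
      restrictScalars_injective k (by rw [extendScalars_restrictScalars])
    rw [h, adjoin.finrank hint]
  have h1 : 0 < (minpoly C x).natDegree := minpoly.natDegree_pos hint
  have h2 : (minpoly C x).natDegree ≤ d :=
    (natDegree_le_natDegree (minpoly.min C x hq'3 hroot)).trans (hq'2 ▸ hq2)
  refine ⟨(C⟮x⟯).restrictScalars k, hCC', hx', ?_⟩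
  rw [← relfinrank_mul_relfinrank hFC hCC', hdeg]
  exact Nat.Coprime.mul_left hcop
    (Nat.coprime_of_lt_prime h1.ne' (lt_of_le_of_lt h2 hd) hp).symm

theorem LocPowKf_finset (p d : ℕ) (hp : p.Prime) (hd : d < p) (F C : IntermediateField k Om)
    (hFC : F ≤ C) (hcop : Nat.Coprime (relfinrank F C) p) (s : Finset Om)
    (hs : ∀ x ∈ s, LocPowKf_Root d C x) :
    ∃ C' : IntermediateField k Om, C ≤ C' ∧ (∀ x ∈ s, x ∈ C') ∧
      Nat.Coprime (relfinrank F C') p := by
  classical
  induction s using Finset.induction_on with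
  | empty => exact ⟨C, le_rfl, fun x hx => absurd hx (Finset.notMem_empty x), hcop⟩
  | insert a s _ ih =>
    obtain ⟨C₁, h1, h2, h3⟩ := ih (fun x hx => hs x (Finset.mem_insert_of_mem hx))
    obtain ⟨C₂, h4, h5, h6⟩ := LocPowKf_step p d hp hd F C₁ (hFC.trans h1) h3 a
      ((hs a (Finset.mem_insert_self a s)).mono h1)
    refine ⟨C₂, h1.trans h4, fun x hx => ?_, h6⟩
    rcases Finset.mem_insert.1 hx with rfl | hx
    · exact h5
    · exact h4 (h2 x hx)

/-- intermediate fields of an extension of degree prime to `p`. -/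
theorem LocPowKf_coprime_of_le (p : ℕ) (F F' C : IntermediateField k Om) (h1 : F ≤ F') (h2 : F' ≤ C)
    (hcop : Nat.Coprime (relfinrank F C) p) : Nat.Coprime (relfinrank F F') p := by
  rw [← relfinrank_mul_relfinrank h1 h2] at hcop
  exact Nat.Coprime.coprime_mul_right hcop

end Fermat.Agent.MR.Lift
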