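import Fermat.Agent.MR.Lift.SkelInterface
import Fermat.Agent.MR.Lift.LocPowDesc
import Fermat.Agent.MR.Lift.LocPowKfAbs
import Fermat.Agent.S28.NewPrime
import Fermat.Agent.S28.FN7f
import Fermat.Agent.INJ.Inst.Basic

/-!
# MR / Lift, task LIFT-S3 (helper99): `LocPow` descends from level `lcm (N', 4)` to level `N'`

`Kf k M` (`M ∣ 4 N'`) lies in a field obtained from `Kf k N'` by adjoining successively roots of the
monic cubics `Φ₂ (X, j (q ^ d))`; hence its degree is prime to `p ≥ 5`, and the norm argument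
`stmt_LocPowDesc` applies.
-/

set_option autoImplicit false
set_option synthInstance.maxHeartbeats 400000

noncomputable section

namespace Fermat.Agent.MR.Lift

open Polynomial IntermediateField AlgebraicCurve ModularCurve
open Fermat.Agent.INJ Fermat.Agent.INJ.Inst
open Fermat.Agent.S24 (Qbar FF)
open Fermat.Agent.S28 (Kf)

section deg

variable (k : Type) [Field k]

theorem LocPowKf_evY_mem (C : IntermediateField k (LaurentSeries k)) {y : LaurentSeries k}
    (hy : y ∈ C) (c : k[X]) : S28.evY y c ∈ C := by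
  induction c using Polynomial.induction_on' with
  | add a b ha hb => rw [map_add]; exact C.add_mem ha hb
  | monomial n a =>
    rw [S28.evY, Polynomial.coe_eval₂RingHom, Polynomial.eval₂_monomial,
      ← S28.NewPrime.algebraMap_eq_C]
    exact C.mul_mem (C.algebraMap_mem a) (C.pow_mem hy n)

theorem LocPowKf_root {Φ : k[X][X]} (hΦ : S28.IsModPoly 2 Φ)
    (C : IntermediateField k (LaurentSeries k)) (d : ℕ) (hd : d ≠ 0) (hy : S28.jd k d ∈ C) :
    LocPowKf_Root 3 C (S28.jd k (d * 2)) := by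
  refine ⟨Φ.map (S28.evY (S28.jd k d)), hΦ.1.map _, ?_, fun i => ?_, ?_⟩
  · exact (natDegree_map_le).trans (le_of_eq hΦ.2.1)
  · rw [coeff_map]
    exact LocPowKf_evY_mem k C hy _
  · rw [eval_map]
    exact S28.NewPrime.ev2_jd_mul two_ne_zero hΦ d hd

theorem LocPowKf_le {N' M : ℕ} (h : N' ∣ M) : Kf k N' ≤ Kf k M := by
  apply IntermediateField.adjoin.mono
  rintro x ⟨d, hd, hdN, rfl⟩
  exact ⟨d, hd, hdN.trans h, rfl⟩

theorem LocPowKf_deg (p : ℕ) (hp : p.Prime) (h5 : 5 ≤ p) (N' M : ℕ) (hN' : N' ≠ 0)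
    (hN'M : N' ∣ M) (hM : M ∣ 4 * N') :
    Nat.Coprime (relfinrank (Kf k N') (Kf k M)) p := by
  classical
  obtain ⟨Φ, hΦ⟩ := S28.FN7.hasModPoly k Nat.prime_two
  have hd0 : ∀ d ∈ N'.divisors, d ≠ 0 := fun d hd => (Nat.pos_of_mem_divisors hd).ne'
  -- stage 1
  obtain ⟨C₁, h1, h2, h3⟩ := LocPowKf_finset p 3 hp (by omega) (Kf k N') (Kf k N') le_rfl
    (by rw [relfinrank_self]; exact Nat.coprime_one_left p)
    (N'.divisors.image fun d => S28.jd k (d * 2)) (by
      intro x hx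
      obtain ⟨d, hd, rfl⟩ := Finset.mem_image.1 hx
      exact LocPowKf_root k hΦ _ d (hd0 d hd) (jd_mem_full k hN' (Nat.dvd_of_mem_divisors hd)))
  -- stage 2
  obtain ⟨C₂, h4, h5', h6⟩ := LocPowKf_finset p 3 hp (by omega) (Kf k N') C₁ h1 h3
    (N'.divisors.image fun d => S28.jd k (d * 2 * 2)) (by
      intro x hx
      obtain ⟨d, hd, rfl⟩ := Finset.mem_image.1 hx
      exact LocPowKf_root k hΦ _ (d * 2) (Nat.mul_ne_zero (hd0 d hd) two_ne_zero)
        (h2 _ (Finset.mem_image_of_mem _ hd)))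
  refine LocPowKf_coprime_of_le p _ _ C₂ (LocPowKf_le k hN'M) ?_ h6
  refine IntermediateField.adjoin_le_iff.2 ?_
  rintro x ⟨e, he, heM, rfl⟩
  obtain ⟨k₁, k₂, hk₁, hk₂, rfl⟩ := (Nat.dvd_mul).1 (heM.trans hM)
  have hk₂' : k₂ ∈ N'.divisors := Nat.mem_divisors.2 ⟨hk₂, hN'⟩
  have hx : qExpand k (k₁ * k₂) (jqModC k) = S28.jd k (k₁ * k₂) := by rw [S28.jd, S28.Vq_eq]
  rw [hx]
  have hk4 : k₁ ≤ 4 := Nat.le_of_dvd (by norm_num) hk₁
  have hcases : k₁ = 1 ∨ k₁ = 2 ∨ k₁ = 4 := by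
    interval_cases k₁ <;> simp_all
  rcases hcases with rfl | rfl | rfl
  · rw [one_mul]
    exact h4 (h1 (jd_mem_full k hN' hk₂))
  · rw [mul_comm]
    exact h4 (h2 _ (Finset.mem_image_of_mem _ hk₂'))
  · have : 4 * k₂ = k₂ * 2 * 2 := by ring
    rw [this]
    exact h5' _ (Finset.mem_image_of_mem (fun d => S28.jd k (d * 2 * 2)) hk₂')

theorem LocPowKf_gen (p : ℕ) (hp : p.Prime) (h5 : 5 ≤ p) (N' M : ℕ) (hN' : N' ≠ 0)
    (hN'M : N' ∣ M) (hM4 : M ∣ 4 * N') (t g : Kf k N') (t' g' : Kf k M)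
    (ht : (t : LaurentSeries k) = (t' : LaurentSeries k))
    (hg : (g : LaurentSeries k) = (g' : LaurentSeries k)) (hg0 : g ≠ 0)
    (hL : LocPow k t' g' p) : LocPow k t g p := by
  have hle : Kf k N' ≤ Kf k M := LocPowKf_le k hN'M
  have hcop := LocPowKf_deg k p hp h5 N' M hN' hN'M hM4
  let _ : Algebra (Kf k N') (Kf k M) := (IntermediateField.inclusion hle).toAlgebra
  have : IsScalarTower k (Kf k N') (Kf k M) := IsScalarTower.of_algebraMap_eq' rfl
  have hfr : Module.finrank (Kf k N') (Kf k M) = relfinrank (Kf k N') (Kf k M) := by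
    rw [relfinrank_eq_finrank_of_le hle]
    rfl
  have hcop' : Nat.Coprime (Module.finrank (Kf k N') (Kf k M)) p := hfr ▸ hcop
  have : FiniteDimensional (Kf k N') (Kf k M) := by
    apply FiniteDimensional.of_finrank_pos
    rcases Nat.eq_zero_or_pos (Module.finrank (Kf k N') (Kf k M)) with h0 | h0
    · rw [h0, Nat.coprime_zero_left] at hcop'
      omega
    · exact h0
  have e1 : algebraMap (Kf k N') (Kf k M) t = t' := Subtype.ext ht
  have e2 : algebraMap (Kf k N') (Kf k M) g = g' := Subtype.ext hg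
  exact stmt_LocPowDesc k (Kf k N') (Kf k M) t g p hcop' hg0 (by rw [e1, e2]; exact hL)

end deg

/-- (S3) descent of `LocPow` from level `M = lcm (N', 4)` to level `N'`. -/
theorem stmt_LocPowKf : Stmt_LocPowKf := by
  intro p hp h5 A _ N' _ _ _ M _ hM t g t' g' ht hg hg0 hL
  have hN'M : N' ∣ M := hM ▸ Nat.dvd_lcm_left N' 4
  have hM4 : M ∣ 4 * N' := hM ▸ Nat.lcm_dvd (Dvd.intro_left 4 rfl) (Dvd.intro N' rfl)
  exact LocPowKf_gen (kA A) p hp h5 N' M (NeZero.ne N') hN'M hM4 t g t' g' ht hg hg0 hL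

end Fermat.Agent.MR.Lift

end
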