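import Fermat.Agent.MR.Lift.Interface
import Fermat.Agent.S24.FundId

/-!
# MR / Lift : (P1) from valuation rings to `LocPow` in any characteristic (`Stmt_LocPowOfPDiv`)

Semi-local approximation in the Dedekind domain `Bbar` = integral closure of `k[tb]` in `Fb`
(`Fb / k(tb)` finite separable).
-/

set_option autoImplicit false

namespace Fermat.Agent.MR.Lift

open Polynomial IntermediateField IsDedekindDomain Fermat.Agent.INJ Fermat.Agent.S24
open scoped IntermediateField.algebraAdjoinAdjoin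

section Abstract

variable {B : Type*} [CommRing B] [IsDedekindDomain B]

/-- CRT: an element of `B` with prescribed (natural) orders at finitely many primes. -/
theorem LocPowOfPDiv_exists_intValuation_eq {ι : Type*} [Finite ι] (P : ι → HeightOneSpectrum B)
    (hP : Function.Injective P) (n : ι → ℕ) :
    ∃ y : B, y ≠ 0 ∧ ∀ i, (P i).intValuation y = WithZero.exp (-(n i : ℤ)) := by
  classical
  rcases isEmpty_or_nonempty ι with hι | ⟨⟨i₀⟩⟩
  · exact ⟨1, one_ne_zero, fun i => (hι.false i).elim⟩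
  have := Fintype.ofFinite ι
  choose π hπ using fun i => (P i).intValuation_exists_uniformizer
  obtain ⟨y, hy⟩ := IsDedekindDomain.exists_forall_sub_mem_ideal (s := Finset.univ)
    (fun i => (P i).asIdeal) (fun i => n i + 1) (fun i _ => (P i).prime)
    (fun i _ j _ hij h => hij (hP (HeightOneSpectrum.ext h)))
    (fun i => π i.1 ^ n i.1)
  have key : ∀ i, (P i).intValuation y = WithZero.exp (-(n i : ℤ)) := by
    intro i
    have h1 : (P i).intValuation (y - π i ^ n i) ≤ WithZero.exp (-((n i + 1 : ℕ) : ℤ)) :=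
      ((P i).intValuation_le_pow_iff_mem _ _).2 (hy i (Finset.mem_univ i))
    have h2 : (P i).intValuation (π i ^ n i) = WithZero.exp (-(n i : ℤ)) := by
      rw [map_pow, hπ, ← WithZero.exp_nsmul]
      simp
    have h3 : (P i).intValuation (y - π i ^ n i) < (P i).intValuation (π i ^ n i) := by
      rw [h2]
      refine lt_of_le_of_lt h1 ?_
      rw [WithZero.exp_lt_exp]
      push_cast
      omega
    have h4 : y = π i ^ n i + (y - π i ^ n i) := by ring
    rw [h4, Valuation.map_add_eq_of_lt_left _ h3, h2]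
  refine ⟨y, ?_, key⟩
  rintro rfl
  have := key i₀
  rw [map_zero] at this
  exact WithZero.exp_ne_zero this.symm

variable {F : Type*} [Field F] [Algebra B F] [IsFractionRing B F]

/-- weak approximation: an element of `F` with prescribed valuations at finitely many primes. -/
theorem LocPowOfPDiv_exists_val_eq {ι : Type*} [Finite ι] (P : ι → HeightOneSpectrum B)
    (hP : Function.Injective P) (a : ι → F) (ha : ∀ i, a i ≠ 0) :
    ∃ α : F, α ≠ 0 ∧ ∀ i, (P i).valuation F α = (P i).valuation F (a i) := by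
  set n : ι → ℤ := fun i => WithZero.log ((P i).valuation F (a i)) with hn
  have hexp : ∀ i, (P i).valuation F (a i) = WithZero.exp (n i) := fun i =>
    (WithZero.exp_log ((Valuation.ne_zero_iff _).2 (ha i))).symm
  obtain ⟨y₁, hy₁, h₁⟩ := LocPowOfPDiv_exists_intValuation_eq P hP (fun i => (-n i).toNat)
  obtain ⟨y₂, hy₂, h₂⟩ := LocPowOfPDiv_exists_intValuation_eq P hP (fun i => (n i).toNat)
  have hy₁' : algebraMap B F y₁ ≠ 0 := by
    simpa using (IsFractionRing.injective B F).ne hy₁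
  have hy₂' : algebraMap B F y₂ ≠ 0 := by
    simpa using (IsFractionRing.injective B F).ne hy₂
  refine ⟨algebraMap B F y₁ * (algebraMap B F y₂)⁻¹, mul_ne_zero hy₁' (inv_ne_zero hy₂'),
    fun i => ?_⟩
  rw [map_mul, map_inv₀, HeightOneSpectrum.valuation_of_algebraMap,
    HeightOneSpectrum.valuation_of_algebraMap, h₁ i, h₂ i, hexp i, ← WithZero.exp_neg,
    ← WithZero.exp_add]
  congr 1
  omega

/-- semi-local approximation of the local `p`-th roots. -/
theorem LocPowOfPDiv_approx (θ : B) (hθ : θ ≠ 0) (g : F) (p : ℕ)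
    (h : ∀ P : HeightOneSpectrum B, θ ∈ P.asIdeal →
      ∃ α : F, α ≠ 0 ∧ P.valuation F (α ^ p * g) = 1) :
    ∃ α : F, α ≠ 0 ∧ ∀ P : HeightOneSpectrum B, θ ∈ P.asIdeal →
      P.valuation F (α ^ p * g) = 1 := by
  have hfin : {P : HeightOneSpectrum B | θ ∈ P.asIdeal}.Finite := by
    have h0 : Ideal.span {θ} ≠ (0 : Ideal B) := by
      rw [Ne, Ideal.zero_eq_bot, Ideal.span_singleton_eq_bot]
      exact hθ
    refine (Ideal.finite_factors h0).subset ?_
    intro P hP
    exact Ideal.dvd_span_singleton.2 hP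
  have : Finite {P : HeightOneSpectrum B | θ ∈ P.asIdeal} := hfin
  choose a ha0 ha using fun P : {P : HeightOneSpectrum B | θ ∈ P.asIdeal} => h P.1 P.2
  obtain ⟨α, hα0, hα⟩ := LocPowOfPDiv_exists_val_eq (F := F)
    (fun P : {P : HeightOneSpectrum B | θ ∈ P.asIdeal} => P.1) Subtype.val_injective a ha0
  refine ⟨α, hα0, fun P hP => ?_⟩
  have h1 := hα ⟨P, hP⟩
  have h2 := ha ⟨P, hP⟩
  rw [map_mul, map_pow] at h2 ⊢
  rw [h1]
  exact h2

/-- clearing the denominators away from `θ = 0`. -/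
theorem LocPowOfPDiv_clear (θ q : B) (e : ℕ) (z : F)
    (hint : algebraMap B F (θ ^ e * q) * z ∈ (algebraMap B F).range)
    (h : ∀ P : HeightOneSpectrum B, θ ∈ P.asIdeal → P.valuation F z ≤ 1) :
    algebraMap B F q * z ∈ (algebraMap B F).range := by
  refine HeightOneSpectrum.mem_integers_of_valuation_le_one F _ (fun P => ?_)
  by_cases hP : θ ∈ P.asIdeal
  · rw [map_mul]
    exact mul_le_one' (P.valuation_le_one q) (h P hP)
  · obtain ⟨y, hy⟩ := hint
    have h1 : P.valuation F (algebraMap B F θ) = 1 := by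
      rw [HeightOneSpectrum.valuation_of_algebraMap]
      exact HeightOneSpectrum.intValuation_eq_one_iff.2 hP
    have h2 : P.valuation F (algebraMap B F y) ≤ 1 := P.valuation_le_one y
    rw [hy, map_mul (algebraMap B F), map_pow (algebraMap B F), mul_assoc, map_mul, map_pow, h1,
      one_pow, one_mul] at h2
    exact h2

end Abstract

section Concrete

variable {k Fb : Type*} [Field k] [Field Fb] [Algebra k Fb]

theorem LocPowOfPDiv_isInt_aeval (tb : Fb) (q : k[X]) : IsIntegral (polyRing k tb) (aeval tb q) := by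
  have hmem : aeval tb q ∈ polyRing k tb := by
    show aeval tb q ∈ Algebra.adjoin k {tb}
    rw [Algebra.adjoin_singleton_eq_range_aeval]
    exact ⟨q, rfl⟩
  exact isIntegral_algebraMap (R := polyRing k tb) (x := (⟨aeval tb q, hmem⟩ : polyRing k tb))

/-- clearing the denominators away from `tb = c`. -/
theorem LocPowOfPDiv_exists_clear {tb : Fb} [FiniteDimensional k⟮tb⟯ Fb]
    [IsDedekindDomain (intRing k tb)] [IsFractionRing (intRing k tb) Fb] (c : k) (z : Fb)
    (h : ∀ P : HeightOneSpectrum (intRing k tb),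
      (⟨aeval tb (X - C c), LocPowOfPDiv_isInt_aeval tb _⟩ : intRing k tb) ∈ P.asIdeal →
        P.valuation Fb z ≤ 1) :
    ∃ R : k[X], R.eval c ≠ 0 ∧ IsInt k tb (aeval tb R * z) := by
  have halg : IsAlgebraic (polyRing k tb) z :=
    (IsFractionRing.isAlgebraic_iff (polyRing k tb) k⟮tb⟯ Fb).2 (Algebra.IsAlgebraic.isAlgebraic z)
  obtain ⟨b, hb0, hb⟩ := halg.exists_integral_multiple
  obtain ⟨Bp, hBp'⟩ : ∃ Bp : k[X], aeval tb Bp = (b : Fb) := by
    have : (b : Fb) ∈ Algebra.adjoin k {tb} := b.2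
    rw [Algebra.adjoin_singleton_eq_range_aeval] at this
    exact this
  have hBp : Bp ≠ 0 := by
    rintro rfl
    rw [map_zero] at hBp'
    exact hb0 (Subtype.ext hBp'.symm)
  obtain ⟨q, hq, hdvd⟩ := exists_eq_pow_rootMultiplicity_mul_and_not_dvd Bp hBp c
  set e := Bp.rootMultiplicity c with he
  refine ⟨q, fun h0 => hdvd (dvd_iff_isRoot.2 h0), ?_⟩
  have key := LocPowOfPDiv_clear (B := intRing k tb) (F := Fb)
    (⟨aeval tb (X - C c), LocPowOfPDiv_isInt_aeval tb _⟩ : intRing k tb)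
    (⟨aeval tb q, LocPowOfPDiv_isInt_aeval tb _⟩ : intRing k tb) e z ?_ h
  · obtain ⟨y, hy⟩ := key
    have : aeval tb q * z = (y : Fb) := hy.symm
    rw [this]
    exact y.2
  · refine ⟨⟨b • z, hb⟩, ?_⟩
    show b • z = (aeval tb (X - C c)) ^ e * aeval tb q * z
    rw [Algebra.smul_def]
    show (b : Fb) * z = _
    rw [← hBp']
    conv_lhs => rw [hq]
    rw [map_mul, map_pow]

theorem LocPowOfPDiv_main {tb g : Fb} {p : ℕ} (ht : Transcendental k tb)
    [FiniteDimensional k⟮tb⟯ Fb] [Algebra.IsSeparable k⟮tb⟯ Fb] (hg : g ≠ 0)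
    (hdiv : PDiv k g p) : LocPow k tb g p := by
  intro c
  have := polyRing_isPrincipalIdealRing ht
  have : IsDedekindDomain (intRing k tb) :=
    integralClosure.isDedekindDomain (polyRing k tb) k⟮tb⟯ Fb
  have := intRing_isFractionRing (K := k) tb
  set θ : intRing k tb := ⟨aeval tb (X - C c), LocPowOfPDiv_isInt_aeval tb _⟩ with hθdef
  have hθ : θ ≠ 0 := by
    intro h0
    have h1 : aeval tb (X - C c) = 0 := congrArg Subtype.val h0
    exact X_sub_C_ne_zero c ((transcendental_iff.1 ht) _ h1)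
  have hloc : ∀ P : HeightOneSpectrum (intRing k tb), θ ∈ P.asIdeal →
      ∃ α : Fb, α ≠ 0 ∧ P.valuation Fb (α ^ p * g) = 1 := by
    intro P _
    obtain ⟨α, hα0, h1, h2⟩ := hdiv (P.valuation Fb).valuationSubring (fun a => by
      rw [Valuation.mem_valuationSubring_iff]
      have h3 : P.valuation Fb (algebraMap (intRing k tb) Fb
          (⟨aeval tb (C a), LocPowOfPDiv_isInt_aeval tb _⟩ : intRing k tb)) ≤ 1 :=
        P.valuation_le_one _
      have h4 : algebraMap (intRing k tb) Fb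
          (⟨aeval tb (C a), LocPowOfPDiv_isInt_aeval tb _⟩ : intRing k tb)
          = algebraMap k Fb a := aeval_C tb a
      rwa [h4] at h3)
    refine ⟨α, hα0, ?_⟩
    rw [Valuation.mem_valuationSubring_iff] at h1 h2
    rw [map_inv₀] at h2
    have h0 : P.valuation Fb (α ^ p * g) ≠ 0 :=
      (Valuation.ne_zero_iff _).2 (mul_ne_zero (pow_ne_zero _ hα0) hg)
    exact le_antisymm h1 ((inv_le_one₀ (zero_lt_iff.2 h0)).1 h2)
  obtain ⟨α, hα0, hα⟩ := LocPowOfPDiv_approx (F := Fb) θ hθ g p hloc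
  obtain ⟨R₁, hR₁, h₁⟩ := LocPowOfPDiv_exists_clear c (α ^ p * g) (fun P hP => (hα P hP).le)
  obtain ⟨R₂, hR₂, h₂⟩ := LocPowOfPDiv_exists_clear c (α ^ p * g)⁻¹ (fun P hP => by
    rw [map_inv₀, hα P hP, inv_one])
  have hpoly : ∀ q : k[X], IsInt k tb (aeval tb q) := LocPowOfPDiv_isInt_aeval tb
  refine ⟨α, R₁ * R₂, hα0, ?_, ?_, ?_⟩
  · rw [eval_mul]
    exact mul_ne_zero hR₁ hR₂
  · have h3 : IsInt k tb (aeval tb R₂ * (aeval tb R₁ * (α ^ p * g))) := (hpoly R₂).mul h₁
    rw [map_mul, mul_comm (aeval tb R₁), mul_assoc]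
    exact h3
  · have h3 : IsInt k tb (aeval tb R₁ * (aeval tb R₂ * (α ^ p * g)⁻¹)) := (hpoly R₁).mul h₂
    rw [map_mul, mul_assoc]
    exact h3

end Concrete

/-- **(P1)** -/
theorem stmt_LocPowOfPDiv : Stmt_LocPowOfPDiv := by
  intro k Fb _ _ _ _ tb g p ht hfd hsep hg _ hdiv
  exact LocPowOfPDiv_main ht hg hdiv

end Fermat.Agent.MR.Lift
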