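import Fermat.Agent.MR.Lift.SkelInterface
import Fermat.Agent.MR.Lift.LocPowOfPDiv
import Fermat.Agent.S24.PlacePrime

/-!
# MR / Lift : (S2) places → `LocPow` without characteristic zero (`Stmt_LocPowOfPlaces`) (helper59)
-/

set_option autoImplicit false
set_option synthInstance.maxHeartbeats 400000

namespace Fermat.Agent.MR.Lift

open Polynomial IntermediateField IsDedekindDomain AlgebraicCurve Fermat.Agent.INJ Fermat.Agent.S24
open scoped IntermediateField.algebraAdjoinAdjoin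

/-- a local `p`-th root of `g` up to a unit at a prime where the order of `g` is divisible by `p`. -/
theorem LocPowOfPlaces_loc {B F : Type*} [CommRing B] [IsDedekindDomain B] [Field F] [Algebra B F]
    [IsFractionRing B F] (P : HeightOneSpectrum B) (g : F) (hg : g ≠ 0) (p : ℕ) (d : ℤ)
    (hd : - WithZero.log (P.valuation F g) = p * d) :
    ∃ α : F, α ≠ 0 ∧ P.valuation F (α ^ p * g) = 1 := by
  obtain ⟨π, hπ⟩ := P.valuation_exists_uniformizer F
  have hπ0 : π ≠ 0 := by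
    rintro rfl
    rw [map_zero] at hπ
    exact WithZero.exp_ne_zero hπ.symm
  have hv0 : P.valuation F g ≠ 0 := (Valuation.ne_zero_iff _).2 hg
  have hvg : P.valuation F g = WithZero.exp (-((p : ℤ) * d)) := by
    rw [← hd, neg_neg, WithZero.exp_log hv0]
  refine ⟨π ^ (-d), zpow_ne_zero _ hπ0, ?_⟩
  rw [map_mul, map_pow, map_zpow₀, hπ, hvg, ← WithZero.exp_zsmul, ← WithZero.exp_nsmul,
    ← WithZero.exp_add, ← WithZero.exp_zero]
  congr 1
  simp only [smul_eq_mul, nsmul_eq_mul]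
  ring

theorem LocPowOfPlaces_main {k Fb : Type*} [Field k] [Field Fb] [Algebra k Fb] {tb g : Fb} {p : ℕ}
    (ht : Transcendental k tb) [FiniteDimensional k⟮tb⟯ Fb] [Algebra.IsSeparable k⟮tb⟯ Fb]
    (hg : g ≠ 0) (hdiv : ∀ x : Place k Fb, (p : ℤ) ∣ x.ord g) : LocPow k tb g p := by
  intro c
  have := polyRing_isPrincipalIdealRing ht
  have : IsDedekindDomain (intRing k tb) :=
    integralClosure.isDedekindDomain (polyRing k tb) k⟮tb⟯ Fb
  have := intRing_isFractionRing (K := k) tb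
  set θ : intRing k tb := ⟨aeval tb (X - C c), LocPowOfPDiv_isInt_aeval tb _⟩ with hθdef
  have hθ : θ ≠ 0 := by
    intro h0
    have h1 : aeval tb (X - C c) = 0 := congrArg Subtype.val h0
    exact X_sub_C_ne_zero c ((transcendental_iff.1 ht) _ h1)
  have hloc : ∀ P : HeightOneSpectrum (intRing k tb), θ ∈ P.asIdeal →
      ∃ α : Fb, α ≠ 0 ∧ P.valuation Fb (α ^ p * g) = 1 := by
    intro P _
    obtain ⟨d, hd⟩ := hdiv (Place.ofHeightOneSpectrum (K := k) P)
    rw [ord_ofHeightOneSpectrum P g hg] at hd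
    exact LocPowOfPlaces_loc P g hg p d hd
  obtain ⟨α, hα0, hα⟩ := LocPowOfPDiv_approx (F := Fb) θ hθ g p hloc
  obtain ⟨R₁, hR₁, h₁⟩ := LocPowOfPDiv_exists_clear c (α ^ p * g) (fun P hP => (hα P hP).le)
  obtain ⟨R₂, hR₂, h₂⟩ := LocPowOfPDiv_exists_clear c (α ^ p * g)⁻¹ (fun P hP => by
    rw [map_inv₀, hα P hP, inv_one])
  have hpoly : ∀ q : k[X], IsInt k tb (aeval tb q) := LocPowOfPDiv_isInt_aeval tb
  refine ⟨α, R₁ * R₂, hα0, ?_, ?_, ?_⟩
  · rw [eval_mul]
    exact mul_ne_zero hR₁ hR₂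
  · have h3 : IsInt k tb (aeval tb R₂ * (aeval tb R₁ * (α ^ p * g))) := (hpoly R₂).mul h₁
    rw [map_mul, mul_comm (aeval tb R₁), mul_assoc]
    exact h3
  · have h3 : IsInt k tb (aeval tb R₁ * (aeval tb R₂ * (α ^ p * g)⁻¹)) := (hpoly R₁).mul h₂
    rw [map_mul, mul_assoc]
    exact h3

/-- **(S2)** -/
theorem stmt_LocPowOfPlaces : Stmt_LocPowOfPlaces := by
  intro k Fb _ _ _ _ tb g p ht hfd hsep hg _ hdiv
  exact LocPowOfPlaces_main ht hg hdiv

end Fermat.Agent.MR.Lift
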