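import Fermat.Agent.MR.Lift.SkelInterface
import Fermat.Agent.BR.Inst.LKf
import Fermat.Agent.ORD.Dep.GOApi
import Fermat.Agent.INJ.P17

/-!
# MR / Lift (LIFT-S5) : assembly of the contract `MR.Skel.Stmt_LIFT` (task 1361, helper58)
-/

set_option autoImplicit false
set_option synthInstance.maxHeartbeats 400000

noncomputable section

namespace Fermat.Agent.MR.Lift

open Polynomial IntermediateField AlgebraicCurve ModularCurve
open Fermat.Agent.INJ Fermat.Agent.INJ.Inst Fermat.Agent.BR.Inst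
open Fermat.Agent.S24 (Qbar FF jF)
open Fermat.Agent.S28 (Kf)

/-- `k(j(q^d) : d ∣ N) ⊆ k(j(q^d) : d ∣ M)` for `N ∣ M`. -/
theorem SkelTop_Kf_le (k : Type) [Field k] {N M : ℕ} (h : N ∣ M) : Kf k N ≤ Kf k M := by
  apply IntermediateField.adjoin.mono
  rintro x ⟨d, hd0, hd, rfl⟩
  exact ⟨d, hd0, hd.trans h, rfl⟩

set_option maxHeartbeats 2000000 in
/-- the two `LocPow` statements at a level `M` prime to `p`, from the divisibility of the divisor. -/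
theorem SkelTop_locPow (h2 : Stmt_LocPowOfPlaces) (hJ : Stmt_ChartJ) (p : ℕ) [Fact p.Prime]
    (A : ValuationSubring Qb) (hA : A.LiesOverPrime p) (M : ℕ) [NeZero M] (hpM : ¬ p ∣ M)
    (ub : Kf (kA A) M) (hub0 : ub ≠ 0) (hPDiv : Skel.PDiv (kA A) p M ub) :
    ∃ t : Kf (kA A) M, (t : LaurentSeries (kA A)) = S28.jd (kA A) 1 ∧
      LocPow (kA A) t ub p ∧ LocPow (kA A) t⁻¹ ub p := by
  have hAC : IsAlgClosed (kA A) := S18G.isAlgClosed_kA A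
  obtain ⟨L, D, hG⟩ := exists_gaussS M A
  have hL : L = Kf (kA A) M := stmt_LKf M p hpM A hA L D hG.gauss
  subst hL
  obtain ⟨hC1, hC2, hj⟩ := hJ M p hpM A hA _ D hG.gauss
  have htb0 : D.rd (jF M) ≠ 0 := by
    intro h0
    exact hC1.trans (by rw [h0]; exact isAlgebraic_zero)
  have hinv : D.rd (jF M)⁻¹ = (D.rd (jF M))⁻¹ := RedData.rd_inv htb0
  have hfin : FiniteDimensional (kA A)⟮D.rd (jF M)⟯ (Kf (kA A) M) :=
    stmt_ResFinite _ _ _ _ D (jF M) hC1.t_mem hC1.trans hC1.fin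
  have hfin' : FiniteDimensional (kA A)⟮(D.rd (jF M))⁻¹⟯ (Kf (kA A) M) := by
    rw [← hinv]
    exact stmt_ResFinite _ _ _ _ D (jF M)⁻¹ hC2.t_mem hC2.trans hC2.fin
  have htr' : Transcendental (kA A) (D.rd (jF M))⁻¹ := by
    rw [← hinv]; exact hC2.trans
  have hsep' : Algebra.IsSeparable (kA A)⟮(D.rd (jF M))⁻¹⟯ (Kf (kA A) M) := by
    rw [← hinv]; exact hC2.sep
  have hp0 : 0 < p := (Fact.out : p.Prime).pos
  exact ⟨D.rd (jF M), hj,
    h2 (kA A) (Kf (kA A) M) (D.rd (jF M)) ub p hC1.trans hfin hC1.sep hub0 hp0 hPDiv,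
    h2 (kA A) (Kf (kA A) M) (D.rd (jF M))⁻¹ ub p htr' hfin' hsep' hub0 hp0 hPDiv⟩

set_option maxHeartbeats 1000000 in
theorem skel_LIFT (hC : Stmt_LIFTCong) (h1 : Stmt_ResP) (h2 : Stmt_LocPowOfPlaces)
    (h3 : Stmt_LocPowKf) (h4 : Stmt_HeckeRed) (hJ : Stmt_ChartJ) : MR.Skel.Stmt_LIFT := by
  intro p _ hp hp5 A hA N' _ hsq hpN' M _ _ hM a Good hGood u huN _hDiv hHecke ub hRed hPDiv hnp
  have : Fact p.Prime := ⟨hp⟩
  have hRed' := hRed
  obtain ⟨hub0, c, _hc, hcu⟩ := hRed'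
  have hub0' : (ub : LaurentSeries (kA A)) ≠ 0 := fun h => hub0 (Subtype.ext h)
  -- `ub` lies in `Kf k N'`
  have hGO : ORD.Dep.GO A (ORD.Dep.cst c * (u : LaurentSeries Qbar)) :=
    ORD.Dep.GO_of_rd_ne_zero (by rw [hcu]; exact hub0')
  have hmem : ORD.Dep.cst c * (u : LaurentSeries Qbar) ∈ modularFunctionFieldBar (N' * p) :=
    mul_mem ((modularFunctionFieldBar (N' * p)).algebraMap_mem c) huN
  have hubN : (ub : LaurentSeries (kA A)) ∈ Kf (kA A) N' := by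
    rw [← hcu]
    exact h1 p hp A hA N' hpN' _ hmem hGO
  -- `p ∤ M`
  have hpM : ¬ p ∣ M := by
    intro hd
    rw [hM] at hd
    have h5 : p ∣ N' * 4 := hd.trans (Nat.lcm_dvd_mul N' 4)
    rcases (Nat.Prime.dvd_mul hp).mp h5 with h6 | h6
    · exact hpN' h6
    · have := Nat.le_of_dvd (by norm_num) h6
      omega
  have hN'M : N' ∣ M := by rw [hM]; exact Nat.dvd_lcm_left N' 4
  -- level `M`
  obtain ⟨t', ht', hLP1', hLP2'⟩ := SkelTop_locPow h2 hJ p A hA M hpM ub hub0 hPDiv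
  -- level `N'`
  obtain ⟨L, D, hG⟩ := exists_gaussS N' A
  have hL : L = Kf (kA A) N' := stmt_LKf N' p hpN' A hA L D hG.gauss
  subst hL
  obtain ⟨-, -, hj⟩ := hJ N' p hpN' A hA _ D hG.gauss
  have hg0 : (⟨(ub : LaurentSeries (kA A)), hubN⟩ : Kf (kA A) N') ≠ 0 := by
    intro h
    exact hub0' (congrArg Subtype.val h)
  have hLP1 : LocPow (kA A) (D.rd (jF N')) (⟨(ub : LaurentSeries (kA A)), hubN⟩ : Kf (kA A) N') p :=
    h3 p hp hp5 A hA N' hsq hpN' M hM (D.rd (jF N')) ⟨_, hubN⟩ t' ub (hj.trans ht'.symm) rfl hg0 hLP1'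
  have hLP2 : LocPow (kA A) (D.rd (jF N'))⁻¹
      (⟨(ub : LaurentSeries (kA A)), hubN⟩ : Kf (kA A) N') p := by
    refine h3 p hp hp5 A hA N' hsq hpN' M hM (D.rd (jF N'))⁻¹ ⟨_, hubN⟩ t'⁻¹ ub ?_ rfl hg0 hLP2'
    show ((D.rd (jF N') : Kf (kA A) N') : LaurentSeries (kA A))⁻¹ = (t' : LaurentSeries (kA A))⁻¹
    rw [hj, ht']
  have hnp' : ¬ ∃ w : Kf (kA A) N', w ^ p = ⟨(ub : LaurentSeries (kA A)), hubN⟩ := by
    rintro ⟨w, hw⟩
    refine hnp ⟨⟨(w : LaurentSeries (kA A)), SkelTop_Kf_le (kA A) hN'M w.2⟩, ?_⟩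
    apply Subtype.ext
    exact (congrArg Subtype.val hw).symm
  refine hC N' p hp5 hpN' A hA _ D hG ⟨_, hubN⟩ hLP1 hLP2 hnp' a Good
    (th (ub : LaurentSeries (kA A)) / (ub : LaurentSeries (kA A))) (div_mul_cancel₀ _ hub0') ?_
  intro ℓ hℓ hℓN hGoodℓ n
  have : NeZero ℓ := ⟨hℓ.ne_zero⟩
  exact h4 p hp A hA M u ub hRed ℓ hℓ (hGood ℓ hGoodℓ).2 (a ℓ) (hHecke ℓ hℓ hℓN hGoodℓ) _
    (div_mul_cancel₀ _ hub0') n

end Fermat.Agent.MR.Lift

end
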