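import Fermat.Agent.MR.Lift.All
import Fermat.Agent.MR.Lift.SkelTop
import Fermat.Agent.MR.Lift.ResP
import Fermat.Agent.MR.Lift.LocPowOfPlaces
import Fermat.Agent.MR.Lift.LocPowKf
import Fermat.Agent.MR.Lift.HeckeRed

/-!
# MR / LIFT : the contract `MR.Skel.Stmt_LIFT`, unconditionally (helper66)
-/

set_option synthInstance.maxHeartbeats 400000

namespace Fermat.Agent.MR.Lift

/-- **[LIFT]**, unconditionally. -/
theorem all_skel_LIFT : MR.Skel.Stmt_LIFT :=
  skel_LIFT all_LIFTCong stmt_ResP stmt_LocPowOfPlaces stmt_LocPowKf stmt_HeckeRed stmt_ChartJ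

end Fermat.Agent.MR.Lift
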