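import Fermat.Agent.MR.Skel.Interface
import Fermat.Agent.MR.Lift.InstInterface

/-!
# MR / Lift : adapter from `Stmt_LIFTCong` to the contract `MR.Skel.Stmt_LIFT` (architect: helper66)

`N'` squarefree prime to `p ≥ 5`, `M = lcm (N', 4)`, `u ∈ FF (M p)` coming from level `N' p`,
`ub = rd_∞ (c u) ∈ Kf k M`.
* (S1) `ub` lies in `Kf k N'` (the residue field of `v_∞` at level `N' p` is that of level `N'`);
* (S2) places → `LocPow` in characteristic `p`;
* (S3) `LocPow` descends from `Kf k M` to `Kf k N'` (degree `2` or `6`);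
* (S4) the Hecke relation `N_ℓ u ~ u ^ a` reduces to `T_ℓ y = a y`, `y = θ ub / ub`.
-/

set_option autoImplicit false
set_option synthInstance.maxHeartbeats 400000

noncomputable section

namespace Fermat.Agent.MR.Lift

open Polynomial IntermediateField AlgebraicCurve ModularCurve
open Fermat.Agent.INJ Fermat.Agent.INJ.Inst
open Fermat.Agent.S24 (Qbar FF)
open Fermat.Agent.S28 (Kf)

/-- (S1) the residue field of `v_∞` at level `N' p` is `Kf k N'`, for EVERY `N'` prime to `p`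
(copy of `BR/Inst/BasicS.lean` + `BR/Inst/Res.lean` with `c = 0` and `INJ.Inst.all_ChartS`; the
auxiliary level `a ∣ M` of `BR.Inst.Ctx` is not used there except for the chart). -/
def Stmt_ResP : Prop :=
  ∀ (p : ℕ), p.Prime → ∀ A : ValuationSubring Qbar, A.LiesOverPrime p →
  ∀ (N' : ℕ) [NeZero N'], ¬ p ∣ N' →
  ∀ x : LaurentSeries Qbar, x ∈ modularFunctionFieldBar (N' * p) → ORD.Dep.GO A x →
    ORD.Dep.rd A x ∈ Kf (kA A) N'

/-- (S2) `INJ.Inst.Stmt_LocPow` without characteristic zero. -/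
def Stmt_LocPowOfPlaces : Prop :=
  ∀ (k Fb : Type) [Field k] [IsAlgClosed k] [Field Fb] [Algebra k Fb] (tb g : Fb) (p : ℕ),
    Transcendental k tb → FiniteDimensional k⟮tb⟯ Fb → Algebra.IsSeparable k⟮tb⟯ Fb → g ≠ 0 →
    0 < p → (∀ x : Place k Fb, (p : ℤ) ∣ x.ord g) → LocPow k tb g p

/-- (S3) descent of `LocPow` from level `M = lcm (N', 4)` to level `N'`. -/
def Stmt_LocPowKf : Prop :=
  ∀ (p : ℕ), p.Prime → 5 ≤ p → ∀ A : ValuationSubring Qbar, A.LiesOverPrime p →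
  ∀ (N' : ℕ) [NeZero N'], Squarefree N' → ¬ p ∣ N' → ∀ (M : ℕ) [NeZero M], M = Nat.lcm N' 4 →
  ∀ (t g : Kf (kA A) N') (t' g' : Kf (kA A) M),
    (t : LaurentSeries (kA A)) = (t' : LaurentSeries (kA A)) →
    (g : LaurentSeries (kA A)) = (g' : LaurentSeries (kA A)) → g ≠ 0 →
    LocPow (kA A) t' g' p → LocPow (kA A) t g p

/-- (S4) reduction of the Hecke relation. -/
def Stmt_HeckeRed : Prop :=
  ∀ (p : ℕ) [NeZero p], p.Prime → ∀ A : ValuationSubring Qbar, A.LiesOverPrime p →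
  ∀ (M : ℕ) [NeZero M] [NeZero (M * p)] (u : FF (M * p)) (ub : Kf (kA A) M),
    Skel.RedTo A p M u ub →
  ∀ (ℓ : ℕ) [NeZero ℓ], ℓ.Prime → ℓ ≠ p → ∀ a : ℤ, Skel.HeckeRel (M * p) p ℓ a u →
  ∀ y : LaurentSeries (kA A), y * (ub : LaurentSeries (kA A)) = th (ub : LaurentSeries (kA A)) →
    ∀ n : ℤ, y.coeff (ℓ * n) + (if (ℓ : ℤ) ∣ n then (ℓ : kA A) * y.coeff (n / ℓ) else 0)
      = (a : kA A) * y.coeff n

end Fermat.Agent.MR.Lift

end
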