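import Fermat.Agent.MR.Lift.InstInterface
import Fermat.Agent.INJ.P17
import Fermat.Agent.INJ.Inst.Basic
import Fermat.Agent.S18.Glue28
import Fermat.Agent.ES.Mid.HF3

/-!
# MR / Lift : LIFT-T, the assembly : `Stmt_LIFT`, `Stmt_LIFT0`, `Stmt_LIFTCong`.
-/

set_option autoImplicit false
set_option synthInstance.maxHeartbeats 400000

noncomputable section

namespace Fermat.Agent.MR.Lift

open Polynomial IntermediateField AlgebraicCurve ModularCurve UpperHalfPlane CongruenceSubgroup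
open Fermat.Agent.INJ Fermat.Agent.INJ.Inst Fermat.Agent.BR.Inst
open Fermat.Agent.S24 (Qbar FF funAlg iota jF MerGerm)

/-! ### series lemmas -/

/-- `θ = q d/dq` over a commutative ring. -/
def Top_thA {R : Type} [CommRing R] (f : LaurentSeries R) : LaurentSeries R where
  coeff n := (n : R) * f.coeff n
  isPWO_support' := f.isPWO_support.mono (fun n hn h => hn (by
    show (n : R) * f.coeff n = 0
    rw [h, mul_zero]))

theorem Top_coeffMap_thA {R k : Type} [CommRing R] [Field k] (φ : R →+* k) (f : LaurentSeries R) :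
    coeffMap φ (Top_thA f) = th (coeffMap φ f) := by
  ext n
  rw [coeffMap_coeff, P16_thetaFun_coeff, coeffMap_coeff]
  show φ ((n : R) * f.coeff n) = _
  rw [map_mul, map_intCast]

theorem Top_serOf_coeff_nat {R : Type} [CommRing R] (c : ℕ → R) (n : ℕ) :
    (serOf c).coeff (n : ℤ) = c n := by
  rw [serOf, HahnSeries.ofPowerSeries_apply_coeff, PowerSeries.coeff_mk]

theorem Top_serOf_coeff_neg {R : Type} [CommRing R] (c : ℕ → R) {n : ℤ} (hn : n < 0) :
    (serOf c).coeff n = 0 := by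
  have h := PowerSeries.coeff_coe (PowerSeries.mk c) n
  rw [if_pos hn] at h
  exact h

theorem Top_coeffMap_injective {R S : Type} [CommRing R] [CommRing S] (φ : R →+* S)
    (hφ : Function.Injective φ) : Function.Injective (coeffMap φ) := by
  intro x y h
  ext n
  apply hφ
  rw [← coeffMap_coeff, ← coeffMap_coeff, h]

/-- a series without negative coefficients is `serOf` of its coefficients. -/
theorem Top_eq_serOf {R : Type} [CommRing R] (y : LaurentSeries R)
    (hy : ∀ n : ℤ, n < 0 → y.coeff n = 0) : serOf (fun n : ℕ => y.coeff (n : ℤ)) = y := by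
  ext n
  rcases lt_or_ge n 0 with hn | hn
  · rw [Top_serOf_coeff_neg _ hn, hy n hn]
  · obtain ⟨m, rfl⟩ := Int.eq_ofNat_of_zero_le hn
    rw [Top_serOf_coeff_nat]

/-- the final computation. -/
theorem Top_core {k : Type} [Field k] (yb g1 f1 hS tb g dg : LaurentSeries k)
    (h1 : yb * g1 = f1 * th tb) (hg1 : g1 ≠ 0) (h2 : hS = f1 / g1) (h3 : hS = dg / g) (hg : g ≠ 0)
    (h4 : th g = th tb * dg) : yb * g = th g := by
  have h5 : f1 = hS * g1 := by rw [h2, div_mul_cancel₀ _ hg1]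
  have h6 : yb = hS * th tb := by
    apply mul_right_cancel₀ hg1
    rw [h1, h5]
    ring
  rw [h6, h3, h4]
  field_simp

theorem Top_th_jd_ne_zero (k : Type) [Field k] : th (S28.jd k 1) ≠ 0 := by
  intro h
  have h1 : (th (S28.jd k 1)).coeff (-1) = 0 := by rw [h]; rfl
  have h2 : (S28.jd k 1).coeff (-1) = 1 := by
    have := coeff_jd k (N := 1) one_ne_zero
    simpa using this
  rw [P16_thetaFun_coeff, h2, mul_one] at h1
  have h3 : ((-1 : ℤ) : k) = -1 := by push_cast; rfl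
  rw [h3] at h1
  exact one_ne_zero (neg_eq_zero.mp h1)

/-! ### the derivations -/

/-- the derivation `d/dj` on the residue field. -/
theorem Top_deltab (hCJ : Stmt_ChartJ) (hTD : Stmt_ThetaDer) (N : ℕ) [NeZero N] (p : ℕ)
    [Fact p.Prime] (hpN : ¬ p ∣ N) (A : ValuationSubring Qb) (hA : A.LiesOverPrime p)
    (L : IntermediateField (kA A) (LaurentSeries (kA A))) (D : RedData Qb (FL N) (kA A) L)
    (hG : IsGauss N A L D) :
    ∃ δb : Derivation (kA A) L L, δb (D.rd (jF N)) = 1 ∧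
      ∀ x : L, th (x : LaurentSeries (kA A)) =
        th (S28.jd (kA A) 1) * ((δb x : L) : LaurentSeries (kA A)) := by
  obtain ⟨hC1, -, hrd⟩ := hCJ N p hpN A hA L D hG
  obtain ⟨δb, h1, h2⟩ := hTD (kA A) L (D.rd (jF N))
    (by rw [hrd]; exact Top_th_jd_ne_zero (kA A)) hC1.sep
  refine ⟨δb, h1, fun x => ?_⟩
  rw [h2 x, hrd]

/-- the derivation `d/dj` on `FL N`. -/
theorem Top_delta (hTD : Stmt_ThetaDer) (N : ℕ) [NeZero N]
    (hfin : FiniteDimensional Qb⟮jF N⟯ (FL N)) :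
    ∃ δ : Derivation Qb (FL N) (FL N), δ (jF N) = 1 ∧
      ∀ x : FL N, th (x : LaurentSeries Qb) =
        th (S28.jd Qb 1) * ((δ x : FL N) : LaurentSeries Qb) := by
  have hsep : Algebra.IsSeparable Qb⟮jF N⟯ (FL N) := inferInstance
  obtain ⟨δ, h1, h2⟩ := hTD Qb (modularFunctionFieldBar N) (jF N)
    (by rw [coe_jF]; exact Top_th_jd_ne_zero Qb) hsep
  refine ⟨δ, h1, fun x => ?_⟩
  rw [h2 x, coe_jF]

/-! ### LIFT -/

set_option maxHeartbeats 1000000 in
theorem stmt_LIFT (hCJ : Stmt_ChartJ) (hBJ : Stmt_BranchJ) (hTD : Stmt_ThetaDer)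
    (hTJ : Stmt_TameJ) (hDL : Stmt_DLogHol) (hHL : Stmt_HolLift) (hAN : Stmt_AN)
    (hCB : Stmt_CuspBdd) (hBI : Stmt_BddInt) : Stmt_LIFT := by
  intro N _ p _ hp5 hpN A hA L D hG g hg hLP1 hLP2
  have hAC : IsAlgClosed (kA A) := S18G.isAlgClosed_kA A
  have hchar : CharP (kA A) p := ES.Mid.HF3.charP_residue A p hA
  obtain ⟨hC1, hC2, hrd⟩ := hCJ N p hpN A hA L D hG.gauss
  obtain ⟨hB1, hB2⟩ := hBJ N p hp5 A hA L D hG.gauss
  obtain ⟨δ, hδ1, -⟩ := Top_delta hTD N hC1.fin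
  obtain ⟨δb, hδb1, hδb⟩ := Top_deltab hCJ hTD N p hpN A hA L D hG.gauss
  obtain ⟨hT1, hT2⟩ := hTJ N p hp5 A hA L D hG.gauss δ hδ1
  have hhol : IsHol (kA A) (D.rd (jF N)) (δb g / g) :=
    hDL Qb (FL N) (kA A) L p D (jF N) hC1 hC2 hB1 hB2 δ δb hδ1 hδb1 hT1 hT2 g hg hLP1 hLP2
  obtain ⟨h, hO, hrdh, hholK⟩ := hHL Qb (FL N) (kA A) L D (jF N) hC1 hC2 _ hhol
  obtain ⟨f, hf1, hf2⟩ := hAN N h hholK
  -- the series `x = h θ j`
  set x : LaurentSeries Qb := (h : LaurentSeries Qb) * th (jF N : LaurentSeries Qb) with hx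
  obtain ⟨a, ha0, ha⟩ := hCB N A f (fun n : ℕ => x.coeff (n : ℤ)) hf1
  have ha' : ∀ n : ℤ, a * x.coeff n ∈ A := by
    intro n
    rcases lt_or_ge n 0 with hn | hn
    · rw [hf2 n hn, mul_zero]; exact A.zero_mem
    · obtain ⟨m, rfl⟩ := Int.eq_ofNat_of_zero_le hn
      exact ha m
  obtain ⟨f1, g1, hg1, hfg⟩ := hG.exists_ratio h hO
  have hjA : coeffMap A.subtype (Top_thA (S28.jd A 1)) = th (jF N : LaurentSeries Qb) := by
    rw [Top_coeffMap_thA, coeffMap_jd, coe_jF]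
  have hxg : x * coeffMap A.subtype g1 = coeffMap A.subtype (f1 * Top_thA (S28.jd A 1)) := by
    rw [map_mul, hjA, ← hfg, hx]
    ring
  obtain ⟨y, hy⟩ := hBI p A hA x (f1 * Top_thA (S28.jd A 1)) g1 a ha0 ha' hg1 hxg
  have hinj : Function.Injective (coeffMap A.subtype) :=
    Top_coeffMap_injective _ Subtype.val_injective
  have hyneg : ∀ n : ℤ, n < 0 → y.coeff n = 0 := by
    intro n hn
    apply Subtype.val_injective
    have h1 : (coeffMap A.subtype y).coeff n = 0 := by rw [hy]; exact hf2 n hn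
    rw [coeffMap_coeff] at h1
    exact h1
  have hyg : y * g1 = f1 * Top_thA (S28.jd A 1) := by
    apply hinj
    rw [map_mul, hy, hxg]
  refine ⟨f, fun n => y.coeff (n : ℤ), fun n => ?_, ?_⟩
  · rw [hf1 n, ← hy, coeffMap_coeff]
    rfl
  · -- the reduction
    have hser : serOf (fun n : ℕ => IsLocalRing.residue A (y.coeff (n : ℤ))) =
        coeffMap (IsLocalRing.residue A) y := by
      have h1 := Top_eq_serOf (coeffMap (IsLocalRing.residue A) y) (fun n hn => by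
        rw [coeffMap_coeff, hyneg n hn, map_zero])
      rw [← h1]
      rfl
    rw [hser]
    have hred := congrArg (coeffMap (IsLocalRing.residue A)) hyg
    rw [map_mul, map_mul, Top_coeffMap_thA, coeffMap_jd] at hred
    obtain ⟨-, hratio⟩ := hG.ratio h f1 g1 hg1 hfg
    have hgS : (g : LaurentSeries (kA A)) ≠ 0 := fun h0 => hg (Subtype.ext h0)
    refine Top_core _ _ _ ((D.rd h : L) : LaurentSeries (kA A)) (S28.jd (kA A) 1) _
      ((δb g : L) : LaurentSeries (kA A)) hred hg1 hratio ?_ hgS (hδb g)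
    rw [hrdh]
    rfl

/-! ### LIFT0 -/

set_option maxHeartbeats 1000000 in
theorem stmt_LIFT0 (hCJ : Stmt_ChartJ) (hTD : Stmt_ThetaDer) (hKD : Stmt_KerDer) : Stmt_LIFT0 := by
  intro N _ p _ hpN A hA L D hG g hg
  have hAC : IsAlgClosed (kA A) := S18G.isAlgClosed_kA A
  have hchar : CharP (kA A) p := ES.Mid.HF3.charP_residue A p hA
  obtain ⟨hC1, -, -⟩ := hCJ N p hpN A hA L D hG.gauss
  obtain ⟨δb, hδb1, hδb⟩ := Top_deltab hCJ hTD N p hpN A hA L D hG.gauss
  have hfin : FiniteDimensional (kA A)⟮D.rd (jF N)⟯ L :=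
    stmt_ResFinite _ _ _ _ D (jF N) hC1.t_mem hC1.trans hC1.fin
  have h0 : δb g = 0 := by
    have h1 := hδb g
    rw [hg] at h1
    rcases mul_eq_zero.mp h1.symm with h2 | h2
    · exact absurd h2 (Top_th_jd_ne_zero (kA A))
    · exact Subtype.ext h2
  exact hKD (kA A) L p (D.rd (jF N)) hC1.trans hfin hC1.sep δb hδb1 g h0

/-! ### LIFTCong -/

set_option maxHeartbeats 1000000 in
theorem stmt_LIFTCong (hL : Stmt_LIFT) (hL0 : Stmt_LIFT0) (hBA : Stmt_BridgeA) :
    Stmt_LIFTCong := by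
  intro N _ p _ hp5 hpN A hA L D hG g hLP1 hLP2 hnp a Good y hy hrel
  have hp0 : p ≠ 0 := (Fact.out : p.Prime).ne_zero
  have hg : g ≠ 0 := by
    rintro rfl
    exact hnp ⟨0, zero_pow hp0⟩
  have hgS : (g : LaurentSeries (kA A)) ≠ 0 := fun h0 => hg (Subtype.ext h0)
  have hth : th (g : LaurentSeries (kA A)) ≠ 0 := fun h0 =>
    hnp (hL0 N p hpN A hA L D hG g h0)
  obtain ⟨f, c, hf, hc⟩ := hL N p hp5 hpN A hA L D hG g hg hLP1 hLP2
  have hyc : serOf (fun n => IsLocalRing.residue A (c n)) = y :=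
    mul_right_cancel₀ hgS (hc.trans hy.symm)
  have hy0 : y ≠ 0 := by
    rintro rfl
    rw [zero_mul] at hy
    exact hth hy.symm
  have hcoeff : ∀ n : ℕ, y.coeff (n : ℤ) = IsLocalRing.residue A (c n) := fun n => by
    rw [← hyc, Top_serOf_coeff_nat]
  refine hBA N p a Good A hA f c hf ?_ ?_
  · by_contra hcon
    push Not at hcon
    apply hy0
    ext n
    rcases lt_or_ge n 0 with hn | hn
    · rw [← hyc, Top_serOf_coeff_neg _ hn]; rfl
    · obtain ⟨m, rfl⟩ := Int.eq_ofNat_of_zero_le hn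
      rw [hcoeff, hcon m]; rfl
  · intro ℓ hℓ hℓN hGood n
    have h1 := hrel ℓ hℓ hℓN hGood (n : ℤ)
    have h2 : ((ℓ : ℤ) * (n : ℤ)) = ((ℓ * n : ℕ) : ℤ) := by push_cast; rfl
    rw [h2, hcoeff, hcoeff] at h1
    rw [map_sub, map_add, map_mul, map_intCast, sub_eq_zero, ← h1]
    congr 1
    by_cases hd : ℓ ∣ n
    · have hd' : (ℓ : ℤ) ∣ (n : ℤ) := Int.natCast_dvd_natCast.mpr hd
      have h3 : ((n : ℤ) / (ℓ : ℤ)) = ((n / ℓ : ℕ) : ℤ) := by push_cast; rfl
      rw [if_pos hd, if_pos hd', h3, hcoeff, map_mul, map_natCast]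
    · have hd' : ¬ (ℓ : ℤ) ∣ (n : ℤ) := fun h => hd (Int.natCast_dvd_natCast.mp h)
      rw [if_neg hd, if_neg hd', map_zero]

end Fermat.Agent.MR.Lift

end
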